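import Mathlib

set_option autoImplicit false

namespace Fermat.Agent.S54V

open Polynomial

/-- Kaplansky's `u, u⁻¹` lemma: if a local ring `R` is integrally closed in a field `K` and
`u : K` is a root of a polynomial over `R` having a unit coefficient, then `u` or `u⁻¹` comes
from `R`. -/
theorem exists_algebraMap_eq_or_inv_of_aeval_eq_zero {R K : Type*} [CommRing R] [IsLocalRing R]
    [Field K] [Algebra R K] [IsIntegrallyClosedIn R K] :
    ∀ (n : ℕ) (p : R[X]), p.natDegree ≤ n → ∀ (u : K), aeval u p = 0 →
      (∃ i, IsUnit (p.coeff i)) →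
      (∃ r : R, algebraMap R K r = u) ∨ (∃ r : R, algebraMap R K r = u⁻¹) := by
  have hinj : Function.Injective (algebraMap R K) :=
    IsIntegralClosure.algebraMap_injective R R K
  intro n
  induction n with
  | zero =>
    intro p hp u hu ⟨i, hi⟩
    exfalso
    rw [Nat.le_zero] at hp
    rw [eq_C_of_natDegree_eq_zero hp, aeval_C] at hu
    have h0 : p.coeff 0 = 0 := hinj (by rw [hu, map_zero])
    have hp0 : p = 0 := by rw [eq_C_of_natDegree_eq_zero hp, h0, C_0]
    rw [hp0, coeff_zero] at hi
    exact not_isUnit_zero hi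
  | succ n ih =>
    intro p hp u hu ⟨i, hi⟩
    by_cases hdeg : p.natDegree ≤ n
    · exact ih p hdeg u hu ⟨i, hi⟩
    have hdeg' : p.natDegree = n + 1 := by omega
    by_cases ha : IsUnit p.leadingCoeff
    · -- `u` is integral
      left
      have hint : IsIntegral R (p.leadingCoeff • u) := isIntegral_leadingCoeff_smul p u hu
      obtain ⟨c, hc⟩ := ha
      have hint' : IsIntegral R u := by
        have := hint.smul (↑c⁻¹ : R)
        rwa [← hc, smul_smul, Units.inv_mul, one_smul] at this
      exact IsIntegrallyClosedIn.isIntegral_iff.mp hint'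
    · -- leading coefficient is a nonunit
      have hint : IsIntegral R (p.leadingCoeff • u) := isIntegral_leadingCoeff_smul p u hu
      obtain ⟨r, hr⟩ := IsIntegrallyClosedIn.isIntegral_iff.mp hint
      rw [Algebra.smul_def] at hr
      -- new polynomial of smaller degree
      set p' : R[X] := p.eraseLead + C r * X ^ n with hp'
      have hp'deg : p'.natDegree ≤ n := by
        refine (natDegree_add_le _ _).trans (max_le ?_ ?_)
        · have := eraseLead_natDegree_le p
          omega
        · exact natDegree_C_mul_X_pow_le r n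
      have hp'u : aeval u p' = 0 := by
        have h1 : aeval u p = aeval u p.eraseLead +
            algebraMap R K p.leadingCoeff * u ^ (n + 1) := by
          conv_lhs => rw [← eraseLead_add_C_mul_X_pow p]
          rw [map_add, hdeg']
          simp [aeval_C]
        rw [hp', map_add, map_mul, aeval_C, map_pow, aeval_X, hr]
        rw [hu] at h1
        rw [h1]
        ring
      have hcoeff : ∀ j, j < n → p'.coeff j = p.coeff j := by
        intro j hj
        rw [hp', coeff_add, coeff_C_mul_X_pow, if_neg (by omega), add_zero,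
          eraseLead_coeff_of_ne]
        omega
      have hcoeffn : p'.coeff n = p.coeff n + r := by
        rw [hp', coeff_add, coeff_C_mul_X_pow, if_pos rfl, eraseLead_coeff_of_ne]
        omega
      have hi_ne : i ≠ n + 1 := by
        rintro rfl
        apply ha
        rwa [leadingCoeff, hdeg']
      have hi_le : i ≤ n := by
        by_contra hlt
        have : p.coeff i = 0 := coeff_eq_zero_of_natDegree_lt (by omega)
        rw [this] at hi
        exact not_isUnit_zero hi
      rcases Nat.lt_or_ge i n with hlt | hge
      · exact ih p' hp'deg u hp'u ⟨i, by rw [hcoeff i hlt]; exact hi⟩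
      · have hin : i = n := le_antisymm hi_le hge
        subst hin
        by_cases hu' : IsUnit (p'.coeff i)
        · exact ih p' hp'deg u hp'u ⟨i, hu'⟩
        · -- then `r` is a unit
          have hrunit : IsUnit r := by
            by_contra hrn
            have hmem1 : p'.coeff i ∈ IsLocalRing.maximalIdeal R :=
              (IsLocalRing.mem_maximalIdeal _).mpr hu'
            have hmem2 : r ∈ IsLocalRing.maximalIdeal R :=
              (IsLocalRing.mem_maximalIdeal _).mpr hrn
            have : p.coeff i ∈ IsLocalRing.maximalIdeal R := by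
              have h3 : p.coeff i = p'.coeff i - r := by rw [hcoeffn]; ring
              rw [h3]
              exact Ideal.sub_mem _ hmem1 hmem2
            exact (IsLocalRing.mem_maximalIdeal _).mp this hi
          right
          obtain ⟨c, hc⟩ := hrunit
          refine ⟨p.leadingCoeff * ↑c⁻¹, ?_⟩
          have hrK : algebraMap R K r ≠ 0 := by
            rw [← hc]
            intro h0
            have : (c : R) = 0 := hinj (by rw [h0, map_zero])
            exact c.ne_zero this
          have hu0 : u ≠ 0 := by
            rintro rfl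
            rw [mul_zero] at hr
            exact hrK hr
          have hcinv : algebraMap R K (↑c⁻¹ : R) = (algebraMap R K r)⁻¹ := by
            rw [← hc]
            apply eq_inv_of_mul_eq_one_left
            rw [← map_mul, Units.inv_mul, map_one]
          have haK : algebraMap R K p.leadingCoeff = algebraMap R K r * u⁻¹ := by
            rw [hr, mul_assoc, mul_inv_cancel₀ hu0, mul_one]
          rw [map_mul, hcinv, haK, mul_comm, ← mul_assoc, inv_mul_cancel₀ hrK, one_mul]

end Fermat.Agent.S54V

namespace Fermat.Agent.S54V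

open Polynomial nonZeroDivisors

section

variable (K : Type*) [Field K] [CharZero K] [Algebra.IsAlgebraic ℚ K]

instance isAlgebraic_int : Algebra.IsAlgebraic ℤ K :=
  (IsFractionRing.comap_isAlgebraic_iff (A := ℤ) (K := ℚ) (C := K)).mpr inferInstance

instance isFractionRing_integralClosure : IsFractionRing (integralClosure ℤ K) K :=
  integralClosure.isFractionRing_of_algebraic (A := ℤ) (L := K)
    (fun x hx => by simpa using hx)

instance isIntegrallyClosed_integralClosure : IsIntegrallyClosed (integralClosure ℤ K) :=
  (isIntegrallyClosed_iff_isIntegrallyClosedIn K).mpr inferInstance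

variable {K}
variable (Q : Ideal (integralClosure ℤ K)) [Q.IsPrime]

/-- The localization of the ring of integers at `Q`, as a subalgebra of `K`. -/
noncomputable def locSub : Subalgebra (integralClosure ℤ K) K :=
  Localization.subalgebra.ofField K Q.primeCompl Q.primeCompl_le_nonZeroDivisors

instance : IsLocalization.AtPrime (locSub Q) Q :=
  Localization.subalgebra.isLocalization_ofField K Q.primeCompl Q.primeCompl_le_nonZeroDivisors

instance : IsLocalRing (locSub Q) := IsLocalization.AtPrime.isLocalRing (locSub Q) Q

instance : IsFractionRing (locSub Q) K := by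
  unfold locSub
  rw [Localization.subalgebra.ofField_eq]
  infer_instance

instance : IsIntegrallyClosed (locSub Q) :=
  isIntegrallyClosed_of_isLocalization (locSub Q) Q.primeCompl Q.primeCompl_le_nonZeroDivisors

instance : IsIntegrallyClosedIn (locSub Q) K :=
  (isIntegrallyClosed_iff_isIntegrallyClosedIn K).mp inferInstance

end

end Fermat.Agent.S54V

namespace Fermat.Agent.S54V

open Polynomial nonZeroDivisors

section

variable {K : Type*} [Field K] [CharZero K] [Algebra.IsAlgebraic ℚ K]
variable (Q : Ideal (integralClosure ℤ K)) [Q.IsPrime]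

theorem mem_locSub_iff (x : K) :
    x ∈ locSub Q ↔ ∃ b s : integralClosure ℤ K, s ∉ Q ∧ x * (s : K) = (b : K) := by
  have h0 : ∀ s : integralClosure ℤ K, s ∉ Q → (s : K) ≠ 0 := by
    intro s hs h
    apply hs
    have : s = 0 := Subtype.ext h
    rw [this]; exact Q.zero_mem
  constructor
  · rintro ⟨a, s, hs, rfl⟩
    refine ⟨a, s, hs, ?_⟩
    have : (algebraMap (integralClosure ℤ K) K s) ≠ 0 := h0 s hs
    show algebraMap (integralClosure ℤ K) K a * (algebraMap (integralClosure ℤ K) K s)⁻¹ *
      algebraMap (integralClosure ℤ K) K s = algebraMap (integralClosure ℤ K) K a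
    rw [mul_assoc, inv_mul_cancel₀ this, mul_one]
  · rintro ⟨b, s, hs, h⟩
    refine ⟨b, s, hs, ?_⟩
    have : (s : K) ≠ 0 := h0 s hs
    show x = (b : K) * (s : K)⁻¹
    rw [← h, mul_assoc, mul_inv_cancel₀ this, mul_one]

theorem mem_or_inv_mem_locSub (x : K) : x ∈ locSub Q ∨ x⁻¹ ∈ locSub Q := by
  -- a primitive integer polynomial killing `x`
  obtain ⟨p, hp0, hpx⟩ := (Algebra.IsAlgebraic.isAlgebraic (R := ℤ) x)
  set q := p.primPart with hq
  have hqx : aeval x q = 0 := by
    have h1 : p = C p.content * q := p.eq_C_content_mul_primPart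
    have h2 : aeval x p = algebraMap ℤ K p.content * aeval x q := by
      conv_lhs => rw [h1]
      rw [map_mul, aeval_C]
    rw [hpx] at h2
    have hc : algebraMap ℤ K p.content ≠ 0 := by
      simpa using (content_eq_zero_iff.not.mpr hp0)
    exact (mul_eq_zero.mp h2.symm).resolve_left hc
  have hprim : q.IsPrimitive := p.isPrimitive_primPart
  let R := locSub Q
  set q' : R[X] := q.map (algebraMap ℤ R) with hq'
  have hq'x : aeval x q' = 0 := by
    rw [hq', aeval_map_algebraMap]; exact hqx
  have hunit : ∃ i, IsUnit (q'.coeff i) := by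
    by_contra hcon
    push Not at hcon
    -- the prime ideal of `ℤ` below the maximal ideal of `R`
    set I : Ideal ℤ := (IsLocalRing.maximalIdeal R).comap (algebraMap ℤ R) with hI
    have hIne : I ≠ ⊤ := Ideal.comap_ne_top _ (IsLocalRing.maximalIdeal.isMaximal R).ne_top
    obtain ⟨m, hm⟩ : ∃ m : ℤ, I = Ideal.span {m} :=
      ⟨_, (Submodule.IsPrincipal.span_singleton_generator I).symm⟩
    have hdvd : C m ∣ q := by
      rw [C_dvd_iff_dvd_coeff]
      intro i
      have : q.coeff i ∈ I := by
        rw [hI, Ideal.mem_comap, IsLocalRing.mem_maximalIdeal]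
        have := hcon i
        rwa [hq', coeff_map] at this
      rw [hm] at this
      exact Ideal.mem_span_singleton.mp this
    have hmu : IsUnit m := hprim m hdvd
    apply hIne
    rw [hm]
    exact Ideal.span_singleton_eq_top.mpr hmu
  rcases exists_algebraMap_eq_or_inv_of_aeval_eq_zero (R := R) (K := K) q'.natDegree q' le_rfl x
    hq'x hunit with ⟨r, hr⟩ | ⟨r, hr⟩
  · left; rw [← hr]; exact r.2
  · right; rw [← hr]; exact r.2

/-- The valuation subring of `K` attached to a prime of the ring of integers of `K`. -/
noncomputable def valSub : ValuationSubring K :=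
  { (locSub Q).toSubring with
    mem_or_inv_mem' := mem_or_inv_mem_locSub Q }

theorem mem_valSub_iff (x : K) :
    x ∈ valSub Q ↔ ∃ b s : integralClosure ℤ K, s ∉ Q ∧ x * (s : K) = (b : K) :=
  mem_locSub_iff Q x

omit [CharZero K] [Algebra.IsAlgebraic ℚ K] [Q.IsPrime] in
theorem coe_ne_zero_of_not_mem {s : integralClosure ℤ K} (hs : s ∉ Q) : (s : K) ≠ 0 := by
  intro h
  apply hs
  have : s = 0 := Subtype.ext h
  rw [this]; exact Q.zero_mem

theorem mem_nonunits_valSub_iff (x : K) :
    x ∈ (valSub Q).nonunits ↔
      ∃ b s : integralClosure ℤ K, b ∈ Q ∧ s ∉ Q ∧ x * (s : K) = (b : K) := by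
  rw [ValuationSubring.mem_nonunits_iff_exists_mem_maximalIdeal]
  constructor
  · rintro ⟨hxA, hmax⟩
    obtain ⟨b, s, hs, hxs⟩ := (mem_valSub_iff Q x).mp hxA
    refine ⟨b, s, ?_, hs, hxs⟩
    by_contra hb
    rw [IsLocalRing.mem_maximalIdeal] at hmax
    apply hmax
    have hb0 : (b : K) ≠ 0 := coe_ne_zero_of_not_mem Q hb
    have hs0 : (s : K) ≠ 0 := coe_ne_zero_of_not_mem Q hs
    have hyA : (s : K) * (b : K)⁻¹ ∈ valSub Q :=
      (mem_valSub_iff Q _).mpr ⟨s, b, hb, by rw [mul_assoc, inv_mul_cancel₀ hb0, mul_one]⟩
    refine IsUnit.of_mul_eq_one ⟨_, hyA⟩ ?_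
    apply Subtype.ext
    show x * ((s : K) * (b : K)⁻¹) = 1
    rw [← mul_assoc, hxs, mul_inv_cancel₀ hb0]
  · rintro ⟨b, s, hb, hs, hxs⟩
    have hxA : x ∈ valSub Q := (mem_valSub_iff Q x).mpr ⟨b, s, hs, hxs⟩
    refine ⟨hxA, ?_⟩
    rw [IsLocalRing.mem_maximalIdeal]
    intro hunit
    obtain ⟨⟨y, hyA⟩, hy⟩ := hunit.exists_right_inv
    have hy' : x * y = 1 := congrArg Subtype.val hy
    obtain ⟨b', s', hs', hys'⟩ := (mem_valSub_iff Q y).mp hyA
    have hK : ((s * s' : integralClosure ℤ K) : K) = ((b * b' : integralClosure ℤ K) : K) := by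
      push_cast
      rw [← hxs, ← hys']
      calc (s : K) * (s' : K) = (x * y) * ((s : K) * (s' : K)) := by rw [hy', one_mul]
        _ = x * (s : K) * (y * (s' : K)) := by ring
    have hB : s * s' = b * b' := Subtype.ext hK
    have hmem : s * s' ∈ Q := by rw [hB]; exact Q.mul_mem_right _ hb
    rcases (Ideal.IsPrime.mem_or_mem inferInstance hmem) with h | h
    · exact hs h
    · exact hs' h

end

end Fermat.Agent.S54V

namespace Fermat.Agent.S54V

/-- Interface: the localization of the ring of integers of `K` (algebraic over `ℚ`) at a prime `Q`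
is a valuation subring of `K`, with explicit membership and non-unit criteria. -/
theorem exists_valuationSubring_of_prime {K : Type*} [Field K] [CharZero K]
    [Algebra.IsAlgebraic ℚ K] (Q : Ideal (integralClosure ℤ K)) [Q.IsPrime] :
    ∃ A : ValuationSubring K,
      (∀ x : K, x ∈ A ↔ ∃ b s : integralClosure ℤ K, s ∉ Q ∧ x * (s : K) = (b : K)) ∧
      (∀ x : K, x ∈ A.nonunits ↔
        ∃ b s : integralClosure ℤ K, b ∈ Q ∧ s ∉ Q ∧ x * (s : K) = (b : K)) :=
  ⟨valSub Q, mem_valSub_iff Q, mem_nonunits_valSub_iff Q⟩

end Fermat.Agent.S54V
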