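import Mathlib
import Fermat.Prelude.Def_EllipticCurve_FrobeniusTrace
import Fermat.Prelude.Def_FLTPrelim_Ramification

/-!
Interface lemma for S54 (Part A): existence of a Frobenius element at every prime.

Strategy: pick a valuation subring `A` of the algebraic closure of `ℚ` with `l` a nonunit; let `B`
be the integral closure of `ℤ` and `Q` the prime of `B` cut out by `A`.  The profinite
surjectivity theorem for stabilizers gives `σ` fixing `Q` and inducing `x ↦ x ^ l` on `B ⧸ Q`.
Every element of `A` is a fraction `b / s` with `b, s ∈ B`, `s` a unit of `A`; this transfers the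
statement from `B` to `A`.
-/

set_option autoImplicit false
set_option linter.unusedVariables false
set_option linter.style.haveILetI false

namespace Fermat.Agent.S54

open Polynomial IsLocalRing Pointwise

noncomputable section

section General

variable {L : Type*} [Field L]

theorem mem_valuationSubring_of_isIntegral (A : ValuationSubring L) {x : L} (hx : IsIntegral ℤ x) :
    x ∈ A := by
  have h1 : IsIntegral A x := hx.tower_top
  obtain ⟨y, rfl⟩ := IsIntegrallyClosedIn.isIntegral_iff.mp h1
  exact y.2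

theorem valuation_le_one_of_isIntegral (A : ValuationSubring L) {x : L} (hx : IsIntegral ℤ x) :
    A.valuation x ≤ 1 :=
  (A.valuation_le_one_iff x).mpr (mem_valuationSubring_of_isIntegral A hx)

/-- Key lemma: if `x ∈ A` is a root of a polynomial over the integral closure `B` of `ℤ` having a
coefficient which is a unit of `A`, then `x = b / s` with `b, s ∈ B` and `s` a unit of `A`. -/
theorem exists_mul_mem_of_aeval_eq_zero (A : ValuationSubring L) (n : ℕ) :
    ∀ (p : (integralClosure ℤ L)[X]), p.natDegree ≤ n → ∀ x : L, A.valuation x ≤ 1 →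
      aeval x p = 0 → (∃ i, A.valuation ((p.coeff i : integralClosure ℤ L) : L) = 1) →
      ∃ s : L, IsIntegral ℤ s ∧ A.valuation s = 1 ∧ IsIntegral ℤ (s * x) := by
  induction n with
  | zero =>
    intro p hp x hx hpx ⟨i, hi⟩
    exfalso
    have hpC : p = C (p.coeff 0) := eq_C_of_natDegree_le_zero hp
    rw [hpC, aeval_C] at hpx
    have h0 : p.coeff 0 = 0 := by
      have : ((p.coeff 0 : integralClosure ℤ L) : L) = 0 := hpx
      exact_mod_cast this
    have : p = 0 := by rw [hpC, h0, C_0]
    rw [this] at hi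
    simp at hi
  | succ n ih =>
    intro p hp x hx hpx ⟨i, hi⟩
    by_cases hdeg : p.natDegree ≤ n
    · exact ih p hdeg x hx hpx ⟨i, hi⟩
    have hdeg' : p.natDegree = n + 1 := by omega
    set a : integralClosure ℤ L := p.leadingCoeff with ha
    have hax : IsIntegral ℤ ((a : L) * x) := by
      have h1 : IsIntegral (integralClosure ℤ L) (a • x) := isIntegral_leadingCoeff_smul p x hpx
      have h2 : IsIntegral ℤ (a • x) := isIntegral_trans _ h1
      simpa [Algebra.smul_def] using h2
    by_cases hav : A.valuation (a : L) = 1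
    · exact ⟨a, a.2, hav, hax⟩
    have hav' : A.valuation (a : L) < 1 :=
      lt_of_le_of_ne (valuation_le_one_of_isIntegral A a.2) hav
    set b : integralClosure ℤ L := ⟨(a : L) * x, hax⟩ with hb
    have hbv : A.valuation (b : L) < 1 := by
      show A.valuation ((a : L) * x) < 1
      rw [map_mul]
      exact mul_lt_one_of_lt_of_le hav' hx
    set p' : (integralClosure ℤ L)[X] := p.eraseLead + C b * X ^ n with hp'
    have hp'deg : p'.natDegree ≤ n := by
      refine (natDegree_add_le _ _).trans (max_le ?_ ?_)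
      · have := eraseLead_natDegree_le p
        omega
      · exact natDegree_C_mul_X_pow_le b n
    have hp'x : aeval x p' = 0 := by
      have h1 : p = p.eraseLead + C a * X ^ (n + 1) := by
        rw [ha, ← hdeg']
        exact (eraseLead_add_C_mul_X_pow p).symm
      have h2 : aeval x p = aeval x p.eraseLead + (a : L) * x ^ (n + 1) := by
        conv_lhs => rw [h1]
        simp [aeval_C]
      rw [hp', map_add, map_mul, aeval_C, map_pow, aeval_X]
      rw [h2] at hpx
      rw [← hpx]
      congr 1
      show (a : L) * x * x ^ n = (a : L) * x ^ (n + 1)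
      ring
    have hi_ne : i ≠ n + 1 := by
      rintro rfl
      apply hav
      rw [ha, leadingCoeff, hdeg']
      exact hi
    have hi_le : i ≤ n := by
      by_contra hlt
      have : p.coeff i = 0 := coeff_eq_zero_of_natDegree_lt (by omega)
      rw [this] at hi
      simp at hi
    have hcoeff : p'.coeff i = p.coeff i + (if i = n then b else 0) := by
      rw [hp', coeff_add, eraseLead_coeff_of_ne i (by omega), coeff_C_mul_X_pow]
    refine ih p' hp'deg x hx hp'x ⟨i, ?_⟩
    rw [hcoeff]
    split_ifs with hin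
    · push_cast
      rw [Valuation.map_add_eq_of_lt_left]
      · exact hi
      · rw [hi]; exact hbv
    · simpa using hi

theorem valuation_intCast_eq_one (A : ValuationSubring L) {l : ℕ} (hl : l.Prime)
    (hlA : (l : L) ∈ A.nonunits) {c : ℤ} (hc : ¬ (l : ℤ) ∣ c) : A.valuation (c : L) = 1 := by
  have hcop : IsCoprime c (l : ℤ) := by
    rw [Int.isCoprime_iff_gcd_eq_one]
    have := (Nat.Prime.coprime_iff_not_dvd hl).mpr (fun h => hc (Int.natCast_dvd.mpr h))
    rw [Int.gcd_comm]
    simpa [Int.gcd, Nat.coprime_iff_gcd_eq_one] using this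
  obtain ⟨u, w, huw⟩ := hcop
  have hint : ∀ z : ℤ, A.valuation (z : L) ≤ 1 := fun z =>
    (A.valuation_le_one_iff _).mpr (intCast_mem A z)
  have hlv : A.valuation ((l : ℤ) : L) < 1 := by
    have := (A.mem_nonunits_iff).mp hlA
    simpa using this
  apply le_antisymm (hint c)
  by_contra hlt
  push Not at hlt
  have h1 : A.valuation ((u * c + w * l : ℤ) : L) < 1 := by
    push_cast
    refine lt_of_le_of_lt (A.valuation.map_add _ _) (max_lt ?_ ?_)
    · rw [map_mul, mul_comm]
      exact mul_lt_one_of_lt_of_le hlt (hint u)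
    · rw [map_mul]
      have := hlv
      push_cast at this
      rw [mul_comm]
      exact mul_lt_one_of_lt_of_le this (hint w)
  rw [huw] at h1
  simp at h1

/-- Every element of `A` which is algebraic over `ℤ` is a fraction `b / s` of integral elements
with `s` a unit of `A`. -/
theorem exists_fraction [CharZero L] (A : ValuationSubring L) {l : ℕ} (hl : l.Prime)
    (hlA : (l : L) ∈ A.nonunits) {x : L} (hxalg : IsAlgebraic ℤ x) (hx : x ∈ A) :
    ∃ s : L, IsIntegral ℤ s ∧ A.valuation s = 1 ∧ IsIntegral ℤ (s * x) := by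
  obtain ⟨p, hp0, hpx⟩ := hxalg
  have hprim : p.primPart.IsPrimitive := p.isPrimitive_primPart
  have hpx' : aeval x p.primPart = 0 := by
    have h := p.eq_C_content_mul_primPart
    rw [h, map_mul, aeval_C] at hpx
    rcases mul_eq_zero.mp hpx with h0 | h0
    · exfalso
      have : p.content = 0 := by
        have : ((p.content : ℤ) : L) = 0 := by simpa using h0
        exact_mod_cast this
      exact hp0 (content_eq_zero_iff.mp this)
    · exact h0
  have hex : ∃ i, ¬ (l : ℤ) ∣ p.primPart.coeff i := by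
    by_contra hall
    push Not at hall
    have hdvd : C (l : ℤ) ∣ p.primPart := (C_dvd_iff_dvd_coeff _ _).mpr hall
    have hunit := hprim _ hdvd
    have := Int.isUnit_iff_natAbs_eq.mp hunit
    simp at this
    exact hl.one_lt.ne' this
  obtain ⟨i, hi⟩ := hex
  refine exists_mul_mem_of_aeval_eq_zero A _
    (p.primPart.map (algebraMap ℤ (integralClosure ℤ L))) le_rfl x
    ((A.valuation_le_one_iff x).mpr hx) ?_ ⟨i, ?_⟩
  · rw [aeval_map_algebraMap]; exact hpx'
  · rw [coeff_map]
    have : ((algebraMap ℤ (integralClosure ℤ L) (p.primPart.coeff i) : integralClosure ℤ L) : L)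
        = ((p.primPart.coeff i : ℤ) : L) := by simp
    rw [this]
    exact valuation_intCast_eq_one A hl hlA hi

theorem exists_valuationSubring_liesOver [CharZero L] {l : ℕ} (hl : l.Prime) :
    ∃ A : ValuationSubring L, (l : L) ∈ A.nonunits := by
  let R : Subring L := (Int.castRingHom L).range
  let lR : R := ⟨(l : L), ⟨(l : ℤ), by simp⟩⟩
  have hI : Ideal.span {lR} ≠ ⊤ := by
    rw [Ne, Ideal.span_singleton_eq_top]
    intro hunit
    obtain ⟨⟨y, m, rfl⟩, hy⟩ := isUnit_iff_exists_inv.mp hunit
    have h1 : ((l : L) * ((m : ℤ) : L)) = 1 := congrArg Subtype.val hy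
    have h2 : ((l : ℤ) * m) = 1 := by
      have : (((l : ℤ) * m : ℤ) : L) = ((1 : ℤ) : L) := by push_cast; exact h1
      exact Int.cast_injective this
    have h3 : (l : ℤ) ∣ 1 := ⟨m, h2.symm⟩
    have h4 : l ∣ 1 := by exact_mod_cast h3
    exact hl.one_lt.ne' (Nat.dvd_one.mp h4)
  obtain ⟨A, -, hA⟩ := Ideal.image_subset_nonunits_valuationSubring _ hI
  exact ⟨A, hA ⟨lR, Ideal.subset_span rfl, rfl⟩⟩

/-- The prime of the integral closure of `ℤ` cut out by a valuation subring. -/
def primeOf (A : ValuationSubring L) : Ideal (integralClosure ℤ L) where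
  carrier := {b | A.valuation (b : L) < 1}
  add_mem' {a b} ha hb := by
    show A.valuation ((a : L) + (b : L)) < 1
    exact lt_of_le_of_lt (A.valuation.map_add _ _) (max_lt ha hb)
  zero_mem' := by
    show A.valuation ((0 : integralClosure ℤ L) : L) < 1
    simp
  smul_mem' c b hb := by
    show A.valuation ((c : L) * (b : L)) < 1
    rw [map_mul, mul_comm]
    exact mul_lt_one_of_lt_of_le hb (valuation_le_one_of_isIntegral A c.2)

theorem mem_primeOf (A : ValuationSubring L) (b : integralClosure ℤ L) :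
    b ∈ primeOf A ↔ A.valuation (b : L) < 1 := Iff.rfl

instance primeOf_isPrime (A : ValuationSubring L) : (primeOf A).IsPrime := by
  refine ⟨?_, ?_⟩
  · rw [Ne, Ideal.eq_top_iff_one, mem_primeOf]
    simp
  · intro a b hab
    rw [mem_primeOf] at hab
    by_contra h
    push Not at h
    simp only [mem_primeOf, not_lt] at h
    have ha : A.valuation (a : L) = 1 := le_antisymm (valuation_le_one_of_isIntegral A a.2) h.1
    have hb : A.valuation (b : L) = 1 := le_antisymm (valuation_le_one_of_isIntegral A b.2) h.2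
    have : A.valuation ((a * b : integralClosure ℤ L) : L) = 1 := by
      push_cast
      rw [map_mul, ha, hb, one_mul]
    rw [this] at hab
    exact lt_irrefl _ hab

/-- Frobenius on the quotient, as a ring equivalence. -/
def frobEquiv [IsAlgClosed L] (A : ValuationSubring L) {l : ℕ} (hl : l.Prime)
    (hlA : (l : L) ∈ A.nonunits) :
    (integralClosure ℤ L ⧸ primeOf A) ≃+* (integralClosure ℤ L ⧸ primeOf A) := by
  haveI : Fact l.Prime := ⟨hl⟩
  haveI : IsDomain (integralClosure ℤ L ⧸ primeOf A) := Ideal.Quotient.isDomain _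
  haveI : Nontrivial (integralClosure ℤ L ⧸ primeOf A) :=
    Ideal.Quotient.nontrivial_iff.mpr (primeOf_isPrime A).ne_top
  haveI : CharP (integralClosure ℤ L ⧸ primeOf A) l := by
    rw [CharP.charP_iff_prime_eq_zero hl]
    have : ((l : integralClosure ℤ L)) ∈ primeOf A := by
      rw [mem_primeOf]
      have := (A.mem_nonunits_iff).mp hlA
      simpa using this
    have h2 := (Ideal.Quotient.eq_zero_iff_mem).mpr this
    simpa using h2
  refine RingEquiv.ofBijective (frobenius (integralClosure ℤ L ⧸ primeOf A) l) ⟨?_, ?_⟩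
  · exact frobenius_inj _ l
  · intro y
    obtain ⟨b, rfl⟩ := Ideal.Quotient.mk_surjective y
    obtain ⟨c, hc⟩ := IsAlgClosed.exists_pow_nat_eq (b : L) hl.pos
    have hcint : IsIntegral ℤ c := by
      apply IsIntegral.of_pow hl.pos
      rw [hc]; exact b.2
    refine ⟨Ideal.Quotient.mk _ ⟨c, hcint⟩, ?_⟩
    rw [frobenius_def, ← map_pow]
    congr 1
    exact Subtype.ext hc

theorem frobEquiv_apply [IsAlgClosed L] (A : ValuationSubring L) {l : ℕ} (hl : l.Prime)
    (hlA : (l : L) ∈ A.nonunits) (y : integralClosure ℤ L ⧸ primeOf A) :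
    frobEquiv A hl hlA y = y ^ l := rfl

end General

section Galois

variable {K L : Type*} [Field K] [Field L] [Algebra K L]

/-- The Galois group acts on the integral closure of `ℤ`. -/
@[reducible] def galActionInt : MulSemiringAction (L ≃ₐ[K] L) (integralClosure ℤ L) where
  smul g b := ⟨g b, map_isIntegral_int g b.2⟩
  one_smul b := Subtype.ext rfl
  mul_smul g h b := Subtype.ext rfl
  smul_zero g := Subtype.ext (map_zero g)
  smul_add g a b := Subtype.ext (map_add g _ _)
  smul_one g := Subtype.ext (map_one g)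
  smul_mul g a b := Subtype.ext (map_mul g _ _)

attribute [local instance] galActionInt

theorem coe_galActionInt_smul (g : L ≃ₐ[K] L) (b : integralClosure ℤ L) :
    ((g • b : integralClosure ℤ L) : L) = g b := rfl

instance smulCommClass_galActionInt : SMulCommClass (L ≃ₐ[K] L) ℤ (integralClosure ℤ L) where
  smul_comm g n b := Subtype.ext (by
    show g ((n • b : integralClosure ℤ L) : L) = n • g (b : L)
    simp)

theorem continuousSMul_galActionInt [Algebra.IsIntegral K L] :
    letI : TopologicalSpace (integralClosure ℤ L) := ⊥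
    ContinuousSMul (L ≃ₐ[K] L) (integralClosure ℤ L) := by
  letI : TopologicalSpace (integralClosure ℤ L) := ⊥
  haveI : DiscreteTopology (integralClosure ℤ L) := ⟨rfl⟩
  refine ⟨?_⟩
  apply IsLocallyConstant.continuous
  rw [IsLocallyConstant.iff_exists_open]
  rintro ⟨g, b⟩
  refine ⟨(g • (MulAction.stabilizer (L ≃ₐ[K] L) (b : L) : Set (L ≃ₐ[K] L))) ×ˢ {b}, ?_, ?_, ?_⟩
  · exact ((stabilizer_isOpen_of_isIntegral (K := K) (b : L)).leftCoset g).prod (isOpen_discrete _)
  · exact ⟨⟨1, by simp, by simp⟩, rfl⟩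
  · rintro ⟨g', b'⟩ ⟨⟨h, hh, rfl⟩, hb'⟩
    have hb'' : b' = b := hb'
    subst hb''
    apply Subtype.ext
    show (g * h) (b' : L) = g (b' : L)
    have : h (b' : L) = (b' : L) := hh
    simp [this]

theorem isInvariant_galActionInt {L : Type*} [Field L] [Algebra ℚ L] [IsGalois ℚ L] :
    Algebra.IsInvariant ℤ (integralClosure ℤ L) (L ≃ₐ[ℚ] L) := by
  refine ⟨fun b hb => ?_⟩
  have hfix : ∀ g : L ≃ₐ[ℚ] L, g (b : L) = (b : L) := fun g => congrArg Subtype.val (hb g)
  obtain ⟨q, hq⟩ :=
    (InfiniteGalois.mem_range_algebraMap_iff_fixed (k := ℚ) (K := L) (b : L)).mpr hfix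
  have hqint : IsIntegral ℤ q := by
    have : IsIntegral ℤ (algebraMap ℚ L q) := hq ▸ b.2
    exact (isIntegral_algebraMap_iff (algebraMap ℚ L).injective).mp this
  obtain ⟨n, hn⟩ := IsIntegrallyClosed.isIntegral_iff.mp hqint
  refine ⟨n, Subtype.ext ?_⟩
  show ((algebraMap ℤ (integralClosure ℤ L) n : integralClosure ℤ L) : L) = b
  rw [← hq, ← hn]
  simp

end Galois


section Main

attribute [local instance] galActionInt

variable {L : Type*} [Field L] [Algebra ℚ L] [IsAlgClosed L] [Algebra.IsAlgebraic ℚ L]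

/-- Elements of the Galois group stabilizing `primeOf A` map `A` into itself. -/
theorem map_mem_of_smul_primeOf_eq (A : ValuationSubring L) {l : ℕ} (hl : l.Prime)
    (hlA : (l : L) ∈ A.nonunits) (τ : L ≃ₐ[ℚ] L) (hτ : τ • primeOf A = primeOf A) {x : L}
    (hx : x ∈ A) : τ x ∈ A := by
  haveI : CharZero L := algebraRat.charZero L
  have hxalg : IsAlgebraic ℤ x :=
    (IsFractionRing.isAlgebraic_iff ℤ ℚ L).mpr (Algebra.IsAlgebraic.isAlgebraic x)
  obtain ⟨s, hs, hsv, hsx⟩ := exists_fraction A hl hlA hxalg hx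
  let sB : integralClosure ℤ L := ⟨s, hs⟩
  have hsQ : sB ∉ primeOf A := by
    rw [mem_primeOf]; show ¬ A.valuation s < 1; rw [hsv]; exact lt_irrefl _
  have hτsQ : τ • sB ∉ primeOf A := by
    intro h
    rw [← hτ] at h
    exact hsQ ((Ideal.smul_mem_pointwise_smul_iff).mp h)
  have hτsv : A.valuation (τ s) = 1 := by
    refine le_antisymm (valuation_le_one_of_isIntegral A (map_isIntegral_int τ hs)) ?_
    rw [mem_primeOf] at hτsQ
    exact not_lt.mp hτsQ
  have h1 : A.valuation (τ (s * x)) ≤ 1 :=
    valuation_le_one_of_isIntegral A (map_isIntegral_int τ hsx)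
  rw [map_mul, map_mul, hτsv, one_mul] at h1
  exact (A.valuation_le_one_iff _).mp h1

theorem exists_frobenius_general {l : ℕ} (hl : l.Prime) :
    ∃ (A : ValuationSubring L) (σ : L ≃ₐ[ℚ] L), A.LiesOverPrime l ∧ A.IsFrobeniusAt σ l := by
  haveI : CharZero L := algebraRat.charZero L
  haveI : IsAlgClosure ℚ L := ⟨inferInstance, inferInstance⟩
  haveI : IsGalois ℚ L := IsAlgClosure.isGalois ℚ L
  obtain ⟨A, hlA⟩ := exists_valuationSubring_liesOver (L := L) hl
  refine ⟨A, ?_⟩
  let P : Ideal ℤ := (primeOf A).under ℤ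
  haveI : (primeOf A).LiesOver P := ⟨rfl⟩
  letI : TopologicalSpace (integralClosure ℤ L) := ⊥
  haveI : DiscreteTopology (integralClosure ℤ L) := ⟨rfl⟩
  haveI : ContinuousSMul (L ≃ₐ[ℚ] L) (integralClosure ℤ L) := continuousSMul_galActionInt
  haveI : Algebra.IsInvariant ℤ (integralClosure ℤ L) (L ≃ₐ[ℚ] L) := isInvariant_galActionInt
  let frobAlg : (integralClosure ℤ L ⧸ primeOf A) ≃ₐ[ℤ ⧸ P] (integralClosure ℤ L ⧸ primeOf A) :=
    AlgEquiv.ofRingEquiv (f := frobEquiv A hl hlA) (by
      intro x
      obtain ⟨n, rfl⟩ := Ideal.Quotient.mk_surjective x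
      have h1 : (Ideal.Quotient.mk P n) = ((n : ℤ) : ℤ ⧸ P) := by simp
      rw [h1, map_intCast, map_intCast])
  obtain ⟨⟨σ, hσ⟩, hσ'⟩ :=
    Ideal.Quotient.stabilizerHom_surjective_of_profinite (G := L ≃ₐ[ℚ] L) P (primeOf A) frobAlg
  have hσQ : σ • primeOf A = primeOf A := hσ
  have hσinvQ : σ⁻¹ • primeOf A = primeOf A := by
    conv_lhs => rw [← hσQ]
    rw [inv_smul_smul]
  -- the congruence on `B`
  have hcong : ∀ b : integralClosure ℤ L, A.valuation (σ (b : L) - (b : L) ^ l) < 1 := by
    intro b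
    have h1 : Ideal.Quotient.stabilizerHom (primeOf A) P (L ≃ₐ[ℚ] L) ⟨σ, hσ⟩
        (Ideal.Quotient.mk _ b) = frobAlg (Ideal.Quotient.mk _ b) := by rw [hσ']
    rw [Ideal.Quotient.stabilizerHom_apply] at h1
    have h2 : frobAlg (Ideal.Quotient.mk _ b) = Ideal.Quotient.mk _ (b ^ l) := by
      show frobEquiv A hl hlA (Ideal.Quotient.mk _ b) = _
      rw [frobEquiv_apply, map_pow]
    rw [h2, Ideal.Quotient.eq, mem_primeOf] at h1
    exact h1
  refine ⟨σ, hlA, ?_⟩
  have hσA : σ ∈ A.decompositionSubgroup ℚ := by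
    rw [MulAction.mem_stabilizer_iff]
    ext x
    rw [ValuationSubring.mem_pointwise_smul_iff_inv_smul_mem]
    constructor
    · intro h
      have := map_mem_of_smul_primeOf_eq A hl hlA σ hσQ h
      simpa [AlgEquiv.smul_def] using this
    · intro h
      exact map_mem_of_smul_primeOf_eq A hl hlA σ⁻¹ hσinvQ h
  refine ⟨hσA, ?_⟩
  intro xbar
  obtain ⟨a, rfl⟩ := IsLocalRing.residue_surjective xbar
  rw [← IsLocalRing.ResidueField.residue_smul, ← map_pow]
  rw [← sub_eq_zero, ← map_sub, IsLocalRing.residue_eq_zero_iff, A.valuation_lt_one_iff]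
  show A.valuation (σ (a : L) - (a : L) ^ l) < 1
  have hxalg : IsAlgebraic ℤ (a : L) :=
    (IsFractionRing.isAlgebraic_iff ℤ ℚ L).mpr (Algebra.IsAlgebraic.isAlgebraic (a : L))
  obtain ⟨s, hs, hsv, hsx⟩ := exists_fraction A hl hlA hxalg a.2
  have h1 := hcong ⟨s, hs⟩
  have h2 := hcong ⟨s * a, hsx⟩
  simp only at h1 h2
  have hσa : A.valuation (σ (a : L)) ≤ 1 :=
    (A.valuation_le_one_iff _).mpr (map_mem_of_smul_primeOf_eq A hl hlA σ hσQ a.2)
  have key : s ^ l * (σ (a : L) - (a : L) ^ l) =
      -(σ s - s ^ l) * σ (a : L) + (σ (s * (a : L)) - (s * (a : L)) ^ l) := by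
    rw [map_mul]; ring
  have h3 : A.valuation (s ^ l * (σ (a : L) - (a : L) ^ l)) < 1 := by
    rw [key]
    refine lt_of_le_of_lt (A.valuation.map_add _ _) (max_lt ?_ h2)
    rw [map_mul, Valuation.map_neg]
    exact mul_lt_one_of_lt_of_le h1 hσa
  rwa [map_mul, map_pow, hsv, one_pow, one_mul] at h3


end Main

/-- Existence of a Frobenius element at every prime. -/
theorem exists_frobenius (l : ℕ) (hl : l.Prime) :
    ∃ (A : ValuationSubring (AlgebraicClosure ℚ))
      (σ : AlgebraicClosure ℚ ≃ₐ[ℚ] AlgebraicClosure ℚ),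
      A.LiesOverPrime l ∧ A.IsFrobeniusAt σ l := by
  have e : (AlgebraicClosure.instAlgebra ℚ : Algebra ℚ (AlgebraicClosure ℚ)) =
      DivisionRing.toRatAlgebra := Subsingleton.elim _ _
  have h : @Algebra.IsAlgebraic ℚ (AlgebraicClosure ℚ) _ _ (AlgebraicClosure.instAlgebra ℚ) :=
    AlgebraicClosure.isAlgebraic ℚ
  haveI : Algebra.IsAlgebraic ℚ (AlgebraicClosure ℚ) := e ▸ h
  exact exists_frobenius_general hl

end

end Fermat.Agent.S54
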