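-- Statement S20: `dim S₂(Γ₀(N)) = genusFormula N`.
-- Assembly (helper5) of the X0N project: the function field of `X₀(N)` over `ℂ` with its
-- `j`-coordinate (helper6, helper1, helper7), Riemann–Hurwitz counts (helper4, helper8, helper2,
-- helper9, helper7), Riemann–Roch for the divisor of `dj` (helper3, helper4), the dictionary
-- regular differentials ↪ weight-2 cusp forms (helper5), and the upper bound from the injectivity
-- of the Eichler–Shimura period map (helper5) with the bound on parabolic cohomology (helper9).
import Fermat.Statements.S20
import Fermat.Agent.X0N.S20_helper5_Reduction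
import Fermat.Agent.FF.RR_helper3_Final

set_option autoImplicit false
open CuspForm

namespace Fermat.Agent.S20

theorem result (N : ℕ) [NeZero N] :
    (Module.finrank ℂ (CuspForm (CongruenceSubgroup.Gamma0 N) 2) : ℚ) = ModularCurve.genusFormula N :=
  Fermat.Agent.X0N.Dict.finrank_cuspForm_eq_genusFormula_of_RR N
    (fun W hW =>
      ((Fermat.Agent.X0N.Dict.jCoordC N).two_mul_finrank_riemannRochSpace_D_x W hW).2)

end Fermat.Agent.S20
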