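-- Statement S21: Eichler–Shimura for `Γ₀(N)`: the period map pair is injective with image the
-- parabolic homomorphisms. Assembly (helper5): injectivity + image in parabolic homs (helper5,
-- ES package), `dim Hom_par ≤ 2 g` (helper9), `dim S₂(Γ₀(N)) = g` (S20).
import Fermat.Statements.S21
import Fermat.Agent.S20
import Fermat.Agent.X0N.ES_helper5_Final
import Fermat.Agent.X0N.ParHom_helper9_Main

set_option autoImplicit false
open ModularCurve

namespace Fermat.Agent.S21

theorem result (N : ℕ) [NeZero N] :
    Function.Injective (ModularCurve.periodHomPair N)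
      ∧ LinearMap.range (ModularCurve.periodHomPair N)
          = ModularCurve.Period.parabolicHoms ℂ (CongruenceSubgroup.Gamma0 N) ℂ :=
  Fermat.Agent.X0N.ES.eichlerShimura_of_dims N (Fermat.Agent.S20.result N)
    (Fermat.Agent.X0N.ParHom.parabolicHoms_finite_and_finrank_le N).1
    (Fermat.Agent.X0N.ParHom.parabolicHoms_finite_and_finrank_le N).2

end Fermat.Agent.S21
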