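import Mathlib
import Fermat.Prelude.Def_FLTPrelim_Modularity
import Fermat.Prelude.Def_ModularForm_HeckeOperatorForms
import Fermat.Prelude.Thm_ModularFormClass_qCoeff_heckeT
import Fermat.Prelude.Thm_ModularFormClass_qCoeff_heckeU

set_option autoImplicit false

namespace Fermat.Agent.S49E

open UpperHalfPlane ModularForm CongruenceSubgroup ModularFormClass
open scoped MatrixGroups

theorem one_mem_strictPeriods_Gamma0 (N : ℕ) : (1 : ℝ) ∈
    (CongruenceSubgroup.Gamma0 N : Subgroup (GL (Fin 2) ℝ)).strictPeriods := by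
  simp [CongruenceSubgroup.strictPeriods_Gamma0]

variable {N : ℕ}

/-- q-coefficients of `T_p f`. -/
theorem qCoeff_heckeTLin {p : ℕ} (hp : p.Prime) (hpN : ¬ p ∣ N)
    (f : CuspForm (Gamma0 N) 2) (n : ℕ) :
    qCoeff (CuspForm.heckeTLin 2 hp hpN f) n =
      qCoeff f (n * p) + if p ∣ n then (p : ℂ) * qCoeff f (n / p) else 0 := by
  rw [CuspForm.coe_heckeTLin_apply,
    ModularFormClass.qCoeff_heckeT f (one_mem_strictPeriods_Gamma0 N) hp.ne_zero n,
    ModularForm.coeffHeckeT_apply]
  norm_num

theorem qCoeff_heckeULin [NeZero N] {p : ℕ} (hp : p.Prime) (hpN : p ∣ N)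
    (f : CuspForm (Gamma0 N) 2) (n : ℕ) :
    qCoeff (CuspForm.heckeULin 2 hpN f) n = qCoeff f (n * p) := by
  rw [CuspForm.coe_heckeULin_apply,
    ModularFormClass.qCoeff_heckeU f (one_mem_strictPeriods_Gamma0 N) hp.ne_zero n,
    ModularForm.coeffHeckeU_apply]

theorem qCoeff_smul (c : ℂ) (f : CuspForm (Gamma0 N) 2) (n : ℕ) :
    qCoeff (⇑(c • f : CuspForm (Gamma0 N) 2)) n = c * qCoeff f n := by
  have h := ModularForm.qExpansion_smul (h := 1) one_pos (one_mem_strictPeriods_Gamma0 N) c f
  have hcoe : (⇑(c • f : CuspForm (Gamma0 N) 2) : ℍ → ℂ) = c • (⇑f : ℍ → ℂ) := rfl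
  rw [hcoe, qCoeff, h]
  simp [qCoeff]

theorem qCoeff_zero_eq_zero (f : CuspForm (Gamma0 N) 2) : qCoeff f 0 = 0 :=
  CuspFormClass.qExpansion_coeff_zero f one_pos (one_mem_strictPeriods_Gamma0 N)

theorem eq_zero_of_qCoeff_eq_zero (f : CuspForm (Gamma0 N) 2) (h : ∀ n, qCoeff f n = 0) :
    f = 0 := by
  have hq : qExpansion 1 f = 0 := by
    ext n
    simpa [qCoeff] using h n
  have : Fact (IsCusp OnePoint.infty (Gamma0 N : Subgroup (GL (Fin 2) ℝ))) :=
    ⟨Subgroup.isCusp_of_mem_strictPeriods one_pos (one_mem_strictPeriods_Gamma0 N)⟩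
  have h0 := (UpperHalfPlane.qExpansion_eq_zero_iff (h := 1) one_pos
    (SlashInvariantFormClass.periodic_comp_ofComplex f (one_mem_strictPeriods_Gamma0 N))
    (ModularFormClass.holo f) (ModularFormClass.bdd_at_infty f)).mp hq
  exact DFunLike.coe_injective h0

section Formal

variable {R : Type*} [CommRing R]

/-- The formal Hecke recursion. -/
def HeckeRec (lam ε b : ℕ → R) : Prop :=
  ∀ p : ℕ, p.Prime → ∀ n : ℕ,
    b (n * p) = lam p * b n - (if p ∣ n then ε p * b (n / p) else 0)

theorem HeckeRec.eq_zero_of_one {lam ε b : ℕ → R} (h : HeckeRec lam ε b) (h0 : b 0 = 0)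
    (h1 : b 1 = 0) : ∀ n, b n = 0 := by
  intro n
  induction n using Nat.strong_induction_on with
  | _ n ih =>
    rcases Nat.lt_or_ge n 2 with hn | hn
    · interval_cases n <;> assumption
    · have hp : (n.minFac).Prime := Nat.minFac_prime (by omega)
      have hdvd : n.minFac ∣ n := Nat.minFac_dvd n
      obtain ⟨m, hm⟩ := hdvd
      have hmlt : m < n := by
        have := hp.one_lt
        rcases Nat.eq_zero_or_pos m with rfl | hmpos
        · omega
        · nlinarith
      have hrel := h n.minFac hp m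
      rw [mul_comm] at hrel
      rw [hm, hrel, ih m hmlt]
      split_ifs with hd
      · have : m / n.minFac < n := lt_of_le_of_lt (Nat.div_le_self _ _) hmlt
        rw [ih _ this]; simp
      · simp

theorem HeckeRec.prime {lam ε b : ℕ → R} (h : HeckeRec lam ε b) (h1 : b 1 = 1)
    {p : ℕ} (hp : p.Prime) : b p = lam p := by
  have := h p hp 1
  rw [one_mul, h1, mul_one, if_neg (by simpa using hp.one_lt.ne')] at this
  simpa using this

theorem HeckeRec.mul_of_coprime {lam ε b : ℕ → R} (h : HeckeRec lam ε b) (h1 : b 1 = 1) :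
    ∀ m n : ℕ, m.Coprime n → b (m * n) = b m * b n := by
  intro m
  induction m using Nat.strong_induction_on with
  | _ m ih =>
    intro n hmn
    rcases Nat.lt_or_ge m 2 with hm | hm
    · interval_cases m
      · have : n = 1 := by simpa using hmn
        subst this; simp [h1]
      · simp [h1]
    · have hp : (m.minFac).Prime := Nat.minFac_prime (by omega)
      set p := m.minFac with hpdef
      obtain ⟨m', hm'⟩ := Nat.minFac_dvd m
      have hm'lt : m' < m := by
        have := hp.one_lt
        rcases Nat.eq_zero_or_pos m' with rfl | hmpos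
        · omega
        · rw [hm']; nlinarith
      have hpn : ¬ p ∣ n := by
        intro hpn
        have : p ∣ Nat.gcd m n := Nat.dvd_gcd (Nat.minFac_dvd m) hpn
        rw [hmn] at this
        exact hp.one_lt.ne' (Nat.dvd_one.mp this)
      have hm'n : m'.Coprime n := Nat.Coprime.coprime_dvd_left ⟨p, by rw [hm', mul_comm]⟩ hmn
      have e1 : m * n = (m' * n) * p := by rw [hm']; ring
      have e2 : m = m' * p := by rw [hm']; ring
      rw [e1, h p hp (m' * n)]
      conv_rhs => rw [e2, h p hp m']
      rw [ih m' hm'lt n hm'n]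
      by_cases hd : p ∣ m'
      · have hd' : p ∣ m' * n := Dvd.dvd.mul_right hd n
        rw [if_pos hd, if_pos hd']
        obtain ⟨m'', rfl⟩ := hd
        have hm''lt : m'' < m := by
          have := hp.one_lt
          rcases Nat.eq_zero_or_pos m'' with rfl | hpos
          · omega
          · nlinarith
        have hm''n : m''.Coprime n :=
          Nat.Coprime.coprime_dvd_left ⟨p, by ring⟩ hm'n
        have e3 : p * m'' * n / p = m'' * n := by
          rw [mul_assoc, Nat.mul_div_cancel_left _ hp.pos]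
        have e4 : p * m'' / p = m'' := Nat.mul_div_cancel_left _ hp.pos
        rw [e3, e4, ih m'' hm''lt n hm''n]
        ring
      · have hd' : ¬ p ∣ m' * n := by
          intro hdv
          rcases (Nat.Prime.dvd_mul hp).mp hdv with h' | h'
          · exact hd h'
          · exact hpn h'
        rw [if_neg hd, if_neg hd']
        ring

theorem HeckeRec.prime_pow {lam ε b : ℕ → R} (h : HeckeRec lam ε b) (h1 : b 1 = 1)
    {p : ℕ} (hp : p.Prime) (r : ℕ) :
    b (p ^ (r + 2)) = b p * b (p ^ (r + 1)) - ε p * b (p ^ r) := by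
  have := h p hp (p ^ (r + 1))
  rw [if_pos (dvd_pow_self p (by omega))] at this
  have e1 : p ^ (r + 1) * p = p ^ (r + 2) := by ring
  have e2 : p ^ (r + 1) / p = p ^ r := by
    rw [pow_succ, Nat.mul_div_cancel _ hp.pos]
  rw [e1, e2] at this
  rw [this, h.prime h1 hp]

end Formal


section Main

variable {N : ℕ} [NeZero N]

/-- A simultaneous eigenvector of all `T_p` (`p ∤ N`) and `U_p` (`p ∣ N`) is a scalar multiple of a
normalized eigenform, whose prime coefficients are the eigenvalues. -/
theorem exists_isNormalizedEigenform_of_eigenvector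
    (f : CuspForm (CongruenceSubgroup.Gamma0 N) 2) (hf : f ≠ 0) (lam : ℕ → ℂ)
    (hT : ∀ (p : ℕ) (hp : p.Prime) (hpN : ¬ p ∣ N), CuspForm.heckeTLin 2 hp hpN f = lam p • f)
    (hU : ∀ (p : ℕ) (_ : p.Prime) (hpN : p ∣ N), CuspForm.heckeULin 2 hpN f = lam p • f) :
    ∃ g : CuspForm (CongruenceSubgroup.Gamma0 N) 2, g.IsNormalizedEigenform ∧
      ∀ p : ℕ, p.Prime → ModularFormClass.qCoeff g p = lam p := by
  classical
  set ε : ℕ → ℂ := fun p => if p ∣ N then 0 else (p : ℂ) with hε
  -- the recursion for the coefficients of `f`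
  have hrec : HeckeRec lam ε (fun n => qCoeff f n) := by
    intro p hp n
    by_cases hpN : p ∣ N
    · have h1 := qCoeff_heckeULin hp hpN f n
      rw [hU p hp hpN, qCoeff_smul] at h1
      simp only [hε, if_pos hpN, zero_mul, ite_self, sub_zero]
      exact h1.symm
    · have h1 := qCoeff_heckeTLin hp hpN f n
      rw [hT p hp hpN, qCoeff_smul] at h1
      simp only [hε, if_neg hpN]
      rw [h1]
      split_ifs <;> ring
  have ha1 : qCoeff f 1 ≠ 0 := by
    intro h1
    exact hf (eq_zero_of_qCoeff_eq_zero f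
      (hrec.eq_zero_of_one (qCoeff_zero_eq_zero f) h1))
  set c : ℂ := (qCoeff f 1)⁻¹ with hc
  obtain ⟨g, hg⟩ : ∃ g : CuspForm (CongruenceSubgroup.Gamma0 N) 2, g = c • f := ⟨_, rfl⟩
  have hgc : ∀ n, qCoeff g n = c * qCoeff f n := by
    intro n; rw [hg]; exact qCoeff_smul c f n
  have hrec' : HeckeRec lam ε (fun n => qCoeff g n) := by
    intro p hp n
    simp only [hgc]
    have := hrec p hp n
    simp only at this
    rw [this]
    split_ifs <;> ring
  have hone : (fun n => qCoeff g n) 1 = 1 := by
    simp only [hgc, hc]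
    exact inv_mul_cancel₀ ha1
  refine ⟨g, ⟨hone, ?_, ?_, ?_⟩, ?_⟩
  · intro m n hmn
    exact hrec'.mul_of_coprime hone m n hmn
  · intro p r hp hpN
    have := hrec'.prime_pow hone hp r
    simp only [hε, if_neg hpN] at this
    exact this
  · intro p r hp hpN
    have := hrec'.prime_pow hone hp r
    simp only [hε, if_pos hpN, zero_mul, sub_zero] at this
    exact this
  · intro p hp
    exact hrec'.prime hone hp

end Main

end Fermat.Agent.S49E
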