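-- Statement S22: `Module.Finite ℤ (CuspForm.heckeAlgebra N k S)` for all `N`, `k`, `S`.
-- Proof: period-lattice argument (helper6: vertical ray integrals, decay, cusp primitives, periods;
-- helper9: lattice criterion, Manin trick, Eichler-integral separation, Hecke step, assembly).
import Fermat.Statements.S22
import Fermat.Agent.S22.Final_helper9

set_option autoImplicit false
open CuspForm

namespace Fermat.Agent.S22

theorem result (N : ℕ) [NeZero N] (k : ℤ) (S : Set ℕ) :
    Module.Finite ℤ (CuspForm.heckeAlgebra N k S) := by
  rcases le_or_gt k 0 with hk | hk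
  · exact finite_heckeAlgebra_of_nonpos S hk
  rcases Int.even_or_odd k with he | ho
  · obtain ⟨r, hr⟩ := he
    have hr1 : 1 ≤ r := by omega
    obtain ⟨m, hm⟩ : ∃ m : ℕ, k = (m : ℤ) + 2 := by
      refine ⟨(2 * (r - 1)).toNat, ?_⟩
      rw [Int.toNat_of_nonneg (by omega)]
      omega
    exact finite_heckeAlgebra_of_periodData (periodData m hm) S
  · exact finite_heckeAlgebra_of_odd S ho

end Fermat.Agent.S22
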