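-- Statement S05: the mod p Galois representation of the Frey curve is unramified at every odd
-- prime q ≠ p (project TATE: helper2 (architecture, valuation/nodal-model theory, assembly),
-- helper7 (change of variables, Frey specifics), helper8 (kernel of reduction has no n-torsion)).
import Fermat.Statements.S05
import Fermat.Agent.Tate.S05Core
import Fermat.Agent.Tate.R1_helper8

set_option autoImplicit false
open WeierstrassCurve WeierstrassCurve.Affine WeierstrassCurve.Affine.Point
open CuspForm ModularFormClass UpperHalfPlane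
open FreyPackage

namespace Fermat.Agent.S05

theorem result (P : FreyPackage) {q : ℕ} (hq : q.Prime) (hq2 : q ≠ 2) (hqp : q ≠ P.p) : P.GaloisRepUnramifiedAt q := by
  refine @Fermat.Agent.Tate.frey_unramified_of_R1 (AlgebraicClosure ℚ) _ _
    (AlgebraicClosure.instAlgebra ℚ) _ _ P q hq hq2 ?_
  intro A hqA W h1 h2 h3 h4 h6 x y h ht
  have hpu := Fermat.Agent.Tate.prime_cast_mem_and_inv_mem A hq hqA P.pp hqp
  exact Fermat.Agent.Tate.mem_of_nsmul_eq_zero' ⟨h1, h2, h3, h4, h6⟩ P.hp0 hpu.2 h ht

end Fermat.Agent.S05
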