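import Fermat.Statements.S08
import Fermat.Agent.Helper2.Gamma0Small

set_option autoImplicit false
open WeierstrassCurve WeierstrassCurve.Affine WeierstrassCurve.Affine.Point
open CuspForm ModularFormClass UpperHalfPlane
open ModularForm

namespace Fermat.Agent.S08

theorem result (f : CuspForm (CongruenceSubgroup.Gamma0 1) 2) : f = 0 := by
  apply Fermat.Agent.Helper2.cuspForm_Gamma0_eq_zero_of_sturm_zero 1 2 _ f
  have hidx : (CongruenceSubgroup.Gamma0 1).index ≤ 1 ^ 2 :=
    Fermat.Agent.Helper2.index_Gamma0_le 1
  omega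

end Fermat.Agent.S08
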