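import Fermat.Statements.S29
import Fermat.Agent.GR.ASM_helper8_Done
import Fermat.Agent.GR.S29TOP_lead
import Fermat.Agent.GR.EIGEN_helper2_Main

set_option autoImplicit false
open CuspForm CuspForm.IsNormalizedEigenform

namespace Fermat.Agent.S29

theorem result
    {N : ℕ} {g : CuspForm (CongruenceSubgroup.Gamma0 N) 2} (hg : g.IsNormalizedEigenform)
    {p : ℕ} (hp : p.Prime) {k : Type} [Field k] [CharP k p]
    (φ : integralClosure ℤ ℂ →+* k) :
    ∃ ρ : ResidualGaloisRep k, ρ.IsAttachedTo g φ ∧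
      ∀ ℓ : ℕ, ℓ.Prime → ¬ ℓ ∣ N * p → ρ.IsUnramifiedAt ℓ := by
  exact Fermat.Agent.GR.s29_of_inputs
    (fun N _ p _ => Fermat.Agent.GR.nonempty_stageIData N p)
    (fun _ _ _ hg' => Fermat.Agent.GR.exists_eigenPar_of_isNormalizedEigenform_of_not_dvd hg')
    (fun _ _ _ ha => Fermat.Agent.GR.finiteDimensional_adjoin_of_eigenPar_ne_bot ha) hg hp φ

end Fermat.Agent.S29
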