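-- Statement S43 (row 37): Ribet's level lowering at an odd prime q ≠ p, Frey-curve form.
-- Proof: PROJECT RB (architect helper9; all ten seats).  S43 ⇐ S44 (main) + Mazur's principle
-- ([MAZ], helper6/helper4/helper3) + Ihara avoidance for the Frey curve ([TOP-IA] helper1 ⇐
-- `NewRamified` (lead's bridge ⇐ (KEY-I3W) ⇐ [NEW-TORIC] helper6/helper7/helper3/helper5/helper4/
-- lead/helper9) + `IharaAvoidanceDatum` ⇐ [GLUE] (helper9) + [CORE] patching (helper9, helper4
-- [LOC]/[CA]) + [SEL] (helper4) + Taylor–Wiles producer ([REP_T] helper1 ⇐ [TWMOD] helper2 and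
-- its twelve leaves (helper1, helper2, helper3, helper9, lead) + (KEY-H) `ThetaKillsJ1`
-- ([BB3] helper5/helper8/helper7/helper4))).
import Fermat.Statements.S43
import Fermat.Agent.RB.WIRE_helper9_Leaves
import Fermat.Agent.RB.NEWT_helper6_Delta

set_option autoImplicit false
open WeierstrassCurve WeierstrassCurve.Affine WeierstrassCurve.Affine.Point
open CuspForm ModularFormClass UpperHalfPlane
open FreyPackage

namespace Fermat.Agent.S43

theorem result (P : FreyPackage) {N q : ℕ} (hcond : P.IsConductorLevel N) (hq : q.Prime) (hq2 : q ≠ 2) (hqp : q ≠ P.p) (hqN : q ∣ N) (hirr : GaloisRepIsIrreducible (K := AlgebraicClosure ℚ) ℚ P.freyCurve P.p) (hmod : P.ModularRepOfLevel N) (hunr : P.GaloisRepUnramifiedAt q) : ∃ M : ℕ, M ∣ N ∧ ¬ q ∣ M ∧ P.ModularRepOfLevel M :=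
  Fermat.Agent.RB.WIRE.s43Statement_of_legNewDeltaQ Fermat.Agent.RB.legNewDeltaQ
    P hcond hq hq2 hqp hqN hirr hmod hunr

end Fermat.Agent.S43
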