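-- S51 (row 45): for a semistable integral Weierstrass curve, at least one of the mod-3 and mod-5
-- representations is irreducible.
-- Proof: if both are reducible, the curve gives a rational point on X_0(15) = 15a1
-- (`y^2 = x (x - 16) (x + 9)`), whose eight rational points are cusps or have `5 ∣ c₄, 5 ∣ Δ`,
-- contradicting semistability at 5.
import Fermat.Statements.S51
import Fermat.Agent.S51.Core
import Fermat.Agent.S51.Three_helper4
import Fermat.Agent.S51.Five_helper7_Final
import Fermat.Agent.S51.E15_Points

set_option autoImplicit false
open WeierstrassCurve WeierstrassCurve.Affine WeierstrassCurve.Affine.Point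
open CuspForm ModularFormClass UpperHalfPlane
open WeierstrassCurve

namespace Fermat.Agent.S51

theorem result (W : WeierstrassCurve ℤ) (hΔ : W.Δ ≠ 0) (hW : W.IsSemistableModel) : W.ModRepIsIrreducible 3 ∨ W.ModRepIsIrreducible 5 := by
  by_contra hcon
  rw [not_or] at hcon
  exact core W hΔ hW rational_points_E15_x
    (cond3_of_not_modRepIsIrreducible W hΔ hcon.1)
    (cond5_of_not_modRepIsIrreducible W hΔ hcon.2)

end Fermat.Agent.S51
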