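-- Statement S52 (row 46): the 3-5 switch. Assembly of the S52x project:
-- Theorem A (Klein family, helper9/helper7/helper5/helper3), irreducibility mod 3 in the family
-- (helper7), trace congruence (helper8).
import Fermat.Statements.S52
import Fermat.Agent.S52x.TOP_helper8_Main
import Fermat.Agent.S52x.TOP_helper8_Trace
import Fermat.Agent.S52x.IRR3_helper7_Hyp
import Fermat.Agent.S52x.DESC_helper9_Hyp
import Fermat.Agent.S52x.ABS_helper7_Inst

set_option autoImplicit false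
open WeierstrassCurve WeierstrassCurve.Affine WeierstrassCurve.Affine.Point
open CuspForm ModularFormClass UpperHalfPlane
open WeierstrassCurve

namespace Fermat.Agent.S52

theorem result (W : WeierstrassCurve ℤ) (hΔ : W.Δ ≠ 0) (hW : W.IsSemistableModel) (h5 : W.ModRepIsIrreducible 5) : ∃ W' : WeierstrassCurve ℤ, W'.Δ ≠ 0 ∧ W'.IsSemistableModel ∧ W'.ModRepIsIrreducible 3 ∧ ∀ ℓ : ℕ, ℓ.Prime → W.IsGoodPrimeFor ℓ → W'.IsGoodPrimeFor ℓ → ℓ ≠ 5 → (5 : ℤ) ∣ (W'.apOfModel ℓ - W.apOfModel ℓ) := by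
  exact Fermat.Agent.S52x.s52_of_hyps
    (Fermat.Agent.S52x.theoremAHyp_of_kleinAbs Fermat.Agent.S52x.kleinAbs)
    Fermat.Agent.S52x.irr3Hyp Fermat.Agent.S52x.traceHyp W hΔ hW

end Fermat.Agent.S52
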