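-- Statement S58: the level of a semistable modular model can be taken to be the conductor level.
-- Proof: `s58_of_uMult` (helper9; Carayol-type comparison of the λ-adic representations of the
-- curve and of the newform via the frozen-statement proofs S35/S36) applied to the unipotence of
-- inertia at the multiplicative primes (helper7, helper2's nodal library, helper3's normal form).
import Fermat.Statements.S58
import Fermat.Agent.S58.ECTATE_helper9_Fin
import Fermat.Agent.S58.ECTATE_helper7_Unip
import Fermat.Agent.S58.NORMF58_helper3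

set_option autoImplicit false
set_option autoImplicit false
open WeierstrassCurve

namespace Fermat.Agent.S58

theorem result
    (W : WeierstrassCurve ℤ) (hss : W.IsSemistableModel) (N : ℕ)
    (p : ℕ) [Fact p.Prime] (hp2 : p ≠ 2) (hirr : W.ModRepIsIrreducible p)
    (hp2N : ¬ p ^ 2 ∣ N)
    (hN : W.IsModularModelOfLevel N) (hbad : ∀ ℓ : ℕ, ℓ.Prime → (ℓ : ℤ) ∣ W.Δ → ℓ ∣ N)
    (hN3 : ∀ q : ℕ, q.Prime → ¬ q ^ 3 ∣ N) :
    W.IsModularModelOfLevel W.conductorLevel := by
  have hNF : GNodeNormalForm (AlgebraicClosure ℚ) :=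
    fun A L W h1 h2 h3 h4 h6 hΔ0 hΔ hc4 => exists_gnode_model A L W h1 h2 h3 h4 h6 hΔ0 hΔ hc4
  exact s58_of_uMult
    (fun W hΔ hss lam _ hlam2 => unipotent_of_semistable_of_normalForm hNF W hΔ hss lam hlam2)
    W hss N hN hbad hN3

end Fermat.Agent.S58
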