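-- Statement S24: the genus of the function field of `X₀(N)` over `ℚ̄` is `genusFormula N`.
-- Assembly (helper7) of the X0N project: Riemann–Hurwitz for the `j`-coordinate (helper4),
-- degree `ψ(N)` (helper6, helper1), fibres over finite points (helper8, helper2),
-- cusps (helper9), coset combinatorics (helper9), integrality of the genus formula (helper1).
import Fermat.Statements.S24
import Fermat.Agent.X0N.S24_helper7_Wiring
import Fermat.Agent.X0N.S24_helper7_Finite
import Fermat.Agent.X0N.Cusp_helper9_Int

set_option autoImplicit false
open ModularCurve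

namespace Fermat.Agent.S24

open Fermat.Agent.X0N in
theorem result (N : ℕ) [NeZero N]
    [AlgebraicCurve.HasCanonicalDivisor (K := AlgebraicClosure ℚ) (F := ↥(ModularCurve.modularFunctionFieldBar N))] :
    (AlgebraicCurve.genus (AlgebraicClosure ℚ) ↥(ModularCurve.modularFunctionFieldBar N) : ℚ)
      = ModularCurve.genusFormula N := by
  let _ : Algebra (AlgebraicClosure ℚ) ℂ := complexEmbedding.toRingHom.toAlgebra
  have hX := card_cosets_eq_jCoordBar_degree N
  exact genus_modularFunctionFieldBar_of_counts N
    (fun a h0 h1 => card_zeros_generic_of_coord (jCoordBar N) rfl hX a h0 h1)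
    (card_zeros_1728_of_coord (jCoordBar N) rfl hX)
    (card_zeros_zero_of_coord (jCoordBar N) rfl hX)
    (card_poles_eq_card_cusps_jK N (jCoordBar N) rfl (jCoordBar_degree N))

end Fermat.Agent.S24
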