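-- Statement S23: the space of weight-2 cusp forms on Γ₀(N) has an integral structure.
-- Proof: Fermat.Agent.RatStr (helper2's analytic core + helper1's descent/integrality + helper6's glue).
import Fermat.Statements.S23
import Fermat.Agent.RatStr.ConjCuspForm

set_option autoImplicit false
open CuspForm

namespace Fermat.Agent.S23

theorem result (N : ℕ) [NeZero N] : CuspForm.HasIntegralStructure N 2 :=
  Fermat.Agent.RatStr.hasIntegralStructure N (by norm_num)

end Fermat.Agent.S23
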