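import Fermat.Statements.S59
import Fermat.Agent.ML.S59_helper9_Assemble
import Fermat.Agent.ML.PROD_helper2_FiveLe
import Fermat.Agent.ML.PROD_helper5_Modular
import Fermat.Agent.ML.PROD_lead_Rho
import Fermat.Agent.ML.LEVOPT_lead_Main3
import Fermat.Agent.ML.LEVOPT_lead_Final
import Fermat.Agent.ML.SQ2_helper8_Main
import Fermat.Agent.ML.LEVOPT_helper5_SqOClosed
import Fermat.Agent.ML.REPTX_helper1_PeuFinal
import Fermat.Agent.ML.HES3_helper6_RoldMain
import Fermat.Agent.ML.GDESC_helper8_Main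
import Fermat.Agent.ML.MAZ23_helper4_OrdDesc
import Fermat.Agent.ML.MAZ23_helper8_HCusp
import Fermat.Agent.ML.HES3_helper1_Final

set_option autoImplicit false
set_option autoImplicit false
open scoped WeierstrassCurve.Affine
open WeierstrassCurve

namespace Fermat.Agent.S59

open Fermat.Agent.ML in
theorem result (p : ℕ) (hp : p = 3 ∨ p = 5)
    (W : WeierstrassCurve ℤ) (hΔ : W.Δ ≠ 0) (hW : W.IsSemistableModel) (hirr : W.ModRepIsIrreducible p)
    (M₀ : ℕ) [NeZero M₀] (hres₀ : W.IsResiduallyModularOfLevel p M₀)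
    (hM₀ : ¬ p ^ 2 ∣ M₀)
    (hM₀3 : ∀ q : ℕ, q.Prime → q ≠ p → ¬ q ^ 3 ∣ M₀) :
    Mlc1IsModularModelOfExactConductorLevel W :=
  s59Statement_of_open
    (LevOpt.levelOptStatement_of₃ sqStepStatementO sqTwoStepStatement LevOpt.mazurOddStepStatement
      (LevOpt.mazurTwoStepStatementS_of_rold
        (hesRoldQ3_of hesGalDescentStatement_of_one MAZ23.hesOrdDescentStatement
          heckeCuspStatement))
      AuxP.auxPrimeStatement
      (LevOpt.iaStepStatement_of TOPR.residDictStatement REPTX.twProducerMainStatement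
        REPTX.iaPeuAdapterStatement))
    PR1.chainSettingStatement fiveLeOfLvlModStatement modularOfLevel0Statement
    p hp W hΔ hW hirr M₀ hres₀ hM₀ hM₀3

end Fermat.Agent.S59
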