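import Fermat.Statements.S02

set_option autoImplicit false
open FreyPackage

namespace Fermat.Agent.S02

/-- Final step: all normalisations done. -/
theorem nonempty_of_normalised {a b c : ℤ} (ha : a ≠ 0) (hb : b ≠ 0) (hc : c ≠ 0)
    (hab : gcd a b = 1) (hb2 : (2 : ℤ) ∣ b) (ha4 : a % 4 = 3)
    (p : ℕ) (pp : p.Prime) (hp5 : 5 ≤ p) (H : a ^ p + b ^ p = c ^ p) :
    Nonempty FreyPackage := by
  refine ⟨⟨a, b, c, ha, hb, hc, p, pp, hp5, H, hab, ?_, ?_⟩⟩
  · have h3 : ((3 : ℤ) : ZMod 4) = 3 := by norm_num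
    rw [← h3, ZMod.intCast_eq_intCast_iff]
    exact ha4
  · exact (ZMod.intCast_zmod_eq_zero_iff_dvd b 2).2 (by exact_mod_cast hb2)

/-- `b` even: fix the residue of `a` modulo `4`. -/
theorem nonempty_of_even {a b c : ℤ} (ha : a ≠ 0) (hb : b ≠ 0) (hc : c ≠ 0)
    (hab : gcd a b = 1) (hb2 : (2 : ℤ) ∣ b)
    (p : ℕ) (pp : p.Prime) (hp5 : 5 ≤ p) (H : a ^ p + b ^ p = c ^ p) :
    Nonempty FreyPackage := by
  have p_odd : Odd p := pp.odd_of_ne_two (by omega)
  have ha2 : ¬ (2 : ℤ) ∣ a := by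
    intro h
    have h2 : (2 : ℤ) ∣ gcd a b := dvd_gcd h hb2
    rw [hab] at h2
    omega
  have h13 : a % 4 = 1 ∨ a % 4 = 3 := by omega
  rcases h13 with h1 | h3
  · refine nonempty_of_normalised (a := -a) (b := -b) (c := -c) (neg_ne_zero.2 ha)
      (neg_ne_zero.2 hb) (neg_ne_zero.2 hc) ?_ ?_ ?_ p pp hp5 ?_
    · rw [gcd_neg, neg_gcd]; exact hab
    · exact (dvd_neg).2 hb2
    · omega
    · rw [p_odd.neg_pow, p_odd.neg_pow, p_odd.neg_pow, ← H]; ring
  · exact nonempty_of_normalised ha hb hc hab hb2 h3 p pp hp5 H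

/-- Coprime case. -/
theorem nonempty_of_coprime {a b c : ℤ} (ha : a ≠ 0) (hb : b ≠ 0) (hc : c ≠ 0)
    (hab : gcd a b = 1)
    (p : ℕ) (pp : p.Prime) (hp5 : 5 ≤ p) (H : a ^ p + b ^ p = c ^ p) :
    Nonempty FreyPackage := by
  have p_odd : Odd p := pp.odd_of_ne_two (by omega)
  by_cases hb2 : (2 : ℤ) ∣ b
  · exact nonempty_of_even ha hb hc hab hb2 p pp hp5 H
  by_cases ha2 : (2 : ℤ) ∣ a
  · exact nonempty_of_even hb ha hc (by rw [gcd_comm]; exact hab) ha2 p pp hp5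
      (by rw [add_comm]; exact H)
  -- both odd, so `c` is even
  have hc2 : (2 : ℤ) ∣ c := by
    have hao : Odd a := by rw [Int.odd_iff]; omega
    have hbo : Odd b := by rw [Int.odd_iff]; omega
    have hce : Even (c ^ p) := by
      rw [← H]; exact (hao.pow).add_odd (hbo.pow)
    have : Even c := (Int.even_pow.1 hce).1
    exact even_iff_two_dvd.1 this
  refine nonempty_of_even (a := a) (b := -c) (c := -b) ha (neg_ne_zero.2 hc)
    (neg_ne_zero.2 hb) ?_ ((dvd_neg).2 hc2) p pp hp5 ?_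
  · rw [gcd_neg, ← gcdab_eq_gcdac pp.pos H]; exact hab
  · rw [p_odd.neg_pow, p_odd.neg_pow, ← H]; ring

theorem result (a b c : ℤ) (ha : a ≠ 0) (hb : b ≠ 0) (hc : c ≠ 0) (p : ℕ) (pp : p.Prime) (hp5 : 5 ≤ p) (H : a ^ p + b ^ p = c ^ p) : Nonempty FreyPackage := by
  -- divide out by the gcd of `a` and `b`
  have hp0 : p ≠ 0 := pp.ne_zero
  set d : ℤ := gcd a b with hd
  have hd0 : d ≠ 0 := by
    intro h
    rw [hd, gcd_eq_zero_iff] at h
    exact ha h.1
  obtain ⟨a', ha'⟩ : d ∣ a := gcd_dvd_left a b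
  obtain ⟨b', hb'⟩ : d ∣ b := gcd_dvd_right a b
  have hdc : d ∣ c := by
    rw [← Int.pow_dvd_pow_iff hp0, ← H]
    exact dvd_add (pow_dvd_pow_of_dvd (gcd_dvd_left a b) p)
      (pow_dvd_pow_of_dvd (gcd_dvd_right a b) p)
  obtain ⟨c', hc'⟩ := hdc
  have ha'0 : a' ≠ 0 := by rintro rfl; exact ha (by rw [ha', mul_zero])
  have hb'0 : b' ≠ 0 := by rintro rfl; exact hb (by rw [hb', mul_zero])
  have hc'0 : c' ≠ 0 := by rintro rfl; exact hc (by rw [hc', mul_zero])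
  have hcop : gcd a' b' = 1 := by
    have h1 : gcd (d * a') (d * b') = normalize d * gcd a' b' := gcd_mul_left d a' b'
    rw [← ha', ← hb', ← hd] at h1
    have hnd : normalize d = d := by rw [hd]; exact normalize_gcd a b
    rw [hnd] at h1
    have h2 : d * 1 = d * gcd a' b' := by rw [mul_one]; exact h1
    exact (mul_left_cancel₀ hd0 h2).symm
  have H' : a' ^ p + b' ^ p = c' ^ p := by
    have hdp : d ^ p ≠ 0 := pow_ne_zero p hd0
    apply mul_left_cancel₀ hdp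
    rw [mul_add, ← mul_pow, ← mul_pow, ← mul_pow, ← ha', ← hb', ← hc']
    exact H
  exact nonempty_of_coprime ha'0 hb'0 hc'0 hcop p pp hp5 H'

end Fermat.Agent.S02
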