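import Fermat.Statements.S10
import Fermat.Agent.REG.Final
import Fermat.Agent.REG.Kummer_helper6_KummerLemma

set_option autoImplicit false
open WeierstrassCurve WeierstrassCurve.Affine WeierstrassCurve.Affine.Point
open CuspForm ModularFormClass UpperHalfPlane
open FreyPackage

namespace Fermat.Agent.S10

theorem result (P : FreyPackage) (hp : P.p = 5 ∨ P.p = 7 ∨ P.p = 13) : ¬ HasGaloisStableCofixedLine (K := AlgebraicClosure ℚ) ℚ P.freyCurve P.p := by
  exfalso
  have h5 : Fermat.Agent.REG.KummerLemma 5 (CyclotomicField 5 ℚ) := by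
    have : Fact (Nat.Prime 5) := ⟨by norm_num⟩
    have := Fermat.Agent.REG.isCyclotomicExtension_cyclotomicField 5
    have : IsPrincipalIdealRing (NumberField.RingOfIntegers (CyclotomicField 5 ℚ)) :=
      IsCyclotomicExtension.Rat.five_pid (CyclotomicField 5 ℚ)
    exact Fermat.Agent.REG.kummerLemma_of_pid 5 (by norm_num) (CyclotomicField 5 ℚ)
  have h7 : Fermat.Agent.REG.KummerLemma 7 (CyclotomicField 7 ℚ) := by
    have : Fact (Nat.Prime 7) := ⟨by norm_num⟩
    have := Fermat.Agent.REG.isCyclotomicExtension_cyclotomicField 7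
    have : IsPrincipalIdealRing (NumberField.RingOfIntegers (CyclotomicField 7 ℚ)) :=
      Fermat.Agent.REG.pid_seven (CyclotomicField 7 ℚ)
    exact Fermat.Agent.REG.kummerLemma_of_pid 7 (by norm_num) (CyclotomicField 7 ℚ)
  have h13 : Fermat.Agent.REG.KummerLemma 13 (CyclotomicField 13 ℚ) := by
    have : Fact (Nat.Prime 13) := ⟨by norm_num⟩
    have := Fermat.Agent.REG.isCyclotomicExtension_cyclotomicField 13
    have : IsPrincipalIdealRing (NumberField.RingOfIntegers (CyclotomicField 13 ℚ)) :=
      Fermat.Agent.REG.pid_thirteen (CyclotomicField 13 ℚ)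
    exact Fermat.Agent.REG.kummerLemma_of_pid 13 (by norm_num) (CyclotomicField 13 ℚ)
  exact Fermat.Agent.REG.false_of_freyPackage_small h5 h7 h13 P hp

end Fermat.Agent.S10
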