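import Fermat.Statements.S11
import Fermat.Agent.REG.Final
import Fermat.Agent.REG.Kummer_helper6_KummerLemma

set_option autoImplicit false
open WeierstrassCurve WeierstrassCurve.Affine WeierstrassCurve.Affine.Point
open CuspForm ModularFormClass UpperHalfPlane
open FreyPackage

namespace Fermat.Agent.S11

theorem result (P : FreyPackage) (hp : P.p = 11) : ¬ HasGaloisStableCofixedLine (K := AlgebraicClosure ℚ) ℚ P.freyCurve P.p := by
  exfalso
  have h11 : Fermat.Agent.REG.KummerLemma 11 (CyclotomicField 11 ℚ) := by
    have : Fact (Nat.Prime 11) := ⟨by norm_num⟩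
    have := Fermat.Agent.REG.isCyclotomicExtension_cyclotomicField 11
    have : IsPrincipalIdealRing (NumberField.RingOfIntegers (CyclotomicField 11 ℚ)) :=
      Fermat.Agent.REG.pid_eleven (CyclotomicField 11 ℚ)
    exact Fermat.Agent.REG.kummerLemma_of_pid 11 (by norm_num) (CyclotomicField 11 ℚ)
  exact Fermat.Agent.REG.false_of_freyPackage_eleven h11 P hp

end Fermat.Agent.S11
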