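-- Statement S13: a reducible mod p representation of the Frey curve has a Galois-stable cofixed
-- line.  Team proof: TORS (helper6), at 2 (helper2), at p (helper8, helper5), Minkowski and
-- conjugacy (helper5), S05 (helper2, helper7, helper8), assembly (helper6).
import Fermat.Statements.S13
import Fermat.Agent.S13.Assembly_helper6
import Fermat.Agent.S13.At2_helper2_FreyRational
import Fermat.Agent.S13.Ip_helper8_Main
import Fermat.Agent.EC.Conjugacy_helper5

set_option autoImplicit false
open WeierstrassCurve WeierstrassCurve.Affine WeierstrassCurve.Affine.Point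
open CuspForm ModularFormClass UpperHalfPlane
open FreyPackage

namespace Fermat.Agent.S13

theorem result (P : FreyPackage) (hred : ¬ GaloisRepIsIrreducible (K := AlgebraicClosure ℚ) ℚ P.freyCurve P.p) : HasGaloisStableCofixedLine (K := AlgebraicClosure ℚ) ℚ P.freyCurve P.p := by
  refine frey_cofixedLine_of_local P ?_ ?_ ?_ ?_ hred
  · exact fun A hA σ hσ x => @Fermat.Agent.S13.frey_inertia_two_unipotent P (AlgebraicClosure ℚ) _ _
      (AlgebraicClosure.instAlgebra ℚ) _ _ A hA σ hσ x
  · exact fun x hx => @Fermat.Agent.S13.frey_no_fixed_torsion P (AlgebraicClosure ℚ) _ _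
      (AlgebraicClosure.instAlgebra ℚ) _ _ x hx
  · exact fun A hA N hN hbot htop => Fermat.Agent.S13.frey_inertia_at_p P A hA N hN hbot htop
  · exact fun A A' hA hA' => Fermat.Agent.EC.exists_conj_inertia P.pp A A' hA hA'

end Fermat.Agent.S13
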