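-- Statement S14 (row 13): ExtCitation.extVanishingCts_of_three_le.
-- Proof: S14 ⇐ CycloUnramifiedReciprocity p (helper5, CFT/S14/Main_helper5: Herbrand–Ribet-free
-- Stickelberger argument) ⇐ UnramifiedReciprocityPrime p (helper3, crossing with cyclotomic
-- extensions) ⇐ first inequality (helper2) + second inequality (helper1) of global class field theory.
import Fermat.Statements.S14
import Fermat.Agent.CFT.S14.Main_helper5
import Fermat.Agent.CFT.Global.Crossing_helper3_Final
import Fermat.Agent.CFT.Global.G2_helper2_FirstInequality
import Fermat.Agent.CFT.Global.T2_helper1_Final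

set_option autoImplicit false
open ExtCitation

namespace Fermat.Agent.S14

theorem result {p : ℕ} [Fact p.Prime] (h3 : 3 ≤ p) :
    ExtCitation.ExtVanishingCts p := by
  have hp : p.Prime := Fact.out
  have hp2 : p ≠ 2 := by omega
  have h1 := Fermat.Agent.CFT.firstInequality hp hp2
  have h2 := Fermat.Agent.CFT.secondInequality hp hp2
  have hM := Fermat.Agent.CFT.Crossing.unramifiedReciprocityPrime p hp2 h1 h2
  exact Fermat.Agent.CFT.S14.extVanishingCts_of_cycloUnramifiedReciprocity h3
    (fun K L _ _ _ _ _ _ _ _ hcard hunr hsplit => hM K L hcard hunr hsplit)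

end Fermat.Agent.S14
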