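-- Statement S18 (row 17): torsion of order prime to `ℓ` in `J₀(N)` injects into the reduction
-- modulo `ℓ` (J-A programme; assembly of the team's packages).
import Fermat.Statements.S18
import Fermat.Agent.JA.S18Asm_helper8_Wrap
import Fermat.Agent.JA.G1_helper5_Unram
import Fermat.Agent.JA.BC_helper9_Main
import Fermat.Agent.JA.KEYBASE_helper8_Final

set_option autoImplicit false
open ModularCurve

namespace Fermat.Agent.S18

theorem result (N : ℕ) [NeZero N] {ℓ : ℕ}
    [Fact ℓ.Prime] (hℓN : ¬ ℓ ∣ N) (A : ValuationSubring (AlgebraicClosure ℚ)) (hA : A.LiesOverPrime ℓ)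
    (h : ModularCurve.ReductionInputsModL A N) (m : ℕ) (hm : ¬ ℓ ∣ m) (z : ModularCurve.JZero N)
    (hmz : m • z = 0) (hz : ModularCurve.reductionModL A N z = 0) :
    z = 0 := by
  have hm0 : 0 < m := Nat.pos_of_ne_zero (by rintro rfl; exact hm (dvd_zero ℓ))
  exact Fermat.Agent.JA.s18_of_key_of_isSeparable N A
    (Fermat.Agent.JA.isSeparable_fullC_residueField hA N hℓN)
    (Fermat.Agent.JA.finiteDimensional_fullC_residueField hA N hℓN) h m hm
    (Fermat.Agent.JA.keyStatement_of_keyBaseStatement hA N m hm0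
      (fun _ hK₁ => Fermat.Agent.JA.keyBaseStatement_baseRing hA N m hm0 hℓN hm hK₁))
    z hmz hz

end Fermat.Agent.S18
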