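import Fermat.Statements.S17
import Fermat.Agent.MW.GOODP_helper3_Input
import Fermat.Agent.MW.LFASM_helper8_Final
import Fermat.Agent.MW.NADIC_helper1_Final
import Fermat.Agent.MW.NADIC_helper6_NodeFinal
import Fermat.Agent.MW.NADIC_helper9_NodeCF
import Fermat.Agent.MW.NADIC_helper3_CuspCF

set_option autoImplicit false
open ModularCurve AlgebraicCurve
open ModularCurve ModularCurve.JZero

namespace Fermat.Agent.S17

open Fermat.Agent.MW Fermat.Agent.MW.OneCell Fermat.Agent.JA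

theorem result (N : ℕ) [NeZero N] (hN : N.Prime) (hN5 : 5 ≤ N) :
    AddGroup.FG ↥(FixedPoints.addSubgroup ((AlgebraicClosure ℚ) ≃ₐ[ℚ] (AlgebraicClosure ℚ)) (JZero N)) := by
  have : NeZero (1 * N) := ⟨by rw [one_mul]; exact NeZero.ne N⟩
  have h : (N : ℤ) * 0 + ((1 : ℕ) : ℤ) * 1 = 1 := by norm_num
  have hnad : NadicInput N hN :=
    nadicInput_of_nodeCharts hN h (topCharts hN h) (topCharts_hsep hN h) (topCharts_hcomp hN h)
      (discCF_cuspInf ⟨N, hN⟩ h hN rfl) (discCF_cuspZero ⟨N, hN⟩ h hN rfl)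
      (nodeCF_of_nodeDict ⟨N, hN⟩ h hN rfl (topCharts hN h) (flatBase N) isBase_flatBase
        (topCharts_nodeDict hN h))
  exact fg_of_nadic_good N hN hN5 hnad (goodInput N hN)

end Fermat.Agent.S17
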