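-- Statement S12 (row 11): FreyPackage.frey_no_cofixed_large.
-- Proof (project FC): the Frey chain.  A Galois-stable cofixed line gives a chain of Galois-stable
-- cyclic subgroups D_k of order p^k with trivial action on E[p^k]/D_k (Vélu quotients W_k = E/D_k,
-- S15 at the nodal primes of W_k, S14 for the extension W_k[p] of μ_p by ⟨Q_k⟩, Minkowski), which is
-- impossible by counting points modulo a good prime.  Assembly: Fermat.Agent.FC.s12_of_u1
-- (FC/TOP_helper4_*), blocks by helper1 (RED, S2, M, FT), helper2 (Q), helper5 (P), helper6 (NODE),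
-- helper7 (Q-an, U1), helper9 (C, CNT, χ, FREY, Q-z), helper4 (ADM, TOP, U-a/U-b).
import Fermat.Statements.S12
import Fermat.Agent.FC.TOP_helper4_S12
import Fermat.Agent.FC.U_helper7_Depth

set_option autoImplicit false
open WeierstrassCurve WeierstrassCurve.Affine WeierstrassCurve.Affine.Point
open CuspForm ModularFormClass UpperHalfPlane
open FreyPackage

namespace Fermat.Agent.S12

theorem result (P : FreyPackage) (hp : 17 ≤ P.p) : ¬ HasGaloisStableCofixedLine (K := AlgebraicClosure ℚ) ℚ P.freyCurve P.p :=
  Fermat.Agent.FC.s12_of_u1 Fermat.Agent.FC.inZero_smul_sub_all P hp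

end Fermat.Agent.S12
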