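-- Statement S09 (row 8): FreyPackage.Mazur_Frey.
-- Proof: a reducible mod p representation of the Frey curve has a Galois-stable cofixed line (S13);
-- this is excluded for p = 5, 7, 13 (S10), p = 11 (S11) and p ≥ 17 (S12).
import Fermat.Statements.S09
import Fermat.Agent.MZ.S09_helper2_Of
import Fermat.Agent.S12

set_option autoImplicit false
open WeierstrassCurve WeierstrassCurve.Affine WeierstrassCurve.Affine.Point
open CuspForm ModularFormClass UpperHalfPlane
open FreyPackage

namespace Fermat.Agent.S09

theorem result (P : FreyPackage) : GaloisRepIsIrreducible (K := AlgebraicClosure ℚ) ℚ P.freyCurve P.p :=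
  Fermat.Agent.MZ.s09_of_s12 Fermat.Agent.S12.result P

end Fermat.Agent.S09
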