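-- Statement S45 (row 41): level lowering to level two (`FreyPackage.level_lowering_to_two`).
-- PROJECT CK: the key inertness statement `KeyInertSqStatement` is proved on the Legendre / Hesse
-- host towers (`CK/ASM_helper5_Final`), and the chain `CK/S45PRE_helper5_Chain` derives the frozen
-- statement from it.
import Fermat.Statements.S45
import Fermat.Agent.CK.S45PRE_helper5_Chain
import Fermat.Agent.CK.ASM_helper5_Final

set_option autoImplicit false
open WeierstrassCurve WeierstrassCurve.Affine WeierstrassCurve.Affine.Point
open CuspForm ModularFormClass UpperHalfPlane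
open FreyPackage

namespace Fermat.Agent.S45

theorem result (P : FreyPackage) (hmod : P.freyCurve.IsModular) (hirr : GaloisRepIsIrreducible (K := AlgebraicClosure ℚ) ℚ P.freyCurve P.p) : ∃ f : CuspForm (CongruenceSubgroup.Gamma0 2) 2, f ≠ 0 :=
  Fermat.Agent.CK.s45_of_keyInertSq Fermat.Agent.CK.keyInertSqStatement_final P hmod hirr

end Fermat.Agent.S45
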