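import Mathlib
import Fermat.Prelude.Def_FormalHecke_Eigensystem

set_option autoImplicit false

namespace Fermat.Agent.helper7

open FormalHecke

variable {R : Type*} [CommRing R]

/-- A formal Hecke eigensystem is multiplicative on coprime arguments. -/
theorem IsEigensystem.mul_of_coprime {e b : ℕ → R} (h : IsEigensystem e b) :
    ∀ m n : ℕ, m.Coprime n → b (m * n) = b m * b n := by
  obtain ⟨h1, hrec⟩ := h
  intro m
  induction m using Nat.strong_induction_on with
  | _ m ih =>
    intro n hmn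
    rcases Nat.lt_or_ge m 2 with hm | hm
    · interval_cases m
      · have hn : n = 1 := by simpa using hmn
        subst hn
        simp [h1]
      · simp [h1]
    · -- m ≥ 2
      set ℓ := m.minFac with hℓdef
      have hℓ : ℓ.Prime := Nat.minFac_prime (by omega)
      have hℓm : ℓ ∣ m := Nat.minFac_dvd m
      obtain ⟨m', hm'⟩ := hℓm
      have hm'pos : 0 < m' := by
        rcases Nat.eq_zero_or_pos m' with h0 | h0
        · subst h0; omega
        · exact h0
      have hm'lt : m' < m := by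
        rw [hm']
        exact lt_mul_of_one_lt_left hm'pos hℓ.one_lt
      have hcop' : m'.Coprime n := Nat.Coprime.coprime_dvd_left ⟨ℓ, by rw [hm', mul_comm]⟩ hmn
      have hℓn : ¬ ℓ ∣ n := by
        intro hdn
        have : ℓ ∣ Nat.gcd m n := Nat.dvd_gcd ⟨m', hm'⟩ hdn
        rw [hmn] at this
        exact hℓ.one_lt.ne' (Nat.dvd_one.1 this)
      have e1 := hrec ℓ hℓ (m' * n)
      have e2 := hrec ℓ hℓ m'
      have hmn_eq : m * n = ℓ * (m' * n) := by rw [hm', mul_assoc]
      by_cases hd : ℓ ∣ m'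
      · obtain ⟨m'', hm''⟩ := hd
        have hm''lt : m'' < m := by
          have : m'' ≤ m' := by
            rw [hm'']; exact Nat.le_mul_of_pos_left m'' hℓ.pos
          omega
        have hcop'' : m''.Coprime n :=
          Nat.Coprime.coprime_dvd_left ⟨ℓ, by rw [hm'', mul_comm]⟩ hcop'
        have hdiv1 : m' * n / ℓ = m'' * n := by
          rw [hm'', mul_assoc]; exact Nat.mul_div_cancel_left _ hℓ.pos
        have hdiv2 : m' / ℓ = m'' := by
          rw [hm'']; exact Nat.mul_div_cancel_left _ hℓ.pos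
        have hd1 : ℓ ∣ m' * n := Dvd.dvd.mul_right ⟨m'', hm''⟩ n
        have hd2 : ℓ ∣ m' := ⟨m'', hm''⟩
        rw [if_pos hd1, hdiv1, ih m' hm'lt n hcop', ih m'' hm''lt n hcop''] at e1
        rw [if_pos hd2, hdiv2] at e2
        rw [hmn_eq, hm']
        linear_combination e1 - b n * e2
      · have hd1 : ¬ ℓ ∣ m' * n := by
          intro hh
          rcases (Nat.Prime.dvd_mul hℓ).1 hh with h' | h'
          · exact hd h'
          · exact hℓn h'
        rw [if_neg hd1, ih m' hm'lt n hcop'] at e1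
        rw [if_neg hd] at e2
        rw [hmn_eq, hm']
        linear_combination e1 - b n * e2

theorem IsEigensystem.prime_pow {e b : ℕ → R} (h : IsEigensystem e b) {ℓ : ℕ} (hℓ : ℓ.Prime)
    (r : ℕ) : b (ℓ ^ (r + 2)) = b ℓ * b (ℓ ^ (r + 1)) - e ℓ * b (ℓ ^ r) := by
  have e1 := h.2 ℓ hℓ (ℓ ^ (r + 1))
  have hd : ℓ ∣ ℓ ^ (r + 1) := dvd_pow_self ℓ (Nat.succ_ne_zero r)
  have hdiv : ℓ ^ (r + 1) / ℓ = ℓ ^ r := by
    rw [pow_succ]; exact Nat.mul_div_cancel _ hℓ.pos
  rw [if_pos hd, hdiv] at e1
  have : ℓ ^ (r + 2) = ℓ * ℓ ^ (r + 1) := by ring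
  rw [this]
  linear_combination e1

end Fermat.Agent.helper7
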