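import Mathlib
import Fermat.Prelude.Def_FLTPrelim_Modularity
import Fermat.Prelude.Def_ModularForm_HeckeOperator
import Fermat.Prelude.Def_ModularForm_HeckeOperatorForms
import Fermat.Prelude.Def_CuspForm_HeckeAlgebra
import Fermat.Prelude.Thm_CongruenceSubgroup_one_mem_strictPeriods_Gamma0
import Fermat.Prelude.Thm_ModularFormClass_qCoeff_heckeT
import Fermat.Prelude.Thm_ModularFormClass_qCoeff_heckeU

set_option autoImplicit false

namespace Fermat.Agent.helper7

open CongruenceSubgroup ModularFormClass UpperHalfPlane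

variable {N : ℕ}

local notation "VN" => CuspForm (Gamma0 N) 2

theorem one_mem_sp (N : ℕ) :
    (1 : ℝ) ∈ ((Gamma0 N : Subgroup (Matrix.GeneralLinearGroup (Fin 2) ℝ))).strictPeriods :=
  CongruenceSubgroup.one_mem_strictPeriods_Gamma0 N

theorem qc_add (f g : VN) (n : ℕ) :
    qCoeff (⇑(f + g)) n = qCoeff f n + qCoeff g n := by
  unfold qCoeff
  rw [FunLike.coe_add, ModularForm.qExpansion_add one_pos (one_mem_sp N) f g, map_add]

theorem qc_smul (c : ℂ) (f : VN) (n : ℕ) :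
    qCoeff (⇑(c • f)) n = c * qCoeff f n := by
  unfold qCoeff
  rw [FunLike.coe_smul, ModularForm.qExpansion_smul one_pos (one_mem_sp N) c f]
  simp

theorem qc_coeff_zero (f : VN) : qCoeff f 0 = 0 := by
  unfold qCoeff
  exact CuspFormClass.qExpansion_coeff_zero f one_pos (one_mem_sp N)

theorem eq_zero_of_qc (f : VN) (h : ∀ n, qCoeff f n = 0) : f = 0 := by
  have hq : qExpansion 1 f = 0 := by
    ext n
    simpa [qCoeff] using h n
  have : Fact (IsCusp OnePoint.infty (Gamma0 N : Subgroup (Matrix.GeneralLinearGroup (Fin 2) ℝ))) :=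
    ⟨Subgroup.isCusp_of_mem_strictPeriods one_pos (one_mem_sp N)⟩
  have h0 := (UpperHalfPlane.qExpansion_eq_zero_iff one_pos
    (SlashInvariantFormClass.periodic_comp_ofComplex f (one_mem_sp N))
    (ModularFormClass.holo f) (ModularFormClass.bdd_at_infty f)).1 hq
  ext z
  simpa using congrFun h0 z

theorem qc_heckeT {ℓ : ℕ} (hℓ : ℓ.Prime) (hℓN : ¬ ℓ ∣ N) (f : VN) (n : ℕ) :
    qCoeff (CuspForm.heckeTLin 2 hℓ hℓN f) n =
      qCoeff f (n * ℓ) + if ℓ ∣ n then (ℓ : ℂ) * qCoeff f (n / ℓ) else 0 := by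
  rw [CuspForm.coe_heckeTLin_apply, ModularFormClass.qCoeff_heckeT f (one_mem_sp N) hℓ.ne_zero,
    ModularForm.coeffHeckeT_apply]
  norm_num

theorem qc_heckeU [NeZero N] {ℓ : ℕ} (hℓ : ℓ ≠ 0) (hℓN : ℓ ∣ N) (f : VN) (n : ℕ) :
    qCoeff (CuspForm.heckeULin 2 hℓN f) n = qCoeff f (n * ℓ) := by
  rw [CuspForm.coe_heckeULin_apply, ModularFormClass.qCoeff_heckeU f (one_mem_sp N) hℓ,
    ModularForm.coeffHeckeU_apply]

end Fermat.Agent.helper7
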