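import Mathlib
import Fermat.Agent.DS_helper7_QExp

set_option autoImplicit false
set_option linter.unusedSectionVars false
set_option linter.unusedVariables false

namespace Fermat.Agent.helper7

open CongruenceSubgroup ModularFormClass UpperHalfPlane

variable {N : ℕ} [NeZero N]

local notation "VN" => CuspForm (Gamma0 N) 2

/-- all `q`-coefficients are integers -/
def IntF (g : VN) : Prop := ∀ n, ∃ m : ℤ, qCoeff g n = m

/-- all `q`-coefficients are integers divisible by three -/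
def Div3 (g : VN) : Prop := ∀ n, ∃ m : ℤ, qCoeff g n = 3 * m

theorem qc_zero (n : ℕ) : qCoeff (⇑(0 : VN)) n = 0 := by
  have := qc_smul (0 : ℂ) (0 : VN) n
  simpa using this

theorem qc_neg (f : VN) (n : ℕ) : qCoeff (⇑(-f)) n = - qCoeff f n := by
  have := qc_smul (-1 : ℂ) f n
  simpa using this

theorem qc_sub (f g : VN) (n : ℕ) : qCoeff (⇑(f - g)) n = qCoeff f n - qCoeff g n := by
  rw [sub_eq_add_neg, qc_add, qc_neg, ← sub_eq_add_neg]

theorem Div3.intF {g : VN} (h : Div3 g) : IntF g := fun n => by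
  obtain ⟨m, hm⟩ := h n
  exact ⟨3 * m, by rw [hm]; push_cast; ring⟩

theorem IntF.zero : IntF (0 : VN) := fun n => ⟨0, by rw [qc_zero]; simp⟩

theorem Div3.zero : Div3 (0 : VN) := fun n => ⟨0, by rw [qc_zero]; simp⟩

theorem IntF.add {f g : VN} (hf : IntF f) (hg : IntF g) : IntF (f + g) := fun n => by
  obtain ⟨a, ha⟩ := hf n
  obtain ⟨b, hb⟩ := hg n
  exact ⟨a + b, by rw [qc_add, ha, hb]; push_cast; ring⟩

theorem Div3.add {f g : VN} (hf : Div3 f) (hg : Div3 g) : Div3 (f + g) := fun n => by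
  obtain ⟨a, ha⟩ := hf n
  obtain ⟨b, hb⟩ := hg n
  exact ⟨a + b, by rw [qc_add, ha, hb]; push_cast; ring⟩

theorem IntF.sub {f g : VN} (hf : IntF f) (hg : IntF g) : IntF (f - g) := fun n => by
  obtain ⟨a, ha⟩ := hf n
  obtain ⟨b, hb⟩ := hg n
  exact ⟨a - b, by rw [qc_sub, ha, hb]; push_cast; ring⟩

theorem Div3.sub {f g : VN} (hf : Div3 f) (hg : Div3 g) : Div3 (f - g) := fun n => by
  obtain ⟨a, ha⟩ := hf n
  obtain ⟨b, hb⟩ := hg n
  exact ⟨a - b, by rw [qc_sub, ha, hb]; push_cast; ring⟩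

theorem IntF.int_smul {f : VN} (hf : IntF f) (c : ℤ) : IntF ((c : ℂ) • f) := fun n => by
  obtain ⟨a, ha⟩ := hf n
  exact ⟨c * a, by rw [qc_smul, ha]; push_cast; ring⟩

theorem Div3.int_smul {f : VN} (hf : Div3 f) (c : ℤ) : Div3 ((c : ℂ) • f) := fun n => by
  obtain ⟨a, ha⟩ := hf n
  exact ⟨c * a, by rw [qc_smul, ha]; push_cast; ring⟩

theorem IntF.three_smul {f : VN} (hf : IntF f) (c : ℤ) : Div3 (((3 * c : ℤ) : ℂ) • f) := fun n => by
  obtain ⟨a, ha⟩ := hf n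
  exact ⟨c * a, by rw [qc_smul, ha]; push_cast; ring⟩

theorem IntF.heckeT {ℓ : ℕ} (hℓ : ℓ.Prime) (hℓN : ¬ ℓ ∣ N) {f : VN} (hf : IntF f) :
    IntF (CuspForm.heckeTLin 2 hℓ hℓN f) := fun n => by
  obtain ⟨a, ha⟩ := hf (n * ℓ)
  obtain ⟨b, hb⟩ := hf (n / ℓ)
  rw [qc_heckeT, ha, hb]
  by_cases h : ℓ ∣ n
  · exact ⟨a + ℓ * b, by rw [if_pos h]; push_cast; ring⟩
  · exact ⟨a, by rw [if_neg h]; simp⟩

theorem Div3.heckeT {ℓ : ℕ} (hℓ : ℓ.Prime) (hℓN : ¬ ℓ ∣ N) {f : VN} (hf : Div3 f) :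
    Div3 (CuspForm.heckeTLin 2 hℓ hℓN f) := fun n => by
  obtain ⟨a, ha⟩ := hf (n * ℓ)
  obtain ⟨b, hb⟩ := hf (n / ℓ)
  rw [qc_heckeT, ha, hb]
  by_cases h : ℓ ∣ n
  · exact ⟨a + ℓ * b, by rw [if_pos h]; push_cast; ring⟩
  · exact ⟨a, by rw [if_neg h]; simp⟩

theorem IntF.heckeU {ℓ : ℕ} (hℓ : ℓ ≠ 0) (hℓN : ℓ ∣ N) {f : VN} (hf : IntF f) :
    IntF (CuspForm.heckeULin 2 hℓN f) := fun n => by
  obtain ⟨a, ha⟩ := hf (n * ℓ)
  exact ⟨a, by rw [qc_heckeU hℓ, ha]⟩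

theorem Div3.heckeU {ℓ : ℕ} (hℓ : ℓ ≠ 0) (hℓN : ℓ ∣ N) {f : VN} (hf : Div3 f) :
    Div3 (CuspForm.heckeULin 2 hℓN f) := fun n => by
  obtain ⟨a, ha⟩ := hf (n * ℓ)
  exact ⟨a, by rw [qc_heckeU hℓ, ha]⟩

/-- The Hecke algebra used here: all `T_ℓ` and `U_ℓ`. -/
abbrev TT (N : ℕ) [NeZero N] : Subalgebra ℤ (Module.End ℂ (CuspForm (Gamma0 N) 2)) :=
  CuspForm.heckeAlgebra N 2 (∅ : Set ℕ)

theorem algebraMap_int_apply (r : ℤ) (g : VN) :
    (algebraMap ℤ (Module.End ℂ VN) r) g = (r : ℂ) • g := by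
  rw [Algebra.algebraMap_eq_smul_one, LinearMap.smul_apply, Module.End.one_apply,
    Int.cast_smul_eq_zsmul]

theorem IntF.of_mem_TT {t : Module.End ℂ VN} (ht : t ∈ TT N) {g : VN} (hg : IntF g) :
    IntF (t g) := by
  induction ht using Algebra.adjoin_induction generalizing g with
  | mem x hx =>
    rcases hx with ⟨ℓ, hℓ, hℓN, -, rfl⟩ | ⟨q, hqN, hq, -, rfl⟩
    · exact hg.heckeT hℓ hℓN
    · exact hg.heckeU hq.ne_zero hqN
  | algebraMap r => rw [algebraMap_int_apply]; exact hg.int_smul r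
  | add x y _ _ hx hy => rw [LinearMap.add_apply]; exact (hx hg).add (hy hg)
  | mul x y _ _ hx hy => rw [Module.End.mul_apply]; exact hx (hy hg)

theorem Div3.of_mem_TT {t : Module.End ℂ VN} (ht : t ∈ TT N) {g : VN} (hg : Div3 g) :
    Div3 (t g) := by
  induction ht using Algebra.adjoin_induction generalizing g with
  | mem x hx =>
    rcases hx with ⟨ℓ, hℓ, hℓN, -, rfl⟩ | ⟨q, hqN, hq, -, rfl⟩
    · exact hg.heckeT hℓ hℓN
    · exact hg.heckeU hq.ne_zero hqN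
  | algebraMap r => rw [algebraMap_int_apply]; exact hg.int_smul r
  | add x y _ _ hx hy => rw [LinearMap.add_apply]; exact (hx hg).add (hy hg)
  | mul x y _ _ hx hy => rw [Module.End.mul_apply]; exact hx (hy hg)

/-- Lemma A: a mod-3 eigenvector for the generators is a mod-3 eigenvector for the whole algebra. -/
theorem exists_int_div3_sub {f : VN} (hf : IntF f)
    (hgen : ∀ x ∈ CuspForm.heckeGenerators N 2 (∅ : Set ℕ), ∃ c : ℤ, Div3 (x f - (c : ℂ) • f))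
    {t : Module.End ℂ VN} (ht : t ∈ TT N) : ∃ c : ℤ, Div3 (t f - (c : ℂ) • f) := by
  induction ht using Algebra.adjoin_induction with
  | mem x hx => exact hgen x hx
  | algebraMap r => exact ⟨r, by rw [algebraMap_int_apply, sub_self]; exact Div3.zero⟩
  | add x y _ _ hx hy =>
    obtain ⟨c, hc⟩ := hx
    obtain ⟨d, hd⟩ := hy
    refine ⟨c + d, ?_⟩
    have : (x + y) f - ((c + d : ℤ) : ℂ) • f = (x f - (c : ℂ) • f) + (y f - (d : ℂ) • f) := by
      rw [LinearMap.add_apply]; push_cast; rw [add_smul]; abel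
    rw [this]; exact hc.add hd
  | mul x y hxm _ hx hy =>
    obtain ⟨c, hc⟩ := hx
    obtain ⟨d, hd⟩ := hy
    refine ⟨c * d, ?_⟩
    have : (x * y) f - ((c * d : ℤ) : ℂ) • f =
        x (y f - (d : ℂ) • f) + (d : ℂ) • (x f - (c : ℂ) • f) := by
      rw [Module.End.mul_apply, map_sub, map_smul, smul_sub, smul_smul]; push_cast
      rw [mul_comm (d : ℂ) (c : ℂ)]; abel
    rw [this]; exact (Div3.of_mem_TT hxm hd).add (hc.int_smul d)

end Fermat.Agent.helper7
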