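import Mathlib
import Fermat.Agent.DS_helper7_Mod3
import Fermat.Prelude.Def_CuspForm_IntegralLattice
import Fermat.Prelude.Def_CuspForm_IntegralStructure
import Fermat.Prelude.Thm_CuspForm_intLattice_fg

set_option autoImplicit false
set_option linter.unusedSectionVars false
set_option linter.unusedVariables false

namespace Fermat.Agent.helper7

open CongruenceSubgroup ModularFormClass UpperHalfPlane

variable {N : ℕ} [NeZero N]

local notation "VN" => CuspForm (Gamma0 N) 2

theorem mem_qIntegralSet_iff (f : VN) : f ∈ CuspForm.qIntegralSet N ↔ IntF f := by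
  unfold CuspForm.qIntegralSet IntF
  constructor
  · intro h n
    obtain ⟨m, hm⟩ := Subring.mem_bot.1 (h n)
    exact ⟨m, hm.symm⟩
  · intro h n
    obtain ⟨m, hm⟩ := h n
    exact Subring.mem_bot.2 ⟨m, hm.symm⟩

theorem intF_of_mem_intLattice {f : VN} (hf : f ∈ CuspForm.intLattice N 2) : IntF f := by
  unfold CuspForm.intLattice at hf
  induction hf using Submodule.span_induction with
  | mem x hx => exact fun n => by obtain ⟨m, hm⟩ := hx n; exact ⟨m, hm⟩
  | zero => exact IntF.zero
  | add x y _ _ hx hy => exact hx.add hy
  | smul c x _ hx =>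
    have : c • x = (c : ℂ) • x := (Int.cast_smul_eq_zsmul ℂ c x).symm
    rw [this]; exact hx.int_smul c

theorem mem_intLattice_of_intF {f : VN} (hf : IntF f) : f ∈ CuspForm.intLattice N 2 :=
  Submodule.subset_span hf

theorem span_intLattice_eq_top (h : CuspForm.HasIntegralBasis N) :
    Submodule.span ℂ ((CuspForm.intLattice N 2 : Submodule ℤ VN) : Set VN) = ⊤ := by
  rw [eq_top_iff, ← h]
  apply Submodule.span_mono
  intro f hf
  exact mem_intLattice_of_intF ((mem_qIntegralSet_iff f).1 hf)

theorem finiteDimensional_of_hasIntegralBasis (h : CuspForm.HasIntegralBasis N) :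
    FiniteDimensional ℂ VN := by
  obtain ⟨s, hs⟩ := CuspForm.intLattice_fg N 2
  refine ⟨⟨s, ?_⟩⟩
  rw [eq_top_iff, ← span_intLattice_eq_top h, ← hs]
  apply Submodule.span_le.2
  intro x hx
  exact Submodule.span_subset_span ℤ ℂ _ hx

/-- Elements of the Hecke algebra are integral over `ℤ`. -/
theorem isIntegral_of_mem_TT (h : CuspForm.HasIntegralBasis N) {t : Module.End ℂ VN}
    (ht : t ∈ TT N) : IsIntegral ℤ t := by
  classical
  set L : Submodule ℤ VN := CuspForm.intLattice N 2 with hL
  have hfin : Module.Finite ℤ L := Module.Finite.iff_fg.2 (CuspForm.intLattice_fg N 2)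
  have hstab : ∀ x ∈ L, t x ∈ L := fun x hx =>
    mem_intLattice_of_intF (IntF.of_mem_TT ht (intF_of_mem_intLattice hx))
  let tL : Module.End ℤ L := (t.restrictScalars ℤ).restrict hstab
  obtain ⟨P, hPmonic, hP⟩ := (Algebra.IsIntegral.isIntegral (R := ℤ) tL)
  refine ⟨P, hPmonic, ?_⟩
  -- the polynomial kills `t` on the lattice, hence everywhere
  have hpow : ∀ (n : ℕ) (x : L), (t ^ n) (x : VN) = ((tL ^ n) x : VN) := by
    intro n
    induction n with
    | zero => intro x; simp
    | succ n ihn =>
      intro x
      rw [pow_succ, pow_succ, Module.End.mul_apply, Module.End.mul_apply]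
      have : t (x : VN) = ((tL x : L) : VN) := rfl
      rw [this, ihn (tL x)]
  have key : ∀ (Q : Polynomial ℤ) (x : L),
      ((Polynomial.aeval t Q) (x : VN)) = ((Polynomial.aeval tL Q) x : VN) := by
    intro Q
    induction Q using Polynomial.induction_on' with
    | add p q hp hq =>
      intro x
      simp only [map_add, LinearMap.add_apply, Submodule.coe_add, hp x, hq x]
    | monomial n a =>
      intro x
      rw [Polynomial.aeval_monomial, Polynomial.aeval_monomial, Module.End.mul_apply,
        Module.End.mul_apply, algebraMap_int_apply, hpow n x, Algebra.algebraMap_eq_smul_one,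
        LinearMap.smul_apply, Module.End.one_apply, Submodule.coe_smul, Int.cast_smul_eq_zsmul]
  have hzero : ∀ x ∈ (L : Set VN), (Polynomial.aeval t P) x = (0 : Module.End ℂ VN) x := by
    intro x hx
    have := key P ⟨x, hx⟩
    rw [← Polynomial.aeval_def] at hP
    rw [hP] at this
    simpa using this
  have := LinearMap.eqOn_span' hzero
  rw [span_intLattice_eq_top h] at this
  ext x : 1
  exact this (by trivial)

end Fermat.Agent.helper7
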