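import Mathlib

set_option autoImplicit false

namespace Fermat.Agent.helper7

/-- Lying over for a ring hom into the ring of algebraic integers. -/
theorem exists_maximal_over {A : Type*} [CommRing A] (lam : A →+* integralClosure ℤ ℂ)
    (𝔫 : Ideal A) [h𝔫 : 𝔫.IsPrime] (h : RingHom.ker lam ≤ 𝔫) :
    ∃ 𝔪' : Ideal (integralClosure ℤ ℂ), 𝔪'.IsMaximal ∧ ∀ t ∈ 𝔫, lam t ∈ 𝔪' := by
  letI : Algebra A (integralClosure ℤ ℂ) := lam.toAlgebra
  have hint : Algebra.IsIntegral A (integralClosure ℤ ℂ) := by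
    refine ⟨fun z => ?_⟩
    have hz : IsIntegral ℤ z := Algebra.IsIntegral.isIntegral z
    exact hz.tower_top
  obtain ⟨Q, -, hQprime, hQ⟩ := Ideal.exists_ideal_over_prime_of_isIntegral 𝔫
    (⊥ : Ideal (integralClosure ℤ ℂ)) (by
      intro x hx
      apply h
      rw [Ideal.mem_comap] at hx
      exact hx)
  obtain ⟨𝔪', hmax, hle⟩ := Ideal.exists_le_maximal Q hQprime.ne_top
  refine ⟨𝔪', hmax, fun t ht => hle ?_⟩
  have : t ∈ Q.comap (algebraMap A (integralClosure ℤ ℂ)) := hQ ▸ ht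
  exact this

end Fermat.Agent.helper7
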