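import Mathlib

set_option autoImplicit false

namespace Fermat.Agent.helper7

open Module

/-- Abstract common-eigenvector lemma with control on the kernel of the eigencharacter. -/
theorem exists_eigenvector_ker_le
    {K V : Type*} [Field K] [IsAlgClosed K] [AddCommGroup V] [Module K V] [FiniteDimensional K V]
    {A : Type*} [CommRing A] (φ : A →+* Module.End K V)
    (𝔫 : Ideal A) [h𝔫 : 𝔫.IsPrime] (f : V) (hf : ∀ t : A, φ t f = 0 → t ∈ 𝔫) :
    ∃ (g : V) (χ : A → K), g ≠ 0 ∧ (∀ t, φ t g = χ t • g) ∧ (∀ t, χ t = 0 → t ∈ 𝔫) := by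
  classical
  -- the set of admissible subspaces
  let S : Set (Submodule K V) := {W | W ≠ ⊥ ∧ (∀ t : A, ∀ w ∈ W, φ t w ∈ W) ∧
    ∀ t : A, (∀ w ∈ W, φ t w = 0) → t ∈ 𝔫}
  have hone : (1 : A) ∉ 𝔫 := fun h => h𝔫.ne_top ((Ideal.eq_top_iff_one 𝔫).2 h)
  have htop : (⊤ : Submodule K V) ∈ S := by
    refine ⟨?_, fun _ _ _ => Submodule.mem_top, fun t ht => hf t (ht f Submodule.mem_top)⟩
    intro h
    have hf0 : f = 0 := by
      have : f ∈ (⊥ : Submodule K V) := h ▸ Submodule.mem_top
      simpa using this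
    exact hone (hf 1 (by simp [hf0]))
  have hwf : WellFounded ((· < ·) : Submodule K V → Submodule K V → Prop) := wellFounded_lt
  obtain ⟨W, hWS, hWmin⟩ := hwf.has_min S ⟨⊤, htop⟩
  obtain ⟨hWne, hWinv, hWann⟩ := hWS
  -- every t acts as a scalar on W
  have hscalar : ∀ t : A, ∃ μ : K, ∀ w ∈ W, φ t w = μ • w := by
    intro t
    -- restricted endomorphism
    have hmaps : ∀ w ∈ W, φ t w ∈ W := hWinv t
    let T : Module.End K W := (φ t).restrict hmaps
    have : Nontrivial W := (Submodule.nontrivial_iff_ne_bot).2 hWne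
    obtain ⟨μ, hμ⟩ := Module.End.exists_eigenvalue T
    obtain ⟨w0, hw0⟩ := hμ.exists_hasEigenvector
    refine ⟨μ, ?_⟩
    let D : Module.End K V := φ t - μ • (1 : Module.End K V)
    have hDcomm : ∀ s : A, ∀ v : V, φ s (D v) = D (φ s v) := by
      intro s v
      have hc : φ s * φ t = φ t * φ s := by rw [← map_mul, ← map_mul, mul_comm]
      have := congrArg (fun F : Module.End K V => F v) hc
      simp only [Module.End.mul_apply] at this
      simp [D, this]
    have hDW : ∀ w ∈ W, D w ∈ W := fun w hw =>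
      W.sub_mem (hmaps w hw) (W.smul_mem μ (by simpa using hw))
    let W₁ : Submodule K V := W ⊓ LinearMap.ker D
    let W₂ : Submodule K V := W.map D
    have hW₁le : W₁ ≤ W := inf_le_left
    have hW₂le : W₂ ≤ W := by
      rintro _ ⟨w, hw, rfl⟩
      exact hDW w hw
    have hw0mem : (w0 : V) ∈ W₁ := by
      refine ⟨w0.2, ?_⟩
      have h1 : T w0 = μ • w0 := hw0.apply_eq_smul
      have h2 : φ t (w0 : V) = μ • (w0 : V) := by
        have := congrArg (fun x : W => (x : V)) h1
        simpa [T] using this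
      simp [D, h2]
    have hw0ne : (w0 : V) ≠ 0 := by
      intro h
      exact hw0.2 (Subtype.ext h)
    have hW₁ne : W₁ ≠ ⊥ := fun h => hw0ne (by simpa [h] using hw0mem)
    have hW₁inv : ∀ s : A, ∀ w ∈ W₁, φ s w ∈ W₁ := by
      rintro s w ⟨hw, hwk⟩
      refine ⟨hWinv s w hw, ?_⟩
      have hwk' : D w = 0 := hwk
      show D (φ s w) = 0
      rw [← hDcomm, hwk', map_zero]
    have hW₂inv : ∀ s : A, ∀ w ∈ W₂, φ s w ∈ W₂ := by
      rintro s _ ⟨w, hw, rfl⟩
      exact ⟨φ s w, hWinv s w hw, (hDcomm s w).symm⟩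
    -- W₂ ≠ W by rank-nullity
    have hW₂ne : W₂ ≠ W := by
      intro h
      -- D restricted to W is surjective hence injective
      let DW : Module.End K W := D.restrict hDW
      have hsurj : Function.Surjective DW := by
        intro y
        have hy : (y : V) ∈ W₂ := by rw [h]; exact y.2
        obtain ⟨x, hx, hxy⟩ := hy
        exact ⟨⟨x, hx⟩, Subtype.ext hxy⟩
      have hinj : Function.Injective DW := LinearMap.injective_iff_surjective.2 hsurj
      have : DW w0 = 0 := by
        apply Subtype.ext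
        have h0 : D (w0 : V) = 0 := hw0mem.2
        simpa [DW] using h0
      have : w0 = 0 := hinj (by rw [this, map_zero])
      exact hw0.2 this
    by_cases hW₂bot : W₂ = ⊥
    · intro w hw
      have : D w ∈ W₂ := ⟨w, hw, rfl⟩
      rw [hW₂bot, Submodule.mem_bot] at this
      have h3 : φ t w - μ • w = 0 := by simpa [D] using this
      exact sub_eq_zero.1 h3
    · -- one of W₁, W₂ is admissible
      have hor : W₁ ∈ S ∨ W₂ ∈ S := by
        by_contra hcon
        push Not at hcon
        obtain ⟨h1, h2⟩ := hcon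
        have h1' : ∃ s₁ : A, (∀ w ∈ W₁, φ s₁ w = 0) ∧ s₁ ∉ 𝔫 := by
          by_contra hh
          push Not at hh
          exact h1 ⟨hW₁ne, hW₁inv, hh⟩
        have h2' : ∃ s₂ : A, (∀ w ∈ W₂, φ s₂ w = 0) ∧ s₂ ∉ 𝔫 := by
          by_contra hh
          push Not at hh
          exact h2 ⟨hW₂bot, hW₂inv, hh⟩
        obtain ⟨s₁, hs₁, hs₁n⟩ := h1'
        obtain ⟨s₂, hs₂, hs₂n⟩ := h2'
        have hprod : s₁ * s₂ ∈ 𝔫 := by
          apply hWann
          intro w hw
          have hD : D (φ s₂ w) = 0 := by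
            rw [← hDcomm]
            exact hs₂ _ ⟨w, hw, rfl⟩
          have hmem : φ s₂ w ∈ W₁ := ⟨hWinv s₂ w hw, hD⟩
          rw [map_mul, Module.End.mul_apply]
          exact hs₁ _ hmem
        rcases h𝔫.mem_or_mem hprod with h | h
        · exact hs₁n h
        · exact hs₂n h
      rcases hor with h | h
      · have hnot := hWmin W₁ h
        have heq : W₁ = W := by
          by_contra hne
          exact hnot (lt_of_le_of_ne hW₁le hne)
        intro w hw
        have hw1 : w ∈ W₁ := by rw [heq]; exact hw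
        have hk : D w = 0 := hw1.2
        have h3 : φ t w - μ • w = 0 := by simpa [D] using hk
        exact sub_eq_zero.1 h3
      · have hnot := hWmin W₂ h
        exact absurd (by
          by_contra hne
          exact hnot (lt_of_le_of_ne hW₂le hne)) hW₂ne
  choose χ hχ using hscalar
  obtain ⟨g, hgW, hg0⟩ := Submodule.exists_mem_ne_zero_of_ne_bot hWne
  refine ⟨g, χ, hg0, fun t => hχ t g hgW, fun t ht => hWann t fun w hw => ?_⟩
  rw [hχ t w hw, ht, zero_smul]

end Fermat.Agent.helper7
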