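import Mathlib
import Fermat.Agent.DS_helper7_Lattice
import Fermat.Agent.DS_helper7_LinAlg
import Fermat.Agent.DS_helper7_LieOver
import Fermat.Agent.DS_helper7_Formal

set_option autoImplicit false
set_option linter.unusedSectionVars false
set_option linter.unusedVariables false

namespace Fermat.Agent.helper7

open CongruenceSubgroup ModularFormClass UpperHalfPlane

variable {N : ℕ} [NeZero N]

local notation "VN" => CuspForm (Gamma0 N) 2

/-- The ideal of Hecke operators sending `f` into `3L`. -/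
def nnIdeal (f : VN) : Ideal (TT N) where
  carrier := {t | Div3 ((t : Module.End ℂ VN) f)}
  add_mem' := by
    intro s t hs ht
    show Div3 (((s + t : TT N) : Module.End ℂ VN) f)
    rw [Subalgebra.coe_add, LinearMap.add_apply]
    exact Div3.add hs ht
  zero_mem' := by
    show Div3 (((0 : TT N) : Module.End ℂ VN) f)
    rw [Subalgebra.coe_zero, LinearMap.zero_apply]
    exact Div3.zero
  smul_mem' := by
    intro c t ht
    show Div3 (((c • t : TT N) : Module.End ℂ VN) f)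
    rw [smul_eq_mul, Subalgebra.coe_mul, Module.End.mul_apply]
    exact Div3.of_mem_TT c.2 ht

theorem mem_nnIdeal {f : VN} {t : TT N} :
    t ∈ nnIdeal f ↔ Div3 ((t : Module.End ℂ VN) f) := Iff.rfl

theorem nnIdeal_isPrime {f : VN} (hf : IntF f) (h1 : ∃ m : ℤ, qCoeff f 1 = 1 + 3 * m)
    (hgen : ∀ x ∈ CuspForm.heckeGenerators N 2 (∅ : Set ℕ), ∃ c : ℤ, Div3 (x f - (c : ℂ) • f)) :
    (nnIdeal f).IsPrime := by
  obtain ⟨m1, hm1⟩ := h1
  -- an integer multiple of `f` in `3L` has the integer divisible by 3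
  have hdvd : ∀ c : ℤ, Div3 ((c : ℂ) • f) → (3 : ℤ) ∣ c := by
    intro c hc
    obtain ⟨k, hk⟩ := hc 1
    rw [qc_smul, hm1] at hk
    have : (c : ℂ) = ((3 * (k - c * m1) : ℤ) : ℂ) := by push_cast; linear_combination hk
    exact ⟨k - c * m1, by exact_mod_cast this⟩
  refine ⟨?_, ?_⟩
  · intro htop
    have : (1 : TT N) ∈ nnIdeal f := htop ▸ Submodule.mem_top
    rw [mem_nnIdeal, Subalgebra.coe_one, Module.End.one_apply] at this
    have h3 : (3 : ℤ) ∣ 1 := hdvd 1 (by simpa using this)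
    omega
  · intro s t hst
    obtain ⟨c, hc⟩ := exists_int_div3_sub hf hgen s.2
    obtain ⟨d, hd⟩ := exists_int_div3_sub hf hgen t.2
    rw [mem_nnIdeal, Subalgebra.coe_mul, Module.End.mul_apply] at hst
    -- (s t) f - (c d) f ∈ 3L
    have hcd : Div3 (((c * d : ℤ) : ℂ) • f) := by
      have e : ((c * d : ℤ) : ℂ) • f =
          (s : Module.End ℂ VN) ((t : Module.End ℂ VN) f) -
            ((s : Module.End ℂ VN) ((t : Module.End ℂ VN) f - (d : ℂ) • f) +
              (d : ℂ) • ((s : Module.End ℂ VN) f - (c : ℂ) • f)) := by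
        rw [map_sub, map_smul, smul_sub, smul_smul]; push_cast
        rw [mul_comm (d : ℂ) (c : ℂ)]; abel
      rw [e]
      exact hst.sub ((Div3.of_mem_TT s.2 hd).add (hc.int_smul d))
    have h3 : (3 : ℤ) ∣ c * d := hdvd _ hcd
    rcases (Int.prime_three.dvd_or_dvd h3) with ⟨c', hc'⟩ | ⟨d', hd'⟩
    · left
      rw [mem_nnIdeal]
      have e : (s : Module.End ℂ VN) f = ((s : Module.End ℂ VN) f - (c : ℂ) • f) + (c : ℂ) • f := by
        abel
      rw [e]
      exact hc.add (by rw [hc']; exact hf.three_smul c')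
    · right
      rw [mem_nnIdeal]
      have e : (t : Module.End ℂ VN) f = ((t : Module.End ℂ VN) f - (d : ℂ) • f) + (d : ℂ) • f := by
        abel
      rw [e]
      exact hd.add (by rw [hd']; exact hf.three_smul d')

/-- Vanishing of `a_1` forces vanishing of an eigenvector. -/
theorem eigen_coeff_zero {g : VN} {χ : TT N → ℂ}
    (hχ : ∀ t : TT N, (t : Module.End ℂ VN) g = χ t • g) (hb1 : qCoeff g 1 = 0) :
    ∀ n, qCoeff g n = 0 := by
  intro n
  induction n using Nat.strong_induction_on with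
  | _ n ih =>
    rcases Nat.lt_or_ge n 2 with hn | hn
    · interval_cases n
      · exact qc_coeff_zero g
      · exact hb1
    · set ℓ := n.minFac with hℓdef
      have hℓ : ℓ.Prime := Nat.minFac_prime (by omega)
      obtain ⟨m, hm⟩ := Nat.minFac_dvd n
      have hmpos : 0 < m := by
        rcases Nat.eq_zero_or_pos m with h0 | h0
        · subst h0; omega
        · exact h0
      have hmlt : m < n := by
        rw [hm]; exact lt_mul_of_one_lt_left hmpos hℓ.one_lt
      have hdivlt : m / ℓ < n := lt_of_le_of_lt (Nat.div_le_self m ℓ) hmlt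
      have hn' : n = m * ℓ := by rw [hm, mul_comm]
      by_cases hℓN : ℓ ∣ N
      · have e := hχ (CuspForm.heckeAlgebra.U hℓ hℓN (Set.notMem_empty ℓ))
        have e' := congrArg (fun x : VN => qCoeff x m) e
        simp only [CuspForm.heckeAlgebra.coe_U] at e'
        rw [qc_heckeU hℓ.ne_zero, qc_smul, ih m hmlt, mul_zero] at e'
        rw [hn']; exact e'
      · have e := hχ (CuspForm.heckeAlgebra.T hℓ hℓN (Set.notMem_empty ℓ))
        have e' := congrArg (fun x : VN => qCoeff x m) e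
        simp only [CuspForm.heckeAlgebra.coe_T] at e'
        rw [qc_heckeT, qc_smul, ih m hmlt, ih (m / ℓ) hdivlt, mul_zero, mul_zero] at e'
        rw [hn']; simpa using e'

/-- A normalised simultaneous eigenvector is a normalised eigenform. -/
theorem isNormalizedEigenform_of_eigen {g : VN} {χ : TT N → ℂ}
    (hχ : ∀ t : TT N, (t : Module.End ℂ VN) g = χ t • g) (hb1 : qCoeff g 1 = 1) :
    g.IsNormalizedEigenform ∧
      ∀ (ℓ : ℕ) (hℓ : ℓ.Prime) (hℓN : ¬ ℓ ∣ N),
        χ (CuspForm.heckeAlgebra.T hℓ hℓN (Set.notMem_empty ℓ)) = qCoeff g ℓ := by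
  -- relations
  have relT : ∀ (ℓ : ℕ) (hℓ : ℓ.Prime) (hℓN : ¬ ℓ ∣ N) (m : ℕ),
      qCoeff g (m * ℓ) + (if ℓ ∣ m then (ℓ : ℂ) * qCoeff g (m / ℓ) else 0) =
        χ (CuspForm.heckeAlgebra.T hℓ hℓN (Set.notMem_empty ℓ)) * qCoeff g m := by
    intro ℓ hℓ hℓN m
    have e := hχ (CuspForm.heckeAlgebra.T hℓ hℓN (Set.notMem_empty ℓ))
    have e' := congrArg (fun x : VN => qCoeff x m) e
    simp only [CuspForm.heckeAlgebra.coe_T] at e'
    rw [qc_heckeT, qc_smul] at e'
    exact e'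
  have relU : ∀ (ℓ : ℕ) (hℓ : ℓ.Prime) (hℓN : ℓ ∣ N) (m : ℕ),
      qCoeff g (m * ℓ) =
        χ (CuspForm.heckeAlgebra.U hℓ hℓN (Set.notMem_empty ℓ)) * qCoeff g m := by
    intro ℓ hℓ hℓN m
    have e := hχ (CuspForm.heckeAlgebra.U hℓ hℓN (Set.notMem_empty ℓ))
    have e' := congrArg (fun x : VN => qCoeff x m) e
    simp only [CuspForm.heckeAlgebra.coe_U] at e'
    rw [qc_heckeU hℓ.ne_zero, qc_smul] at e'
    exact e'
  have hχT : ∀ (ℓ : ℕ) (hℓ : ℓ.Prime) (hℓN : ¬ ℓ ∣ N),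
      χ (CuspForm.heckeAlgebra.T hℓ hℓN (Set.notMem_empty ℓ)) = qCoeff g ℓ := by
    intro ℓ hℓ hℓN
    have := relT ℓ hℓ hℓN 1
    have hnd : ¬ ℓ ∣ 1 := fun hd => hℓ.one_lt.ne' (Nat.dvd_one.1 hd)
    rw [if_neg hnd, hb1, one_mul, mul_one, add_zero] at this
    exact this.symm
  have hχU : ∀ (ℓ : ℕ) (hℓ : ℓ.Prime) (hℓN : ℓ ∣ N),
      χ (CuspForm.heckeAlgebra.U hℓ hℓN (Set.notMem_empty ℓ)) = qCoeff g ℓ := by
    intro ℓ hℓ hℓN
    have := relU ℓ hℓ hℓN 1
    rw [hb1, one_mul, mul_one] at this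
    exact this.symm
  -- formal eigensystem
  have hsys : FormalHecke.IsEigensystem (fun ℓ : ℕ => if ℓ ∣ N then (0 : ℂ) else (ℓ : ℂ))
      (fun n => qCoeff g n) := by
    refine ⟨hb1, ?_⟩
    intro ℓ hℓ n
    by_cases hℓN : ℓ ∣ N
    · have := relU ℓ hℓ hℓN n
      rw [hχU ℓ hℓ hℓN] at this
      simp only [if_pos hℓN, zero_mul, add_zero]
      rw [mul_comm ℓ n]; exact this
    · have := relT ℓ hℓ hℓN n
      rw [hχT ℓ hℓ hℓN] at this
      simp only [if_neg hℓN]
      rw [mul_comm ℓ n, ← this]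
      by_cases hd : ℓ ∣ n
      · simp [if_pos hd]
      · simp [if_neg hd]
  refine ⟨⟨hb1, ?_, ?_, ?_⟩, hχT⟩
  · intro m n hmn
    exact IsEigensystem.mul_of_coprime hsys m n hmn
  · intro p r hp hpN
    have := IsEigensystem.prime_pow hsys hp r
    simpa [if_neg hpN] using this
  · intro p r hp hpN
    have := IsEigensystem.prime_pow hsys hp r
    simpa [if_pos hpN] using this

/-- Deligne--Serre lifting: a mod 3 eigenvector in the lattice lifts to a normalised eigenform. -/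
theorem exists_eigenform_of_mod3 (h : CuspForm.HasIntegralBasis N) {f : VN} (hf : IntF f)
    (h1 : ∃ m : ℤ, qCoeff f 1 = 1 + 3 * m) (θ : ℕ → ℤ)
    (hT : ∀ (ℓ : ℕ) (hℓ : ℓ.Prime) (hℓN : ¬ ℓ ∣ N),
      Div3 (CuspForm.heckeTLin 2 hℓ hℓN f - (θ ℓ : ℂ) • f))
    (hU : ∀ (ℓ : ℕ) (hℓ : ℓ.Prime) (hℓN : ℓ ∣ N),
      Div3 (CuspForm.heckeULin 2 hℓN f - (θ ℓ : ℂ) • f)) :
    ∃ (g : VN) (_ : g.IsNormalizedEigenform) (𝔪' : Ideal (integralClosure ℤ ℂ)),
      𝔪'.IsMaximal ∧ ((3 : ℕ) : integralClosure ℤ ℂ) ∈ 𝔪' ∧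
      ∀ (ℓ : ℕ) (_ : ℓ.Prime) (_ : ¬ ℓ ∣ N),
        ∃ c : integralClosure ℤ ℂ, (c : ℂ) = qCoeff g ℓ ∧
          c - (θ ℓ : integralClosure ℤ ℂ) ∈ 𝔪' := by
  classical
  have hgen : ∀ x ∈ CuspForm.heckeGenerators N 2 (∅ : Set ℕ),
      ∃ c : ℤ, Div3 (x f - (c : ℂ) • f) := by
    rintro x (⟨ℓ, hℓ, hℓN, -, rfl⟩ | ⟨q, hqN, hq, -, rfl⟩)
    · exact ⟨θ ℓ, hT ℓ hℓ hℓN⟩
    · exact ⟨θ q, hU q hq hqN⟩
  have hprime : (nnIdeal f).IsPrime := nnIdeal_isPrime hf h1 hgen
  have : FiniteDimensional ℂ VN := finiteDimensional_of_hasIntegralBasis h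
  let φ : TT N →+* Module.End ℂ VN := (TT N).val.toRingHom
  have hφ : ∀ t : TT N, φ t = (t : Module.End ℂ VN) := fun t => rfl
  obtain ⟨g, χ, hg0, hχ, hker⟩ := exists_eigenvector_ker_le φ (nnIdeal f) f (by
    intro t ht
    rw [mem_nnIdeal, ← hφ, ht]
    exact Div3.zero)
  have hχ' : ∀ t : TT N, (t : Module.End ℂ VN) g = χ t • g := fun t => hχ t
  -- a_1(g) ≠ 0
  have hb1 : qCoeff g 1 ≠ 0 := by
    intro h0
    exact hg0 (eq_zero_of_qc g (eigen_coeff_zero hχ' h0))
  -- normalise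
  set g' : VN := (qCoeff g 1)⁻¹ • g with hg'
  have hχg' : ∀ t : TT N, (t : Module.End ℂ VN) g' = χ t • g' := by
    intro t
    rw [hg', map_smul, hχ' t, smul_comm]
  have hb1' : qCoeff g' 1 = 1 := by
    rw [hg', qc_smul, inv_mul_cancel₀ hb1]
  obtain ⟨hnorm, hχT⟩ := isNormalizedEigenform_of_eigen hχg' hb1'
  have hg'0 : g' ≠ 0 := by
    intro h0
    have := hb1'
    rw [h0, qc_zero] at this
    exact zero_ne_one this
  -- χ is a ring homomorphism
  have hinj : Function.Injective (fun c : ℂ => c • g') := smul_left_injective ℂ hg'0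
  have χ_one : χ 1 = 1 := by
    apply hinj
    show χ 1 • g' = (1 : ℂ) • g'
    rw [← hχg' 1, Subalgebra.coe_one, Module.End.one_apply, one_smul]
  have χ_mul : ∀ s t, χ (s * t) = χ s * χ t := by
    intro s t
    apply hinj
    show χ (s * t) • g' = (χ s * χ t) • g'
    rw [← hχg' (s * t), Subalgebra.coe_mul, Module.End.mul_apply, hχg' t, map_smul, hχg' s,
      smul_smul, mul_comm]
  have χ_add : ∀ s t, χ (s + t) = χ s + χ t := by
    intro s t
    apply hinj
    show χ (s + t) • g' = (χ s + χ t) • g'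
    rw [← hχg' (s + t), Subalgebra.coe_add, LinearMap.add_apply, hχg' s, hχg' t, add_smul]
  have χ_zero : χ 0 = 0 := by
    apply hinj
    show χ 0 • g' = (0 : ℂ) • g'
    rw [← hχg' 0, Subalgebra.coe_zero, LinearMap.zero_apply, zero_smul]
  let lamC : TT N →+* ℂ :=
    { toFun := χ
      map_one' := χ_one
      map_mul' := χ_mul
      map_zero' := χ_zero
      map_add' := χ_add }
  have hint : ∀ t : TT N, lamC t ∈ integralClosure ℤ ℂ := by
    intro t
    have ht : IsIntegral ℤ t :=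
      (isIntegral_algHom_iff (TT N).val Subtype.val_injective).1 (isIntegral_of_mem_TT h t.2)
    exact map_isIntegral_int lamC ht
  let lam : TT N →+* integralClosure ℤ ℂ := lamC.codRestrict (integralClosure ℤ ℂ) hint
  have hlam : ∀ t : TT N, ((lam t : integralClosure ℤ ℂ) : ℂ) = χ t := fun t => rfl
  have hkerle : RingHom.ker lam ≤ nnIdeal f := by
    intro t ht
    rw [RingHom.mem_ker] at ht
    apply hker
    rw [← hlam, ht]; rfl
  obtain ⟨𝔪', hmax, hmem⟩ := exists_maximal_over lam (nnIdeal f) hkerle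
  refine ⟨g', hnorm, 𝔪', hmax, ?_, ?_⟩
  · have h3 : (3 : TT N) ∈ nnIdeal f := by
      rw [mem_nnIdeal]
      have e : ((3 : TT N) : Module.End ℂ VN) f = (((3 * 1 : ℤ)) : ℂ) • f := by
        have : ((3 : TT N) : Module.End ℂ VN) = (3 : Module.End ℂ VN) := rfl
        rw [this]
        have h3' : (3 : Module.End ℂ VN) = algebraMap ℤ (Module.End ℂ VN) 3 := by
          simp
        rw [h3', algebraMap_int_apply]
        norm_num
      rw [e]
      exact hf.three_smul 1
    have := hmem 3 h3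
    rw [map_ofNat] at this
    rw [Nat.cast_ofNat]
    exact this
  · intro ℓ hℓ hℓN
    refine ⟨lam (CuspForm.heckeAlgebra.T hℓ hℓN (Set.notMem_empty ℓ)), ?_, ?_⟩
    · rw [hlam, hχT ℓ hℓ hℓN]
    · have hmemn : CuspForm.heckeAlgebra.T hℓ hℓN (Set.notMem_empty ℓ) - ((θ ℓ : ℤ) : TT N) ∈
          nnIdeal f := by
        rw [mem_nnIdeal]
        have e : ((CuspForm.heckeAlgebra.T hℓ hℓN (Set.notMem_empty ℓ) - ((θ ℓ : ℤ) : TT N) : TT N) :
            Module.End ℂ VN) f = CuspForm.heckeTLin 2 hℓ hℓN f - (θ ℓ : ℂ) • f := by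
          rw [Subalgebra.coe_sub, LinearMap.sub_apply, CuspForm.heckeAlgebra.coe_T]
          congr 1
          have : (((θ ℓ : ℤ) : TT N) : Module.End ℂ VN) =
              algebraMap ℤ (Module.End ℂ VN) (θ ℓ) := by
            simp
          rw [this, algebraMap_int_apply]
        rw [e]
        exact hT ℓ hℓ hℓN
      have := hmem _ hmemn
      simpa using this

end Fermat.Agent.helper7
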