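-- Statement S16 (row 15): the index of the Eisenstein ideal in the Hecke lattice algebra of level `p`
-- is the numerator of `(p - 1)/12`.
-- Assembly of the team's S16 library: lower bound (C1) `exists_eisCong_eisensteinNumerator` (helper9),
-- upper bound through `NoCong` (helper1, helper2, helper4, helper9), see `S16/CASE_helper2_All`.
import Fermat.Statements.S16
import Fermat.Agent.S16.CASE_helper2_All
import Fermat.Agent.S16.CASE_helper2_D
import Fermat.Agent.S16.CASE_helper4_A
import Fermat.Agent.S16.CASE_helper4_G
import Fermat.Agent.S16.CASE_helper9_C5
import Fermat.Agent.S16.LB_helper9_Rel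

set_option autoImplicit false
open ModularCurve CuspForm
open ModularCurve

namespace Fermat.Agent.S16

theorem result
    (p : ℕ) [Fact p.Prime] :
    Nat.card (↥(heckeLatticeAlgebra p ∅) ⧸
        Ideal.map ((latticeRestrictHom p ∅).toRingHom.comp (heckeEvalForms p 2))
          (eisensteinIdeal p)) =
      eisensteinNumerator p := by
  exact s16_of_C1_normCases p (exists_eisCong_eisensteinNumerator p)
    (fun _ l hl h7 hlp hd => noCong_of_seven_le_of_dvd hl h7 hlp hd)
    (fun _ h => c5_noCong_five (by omega) (by omega))
    (fun _ h => noCong_three_two_of_mod_nine_eight h)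
    (fun _ h => noCong_two_three_of_seven h)

end Fermat.Agent.S16
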