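-- Statement S26 (row 25): the number of `n`-torsion points of an abelian variety.
-- Proof: PROJECT AV (`Fermat/Agent/AV/`), assembled in `AV6_helper4_Final`.
import Fermat.Statements.S26
import Fermat.Agent.AV.AV6_helper4_Final

set_option autoImplicit false
set_option autoImplicit false
open CategoryTheory CategoryTheory.Limits AlgebraicGeometry NeronModelInfra GoodReductionJacobian
universe u
open GoodReductionJacobian GoodReductionJacobian.RelativeGroupLaw

namespace Fermat.Agent.S26

theorem result
    (K : Type u) [Field K] [IsAlgClosed K] {A : Scheme.{u}} (f : A ⟶ Spec (CommRingCat.of K))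
    (L : RelativeGroupLaw K f) (hc : L.IsCommutative) (hA : AbelianSchemePropertyBundle K f)
    (g : ℕ) [SmoothOfRelativeDimension g f] (n : ℕ) (hn : (n : K) ≠ 0) :
    Nat.card {x : SchemeHomOver (𝟙 (Spec (CommRingCat.of K))) f //
        L.IsTorsionPoint (𝟙 (Spec (CommRingCat.of K))) n x} = n ^ (2 * g) :=
  Fermat.Agent.AV.s26Statement K f L hc hA g n hn

end Fermat.Agent.S26
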