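-- Statement S41 (row 39): level raising. Proof: project LR (helper2 [RAISE], helper3 [NONEIS], helper4 [XFER],
-- helper5 [CSP], helper6 [DUAL], helper7 [INST], helper9 [AMALG]/[EIS]/[CSP]).
import Fermat.Statements.S41
import Fermat.Agent.LR.RAISE_helper2_Par
import Fermat.Agent.LR.CSP_helper9_Final

set_option autoImplicit false
open WeierstrassCurve WeierstrassCurve.Affine WeierstrassCurve.Affine.Point
open scoped CongruenceSubgroup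
open WeierstrassCurve

namespace Fermat.Agent.S41

theorem result
    (E : WeierstrassCurve ℚ) [E.IsElliptic] {W : WeierstrassCurve ℤ} (hW : W.IsIntegralModelOf E)
    {p N q' : ℕ} (hp : p.Prime) (hp2 : p ≠ 2) (hN : 0 < N) (hq' : q'.Prime) (hq'N : ¬ q' ∣ N) (hq'p : q' ≠ p)
    (hirr : GaloisRepIsIrreducible (K := AlgebraicClosure ℚ) ℚ E p)
    (f : CuspForm (CongruenceSubgroup.Gamma0 N) 2) (𝔪 : Ideal (integralClosure ℤ ℂ))
    (hf : f.IsNormalizedEigenform) (hmax : 𝔪.IsMaximal) (hpm : (p : integralClosure ℤ ℂ) ∈ 𝔪)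
    (hcong : ∀ ℓ : ℕ, ℓ.Prime → W.IsGoodPrimeFor ℓ → ¬ ℓ ∣ N → ℓ ≠ p →
      ∃ a : integralClosure ℤ ℂ, (a : ℂ) = ModularFormClass.qCoeff f ℓ ∧
        a - ((W.apOfModel ℓ : ℤ) : integralClosure ℤ ℂ) ∈ 𝔪)
    (hLR : ∃ a : integralClosure ℤ ℂ, (a : ℂ) = ModularFormClass.qCoeff f q' ∧
      a ^ 2 - ((q' : integralClosure ℤ ℂ) + 1) ^ 2 ∈ 𝔪) :
    ∃ (g : CuspForm (CongruenceSubgroup.Gamma0 (N * q')) 2) (𝔪' : Ideal (integralClosure ℤ ℂ)),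
      g.IsNormalizedEigenform ∧ 𝔪'.IsMaximal ∧ (p : integralClosure ℤ ℂ) ∈ 𝔪' ∧
      (∀ ℓ : ℕ, ℓ.Prime → W.IsGoodPrimeFor ℓ → ¬ ℓ ∣ N * q' → ℓ ≠ p →
        ∃ a : integralClosure ℤ ℂ, (a : ℂ) = ModularFormClass.qCoeff g ℓ ∧
          a - ((W.apOfModel ℓ : ℤ) : integralClosure ℤ ℂ) ∈ 𝔪') ∧
      g.IsNewAt q' := by
  have hN0 : NeZero N := ⟨hN.ne'⟩
  have hq0 : NeZero q' := ⟨hq'.ne_zero⟩
  exact Fermat.Agent.LR.s41_of_cspPar E hW hp hp2 hN hq' hq'N hirr f 𝔪 hf hmax hpm hcong hLR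
    (Fermat.Agent.LR.cspHypPar hq' hq'N hp hp2)

end Fermat.Agent.S41
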