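import Mathlib

set_option autoImplicit false

namespace Fermat.Agent.S49

open Module

/-- A commuting family of endomorphisms that are locally nilpotent on a nonzero invariant
finite-dimensional subspace has a common kernel vector there. -/
theorem exists_common_kernel {K V ι : Type*} [Field K] [AddCommGroup V] [Module K V]
    [FiniteDimensional K V]
    (N : ι → Module.End K V) (hcomm : ∀ i j, Commute (N i) (N j))
    (W : Submodule K V) (hW : W ≠ ⊥) (hinv : ∀ i, ∀ w ∈ W, N i w ∈ W)
    (hnil : ∀ i, ∀ w ∈ W, ∃ k : ℕ, ((N i) ^ k) w = 0) :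
    ∃ v ∈ W, v ≠ 0 ∧ ∀ i, N i v = 0 := by
  classical
  induction' h : Module.finrank K W using Nat.strong_induction_on with n ih generalizing W
  by_cases hall : ∀ i, ∀ w ∈ W, N i w = 0
  · obtain ⟨v, hv, hv0⟩ := (Submodule.ne_bot_iff W).mp hW
    exact ⟨v, hv, hv0, fun i => hall i v hv⟩
  · push Not at hall
    obtain ⟨i, w, hwW, hw⟩ := hall
    have hpow : ∀ k : ℕ, ∀ x ∈ W, ((N i) ^ k) x ∈ W := by
      intro k
      induction k with
      | zero => intro x hx; simpa using hx
      | succ k ihk =>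
        intro x hx
        rw [pow_succ', Module.End.mul_apply]
        exact hinv i _ (ihk x hx)
    have hlt : W ⊓ LinearMap.ker (N i) < W := by
      refine lt_of_le_of_ne inf_le_left ?_
      intro heq
      have : w ∈ W ⊓ LinearMap.ker (N i) := by rw [heq]; exact hwW
      exact hw (LinearMap.mem_ker.mp this.2)
    have hne : W ⊓ LinearMap.ker (N i) ≠ ⊥ := by
      have hex := hnil i w hwW
      have hk1 : Nat.find hex ≠ 0 := by
        intro h0
        have := Nat.find_spec hex
        rw [h0, pow_zero, Module.End.one_apply] at this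
        exact hw (by rw [this, map_zero])
      obtain ⟨k, hk⟩ := Nat.exists_eq_succ_of_ne_zero hk1
      have hmin : ((N i) ^ k) w ≠ 0 := by
        have := Nat.find_min hex (m := k) (by omega)
        exact this
      have hkill : N i (((N i) ^ k) w) = 0 := by
        have := Nat.find_spec hex
        rw [hk, pow_succ', Module.End.mul_apply] at this
        exact this
      intro hbot
      have hmem : ((N i) ^ k) w ∈ W ⊓ LinearMap.ker (N i) :=
        ⟨hpow k w hwW, LinearMap.mem_ker.mpr hkill⟩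
      rw [hbot, Submodule.mem_bot] at hmem
      exact hmin hmem
    have hinv' : ∀ j, ∀ x ∈ W ⊓ LinearMap.ker (N i), N j x ∈ W ⊓ LinearMap.ker (N i) := by
      intro j x hx
      refine ⟨hinv j x hx.1, ?_⟩
      change N j x ∈ LinearMap.ker (N i)
      rw [LinearMap.mem_ker]
      have hc := hcomm i j
      have : N i (N j x) = N j (N i x) := by
        have := congrArg (fun g => g x) hc.eq
        simpa [Module.End.mul_apply] using this
      rw [this, LinearMap.mem_ker.mp hx.2, map_zero]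
    have hnil' : ∀ j, ∀ x ∈ W ⊓ LinearMap.ker (N i), ∃ k : ℕ, ((N j) ^ k) x = 0 :=
      fun j x hx => hnil j x hx.1
    obtain ⟨v, hv, hv0, hvk⟩ := ih (Module.finrank K ↥(W ⊓ LinearMap.ker (N i)))
      (by rw [← h]; exact Submodule.finrank_lt_finrank_of_lt hlt) _ hne hinv' hnil' rfl
    exact ⟨v, hv.1, hv0, hvk⟩


section main

variable {V : Type*} [AddCommGroup V]

/-- The sublattice `3L`. -/
def three (L : Submodule ℤ V) : Submodule ℤ V := L.map (LinearMap.lsmul ℤ V (3 : ℤ))

theorem mem_three {L : Submodule ℤ V} {x : V} : x ∈ three L ↔ ∃ g ∈ L, x = (3 : ℤ) • g := by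
  simp only [three, Submodule.mem_map, LinearMap.lsmul_apply]
  constructor
  · rintro ⟨g, hg, rfl⟩; exact ⟨g, hg, rfl⟩
  · rintro ⟨g, hg, rfl⟩; exact ⟨g, hg, rfl⟩

theorem three_le (L : Submodule ℤ V) : three L ≤ L := by
  intro x hx
  obtain ⟨g, hg, rfl⟩ := mem_three.mp hx
  exact L.smul_mem _ hg

theorem smul_mem_three {L : Submodule ℤ V} {x : V} (hx : x ∈ L) : (3 : ℤ) • x ∈ three L :=
  mem_three.mpr ⟨x, hx, rfl⟩

/-- If `c` is prime to 3 and `c f ∈ 3L` with `f ∈ L` then `f ∈ 3L`. -/
theorem mem_three_of_smul_mem {L : Submodule ℤ V} {f : V} (hf : f ∈ L) {c : ℤ}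
    (hc : ¬ (3 : ℤ) ∣ c) (h : c • f ∈ three L) : f ∈ three L := by
  have hcop : IsCoprime (3 : ℤ) c := (Int.prime_three.coprime_iff_not_dvd).mpr hc
  obtain ⟨a, b, hab⟩ := hcop
  have : f = (3 : ℤ) • (a • f) + b • (c • f) := by
    rw [smul_smul, smul_smul, ← add_smul, mul_comm 3 a, hab, one_smul]
  rw [this]
  exact (three L).add_mem (smul_mem_three (L.smul_mem _ hf)) ((three L).smul_mem _ h)


variable [Module ℂ V]

theorem deligneSerre_lifting
    {R : Type*} [CommRing R] (ρ : R →+* Module.End ℂ V)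
    (L : Submodule ℤ V) (hLfg : L.FG) (hLspan : Submodule.span ℂ (L : Set V) = ⊤)
    (hρL : ∀ r : R, ∀ x ∈ L, ρ r x ∈ L)
    (f : V) (hfL : f ∈ L) (hf3 : ¬ ∃ g ∈ L, f = (3 : ℤ) • g)
    (heig : ∀ r : R, ∃ c : ℤ, ∃ g ∈ L, ρ r f - c • f = (3 : ℤ) • g) :
    ∃ (v : V) (χ : R →+* ℂ), v ≠ 0 ∧ (∀ r, ρ r v = χ r • v) ∧
      ∃ 𝔪' : Ideal (integralClosure ℤ ℂ), 𝔪'.IsMaximal ∧
        ((3 : ℕ) : integralClosure ℤ ℂ) ∈ 𝔪' ∧
        ∀ (r : R) (c : ℤ), (∃ g ∈ L, ρ r f - c • f = (3 : ℤ) • g) →
          ∃ z : integralClosure ℤ ℂ, (z : ℂ) = χ r ∧ z - (c : integralClosure ℤ ℂ) ∈ 𝔪' := by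
  classical
  -- Step 0: finite-dimensionality
  have hfd : FiniteDimensional ℂ V := by
    obtain ⟨s, hs⟩ := hLfg
    have hspan : Submodule.span ℂ (s : Set V) = ⊤ := by
      rw [eq_top_iff, ← hLspan, Submodule.span_le]
      intro x hx
      rw [← hs] at hx
      exact Submodule.span_subset_span ℤ ℂ _ hx
    exact ⟨⟨s, hspan⟩⟩
  set T := three L with hT
  have hf3' : f ∉ T := fun h => hf3 (mem_three.mp h)
  have hρT : ∀ r : R, ∀ x ∈ T, ρ r x ∈ T := by
    intro r x hx
    obtain ⟨g, hg, rfl⟩ := mem_three.mp hx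
    rw [map_zsmul]
    exact smul_mem_three (hρL r g hg)
  have heigT : ∀ r : R, ∃ c : ℤ, ρ r f - c • f ∈ T := by
    intro r
    obtain ⟨c, g, hg, h⟩ := heig r
    exact ⟨c, mem_three.mpr ⟨g, hg, h⟩⟩
  -- Step 1: the ideal 𝔫
  let 𝔫 : Ideal R :=
    { carrier := {r | ρ r f ∈ T}
      add_mem' := fun {a b} ha hb => by
        show ρ (a + b) f ∈ T
        rw [map_add, LinearMap.add_apply]; exact T.add_mem ha hb
      zero_mem' := by
        show ρ 0 f ∈ T
        rw [map_zero, LinearMap.zero_apply]; exact T.zero_mem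
      smul_mem' := fun c x hx => by
        show ρ (c • x) f ∈ T
        rw [smul_eq_mul, map_mul, Module.End.mul_apply]; exact hρT c _ hx }
  have hmem𝔫 : ∀ r, r ∈ 𝔫 ↔ ρ r f ∈ T := fun r => Iff.rfl
  have hone : (1 : R) ∉ 𝔫 := by
    rw [hmem𝔫, map_one, Module.End.one_apply]; exact hf3'
  -- 3 ∣ c ↔ r ∈ 𝔫
  have hdvd : ∀ (r : R) (c : ℤ), ρ r f - c • f ∈ T → (r ∈ 𝔫 ↔ (3 : ℤ) ∣ c) := by
    intro r c h
    constructor
    · intro hr
      by_contra hc
      have h1 : c • f ∈ T := by
        have : c • f = ρ r f - (ρ r f - c • f) := by abel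
        rw [this]; exact T.sub_mem ((hmem𝔫 r).mp hr) h
      exact hf3' (mem_three_of_smul_mem hfL hc h1)
    · rintro ⟨k, rfl⟩
      rw [hmem𝔫]
      have h1 : ((3 : ℤ) * k) • f ∈ T := by
        rw [mul_smul]; exact smul_mem_three (L.smul_mem _ hfL)
      have : ρ r f = (ρ r f - ((3 : ℤ) * k) • f) + ((3 : ℤ) * k) • f := by abel
      rw [this]; exact T.add_mem h h1
  have hsq : ∀ x : R, x ∉ 𝔫 → x * x - 1 ∈ 𝔫 := by
    intro x hx
    obtain ⟨c, hc⟩ := heigT x
    have h3c : ¬ (3 : ℤ) ∣ c := fun h => hx ((hdvd x c hc).mpr h)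
    rw [hmem𝔫, map_sub, map_mul, map_one, LinearMap.sub_apply, Module.End.mul_apply,
      Module.End.one_apply]
    -- ρ x (ρ x f) - f = ρ x (ρ x f - c f) + c (ρ x f - c f) + (c^2-1) f
    have h1 : ρ x (ρ x f) - f = ρ x (ρ x f - c • f) + c • (ρ x f - c • f) + (c * c - 1) • f := by
      rw [map_sub, map_zsmul, smul_sub, sub_smul, mul_smul, one_smul]; abel
    rw [h1]
    have h2 : (c * c - 1) • f ∈ T := by
      obtain ⟨q, hq⟩ : ∃ q : ℤ, c = 3 * q + 1 ∨ c = 3 * q + 2 := ⟨c / 3, by omega⟩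
      rcases hq with rfl | rfl
      · have : (3 * q + 1) * (3 * q + 1) - 1 = 3 * (3 * q * q + 2 * q) := by ring
        rw [this, mul_smul]; exact smul_mem_three (L.smul_mem _ hfL)
      · have : (3 * q + 2) * (3 * q + 2) - 1 = 3 * (3 * q * q + 4 * q + 1) := by ring
        rw [this, mul_smul]; exact smul_mem_three (L.smul_mem _ hfL)
    exact T.add_mem (T.add_mem (hρT x _ hc) (T.smul_mem _ hc)) h2
  have hmax : 𝔫.IsMaximal := by
    rw [Ideal.isMaximal_iff]
    refine ⟨hone, fun J x hJ hx hxJ => ?_⟩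
    have h1 : x * x - 1 ∈ J := hJ (hsq x hx)
    have h2 : x * x ∈ J := J.mul_mem_left x hxJ
    have : (1 : R) = x * x - (x * x - 1) := by ring
    rw [this]; exact J.sub_mem h2 h1
  have hprime : 𝔫.IsPrime := hmax.isPrime
  have hcomm : ∀ a b : R, ∀ x : V, ρ a (ρ b x) = ρ b (ρ a x) := by
    intro a b x
    rw [← Module.End.mul_apply, ← Module.End.mul_apply, ← map_mul, ← map_mul, mul_comm]
  -- Step 2: the torsion subspace
  let V' : Submodule ℂ V :=
    { carrier := {v | ∃ s : R, s ∉ 𝔫 ∧ ρ s v = 0}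
      add_mem' := by
        rintro a b ⟨s, hs, hsa⟩ ⟨t, ht, htb⟩
        refine ⟨s * t, fun h => (hprime.mem_or_mem h).elim hs ht, ?_⟩
        rw [map_add, map_mul, Module.End.mul_apply, Module.End.mul_apply, hcomm s t a, hsa, htb,
          map_zero, map_zero, add_zero]
      zero_mem' := ⟨1, hone, map_zero _⟩
      smul_mem' := by
        rintro c x ⟨s, hs, hsx⟩
        exact ⟨s, hs, by rw [map_smul, hsx, smul_zero]⟩ }
  have hV' : V' ≠ ⊤ := by
    intro htop
    let b := Module.finBasis ℂ V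
    have hb : ∀ i, ∃ s : R, s ∉ 𝔫 ∧ ρ s (b i) = 0 := by
      intro i
      have : b i ∈ V' := by rw [htop]; trivial
      exact this
    choose s hs hsb using hb
    have hprod : ∏ i, s i ∉ 𝔫 := by
      intro h
      obtain ⟨i, -, hi⟩ := (hprime.prod_mem_iff).mp h
      exact hs i hi
    have hzero : ρ (∏ i, s i) = 0 := by
      apply b.ext
      intro i
      rw [← Finset.prod_erase_mul _ _ (Finset.mem_univ i), map_mul, Module.End.mul_apply, hsb i,
        map_zero, LinearMap.zero_apply]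
    apply hprod
    rw [hmem𝔫, hzero, LinearMap.zero_apply]
    exact T.zero_mem
  -- Step 3: simultaneous generalized eigenspaces
  have hpair : Pairwise fun i j : R => Commute (ρ i) (ρ j) :=
    fun i j _ => (Commute.all i j).map ρ
  have hdec := Module.End.iSup_iInf_maxGenEigenspace_eq_top_of_iSup_maxGenEigenspace_eq_top_of_commute
    (fun r : R => ρ r) hpair (fun r => Module.End.iSup_maxGenEigenspace_eq_top (ρ r))
  obtain ⟨χ, hχ⟩ : ∃ χ : R → ℂ, ¬ (⨅ i, (ρ i).maxGenEigenspace (χ i)) ≤ V' := by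
    by_contra hcon
    push Not at hcon
    apply hV'
    rw [eq_top_iff, ← hdec]
    exact iSup_le hcon
  set W : Submodule ℂ V := ⨅ i, (ρ i).maxGenEigenspace (χ i) with hW
  have hWbot : W ≠ ⊥ := by
    intro h
    apply hχ
    rw [h]; exact bot_le
  have hχS : ∀ s : R, s ∉ 𝔫 → χ s ≠ 0 := by
    intro s hs h0
    apply hχ
    intro w hw
    have hw' : w ∈ (ρ s).maxGenEigenspace (χ s) := (Submodule.mem_iInf _).mp hw s
    rw [Module.End.maxGenEigenspace_eq_genEigenspace_finrank, Module.End.mem_genEigenspace_nat,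
      h0, zero_smul, sub_zero, LinearMap.mem_ker, ← map_pow] at hw'
    exact ⟨s ^ Module.finrank ℂ V, fun h => hs (hprime.mem_of_pow_mem _ h), hw'⟩
  -- Step 4: a common eigenvector in W
  obtain ⟨v, hvW, hv0, hv⟩ := exists_common_kernel (K := ℂ) (V := V)
    (fun r : R => ρ r - algebraMap ℂ (Module.End ℂ V) (χ r))
    (fun i j => by
      have h1 : Commute (ρ i) (ρ j) := (Commute.all i j).map ρ
      exact (h1.sub_right (Algebra.commute_algebraMap_right _ _)).sub_left
        ((Algebra.commute_algebraMap_left _ _).sub_right (Algebra.commute_algebraMap_left _ _)))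
    W hWbot
    (fun i w hw => by
      refine W.sub_mem ?_ ?_
      · rw [hW, Submodule.mem_iInf] at hw ⊢
        intro j
        exact Module.End.mapsTo_maxGenEigenspace_of_comm ((Commute.all j i).map ρ) (χ j) (hw j)
      · rw [Module.algebraMap_end_apply]; exact W.smul_mem _ hw)
    (fun i w hw => by
      have hw' : w ∈ (ρ i).maxGenEigenspace (χ i) := (Submodule.mem_iInf _).mp hw i
      rw [Module.End.mem_maxGenEigenspace] at hw'
      obtain ⟨k, hk⟩ := hw'
      refine ⟨k, ?_⟩
      rw [Algebra.algebraMap_eq_smul_one]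
      exact hk)
  have hev : ∀ r, ρ r v = χ r • v := by
    intro r
    have := hv r
    rw [LinearMap.sub_apply, Module.algebraMap_end_apply, sub_eq_zero] at this
    exact this
  -- Step 5: χ is a ring homomorphism
  have hinj : Function.Injective fun c : ℂ => c • v := smul_left_injective ℂ hv0
  let χ' : R →+* ℂ :=
    { toFun := χ
      map_one' := hinj (by
        show χ 1 • v = (1 : ℂ) • v
        rw [← hev, map_one, Module.End.one_apply, one_smul])
      map_mul' := fun a b => hinj (by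
        show χ (a * b) • v = (χ a * χ b) • v
        rw [← hev, map_mul, Module.End.mul_apply, hev b, map_smul, hev a, smul_smul, mul_comm])
      map_zero' := hinj (by
        show χ 0 • v = (0 : ℂ) • v
        rw [← hev, map_zero, LinearMap.zero_apply, zero_smul])
      map_add' := fun a b => hinj (by
        show χ (a + b) • v = (χ a + χ b) • v
        rw [← hev, map_add, LinearMap.add_apply, hev a, hev b, add_smul]) }
  have hχ' : ∀ r, χ' r = χ r := fun r => rfl
  -- Step 6: integrality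
  have : Module.Finite ℤ L := Module.Finite.iff_fg.mpr hLfg
  have hint : ∀ r, IsIntegral ℤ (χ r) := by
    intro r
    let g : L →ₗ[ℤ] L := ((ρ r).restrictScalars ℤ).restrict (hρL r)
    obtain ⟨p, hpm, hp⟩ := LinearMap.exists_monic_and_aeval_eq_zero ℤ g
    have hgpow : ∀ (n : ℕ) (x : L), ((g ^ n) x : V) = ((ρ r) ^ n) x := by
      intro n
      induction n with
      | zero => intro x; simp
      | succ n ih =>
        intro x
        rw [pow_succ', pow_succ', Module.End.mul_apply, Module.End.mul_apply, ← ih x]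
        rfl
    have hgp : ∀ (q : Polynomial ℤ) (x : L),
        ((Polynomial.aeval g q) x : V) = (Polynomial.aeval (ρ r) q) x := by
      intro q
      induction q using Polynomial.induction_on' with
      | add q1 q2 h1 h2 =>
        intro x
        rw [map_add, map_add, LinearMap.add_apply, LinearMap.add_apply, Submodule.coe_add, h1, h2]
      | monomial n a =>
        intro x
        rw [Polynomial.aeval_monomial, Polynomial.aeval_monomial, ← Algebra.smul_def,
          ← Algebra.smul_def, LinearMap.smul_apply, LinearMap.smul_apply, Submodule.coe_smul, hgpow]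
    have hzero : Polynomial.aeval (ρ r) p = 0 := by
      have hle : Submodule.span ℂ (L : Set V) ≤ LinearMap.ker (Polynomial.aeval (ρ r) p) := by
        rw [Submodule.span_le]
        intro x hx
        rw [SetLike.mem_coe, LinearMap.mem_ker]
        have := hgp p ⟨x, hx⟩
        rw [hp] at this
        exact this.symm
      rw [hLspan, top_le_iff, LinearMap.ker_eq_top] at hle
      exact hle
    have hvec : Module.End.HasEigenvector (ρ r) (χ r) v :=
      ⟨Module.End.mem_eigenspace_iff.mpr (hev r), hv0⟩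
    have h1 := Module.End.aeval_apply_of_hasEigenvector (p := p.map (algebraMap ℤ ℂ)) hvec
    rw [Polynomial.aeval_map_algebraMap, hzero, LinearMap.zero_apply] at h1
    have h2 : Polynomial.eval (χ r) (p.map (algebraMap ℤ ℂ)) = 0 := by
      by_contra hne
      exact hv0 ((smul_eq_zero.mp h1.symm).resolve_left hne)
    exact ⟨p, hpm, by rw [← Polynomial.eval_map]; exact h2⟩
  -- Step 7: the maximal ideal via lying over
  let χ'' : R →+* integralClosure ℤ ℂ := χ'.codRestrict (integralClosure ℤ ℂ) hint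
  have hχ'' : ∀ r, ((χ'' r : integralClosure ℤ ℂ) : ℂ) = χ r := fun r => rfl
  let _ : Algebra R (integralClosure ℤ ℂ) := χ''.toAlgebra
  have halg : ∀ r, algebraMap R (integralClosure ℤ ℂ) r = χ'' r := fun r => rfl
  have : Algebra.IsIntegral R (integralClosure ℤ ℂ) :=
    ⟨fun z => (integralClosure.isIntegral z).tower_top⟩
  have hker : RingHom.ker (algebraMap R (integralClosure ℤ ℂ)) ≤ 𝔫 := by
    intro r hr
    by_contra hrn
    apply hχS r hrn
    rw [RingHom.mem_ker, halg] at hr
    rw [← hχ'' r, hr]; rfl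
  obtain ⟨Q, hQmax, hQ⟩ := Ideal.exists_ideal_over_maximal_of_isIntegral 𝔫 hker
  have hQmem : ∀ r, r ∈ 𝔫 → χ'' r ∈ Q := by
    intro r hr
    rw [← hQ] at hr
    exact hr
  refine ⟨v, χ', hv0, hev, Q, hQmax, ?_, ?_⟩
  · have h3 : (3 : R) ∈ 𝔫 := by
      rw [hmem𝔫]
      have : ρ (3 : R) f = (3 : ℤ) • f := by
        have : (3 : R) = ((3 : ℤ) : R) := by norm_num
        rw [this, map_intCast, Module.End.intCast_apply]
      rw [this]; exact smul_mem_three hfL
    have := hQmem 3 h3
    rw [map_ofNat] at this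
    exact_mod_cast this
  · rintro r c ⟨g, hg, h⟩
    refine ⟨χ'' r, rfl, ?_⟩
    have hrc : r - (c : R) ∈ 𝔫 := by
      rw [hmem𝔫, map_sub, LinearMap.sub_apply, map_intCast, Module.End.intCast_apply]
      exact mem_three.mpr ⟨g, hg, h⟩
    have := hQmem _ hrc
    rw [map_sub, map_intCast] at this
    exact this


/-- Reduction of the "eigenvector mod `3L`" hypothesis (and `L`-stability) to a generating set. -/
theorem heig_of_adjoin (S : Set (Module.End ℂ V)) (L : Submodule ℤ V)
    (hSL : ∀ s ∈ S, ∀ x ∈ L, s x ∈ L) (f : V)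
    (hgen : ∀ s ∈ S, ∃ c : ℤ, ∃ g ∈ L, s f - c • f = (3 : ℤ) • g) :
    ∀ h ∈ Algebra.adjoin ℤ S, (∀ x ∈ L, h x ∈ L) ∧
      ∃ c : ℤ, ∃ g ∈ L, h f - c • f = (3 : ℤ) • g := by
  intro h hh
  induction hh using Algebra.adjoin_induction with
  | mem s hs => exact ⟨hSL s hs, hgen s hs⟩
  | algebraMap n =>
    refine ⟨fun x hx => ?_, n, 0, L.zero_mem, ?_⟩
    · rw [eq_intCast, Module.End.intCast_apply]; exact L.smul_mem _ hx
    · rw [eq_intCast, Module.End.intCast_apply, sub_self, smul_zero]
  | add x y _ _ hx hy =>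
    obtain ⟨hxL, cx, gx, hgx, hx'⟩ := hx
    obtain ⟨hyL, cy, gy, hgy, hy'⟩ := hy
    refine ⟨fun z hz => ?_, cx + cy, gx + gy, L.add_mem hgx hgy, ?_⟩
    · rw [LinearMap.add_apply]; exact L.add_mem (hxL z hz) (hyL z hz)
    · rw [LinearMap.add_apply, add_smul, smul_add, ← hx', ← hy']; abel
  | mul x y _ _ hx hy =>
    obtain ⟨hxL, cx, gx, hgx, hx'⟩ := hx
    obtain ⟨hyL, cy, gy, hgy, hy'⟩ := hy
    refine ⟨fun z hz => ?_, cx * cy, cy • gx + x gy, L.add_mem (L.smul_mem _ hgx) (hxL gy hgy), ?_⟩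
    · rw [Module.End.mul_apply]; exact hxL _ (hyL z hz)
    · have h1 : y f = cy • f + (3 : ℤ) • gy := by rw [← hy']; abel
      have h2 : x f = cx • f + (3 : ℤ) • gx := by rw [← hx']; abel
      rw [Module.End.mul_apply, h1, map_add, map_zsmul, map_zsmul, h2, smul_add, smul_add,
        smul_smul, smul_smul, smul_smul, mul_comm cy cx, mul_comm cy 3]
      abel

end main

end Fermat.Agent.S49
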