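import Fermat.Statements.S53
import Fermat.Agent.S53.Core7
import Fermat.Agent.S53.L2_helper3_Closure
import Fermat.Agent.S53.L1_helper1_Slice
import Fermat.Agent.S53.Tangent
import Fermat.Agent.S53.L6_helper7_Final
import Fermat.Agent.S53.L6_helper7_TangentFinite

set_option autoImplicit false
open GaloisRep IsLocalRing

namespace Fermat.Agent.S53

theorem result
    (𝒪 : Type) [CommRing 𝒪] [IsDomain 𝒪] [IsDiscreteValuationRing 𝒪]
    [IsAdicComplete (IsLocalRing.maximalIdeal 𝒪) 𝒪] [Finite (IsLocalRing.ResidueField 𝒪)]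
    (ρbar : ResidualGaloisRep (IsLocalRing.ResidueField 𝒪))
    (𝒟 : ∀ ⦃A : Type⦄ [CommRing A] [IsLocalRing A] [Algebra 𝒪 A], GaloisRepAdic A → Prop)
    (habs : ρbar.IsAbsolutelyIrreducible)
    (h𝒟 : GaloisRep.IsDeformationCondition 𝒪 𝒟)
    (hbar : 𝒟 (GaloisRepAdic.ofResidualGaloisRep ρbar))
    (hfin : GaloisRep.TangentFinite 𝒪 ρbar 𝒟) :
    Nonempty (GaloisRep.DeformationRingData 𝒪 ρbar 𝒟) := by
  classical
  -- matrix form of `ρbar`
  let β := resSomeBasis ρbar
  -- good slice (S1 + S2)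
  obtain ⟨sl, hsl⟩ : ∃ sl : Slice 𝒪, sl.IsGood (resMatrixOf ρbar β) :=
    L1.exists_good_slice_of_absIrr ρbar β habs (resMatrixOf ρbar β)
      (fun σ => resMatrixOf_eq_toMatrix ρbar β σ)
  -- uniqueness of normal forms (S3u)
  have hS3u : L6.ArtinianNormalUnique 𝒪 (resMatrixOf ρbar β) sl := by
    intro B _ _ _ hB r r' hs hs' hn hn' U hU
    exact DFunLike.coe_injective
      (L1.eq_of_conj_of_isNormal hB.isLocalHom hB.residue_surjective hsl hs hs' hn hn' U hU)
  -- existence of normal forms (S3e)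
  have hS3e : L6.ExistsNormal 𝒪 (resMatrixOf ρbar β) sl := by
    intro A _ _ _ _ _ hloc hres r hr
    obtain ⟨U, r', hU, hs', hn', -, -⟩ := L1.exists_normal_conj hloc hres hsl r hr
    exact ⟨U, r', hU, hs', hn'⟩
  -- closure properties of data
  have hcl : DatumClosure 𝒪 (resMatrixOf ρbar β) sl 𝒟 :=
    datumClosure h𝒟 ρbar β sl hsl.residue_a hbar
  -- the dual numbers
  letI : Algebra 𝒪 (DualNumber (ResidueField 𝒪)) := L6.dualAlgebra 𝒪
  have hE : IsArtinianTestAlgebra 𝒪 (DualNumber (ResidueField 𝒪)) :=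
    PS.dualNumber_isArtinianTestAlgebra 𝒪
  have hEfin : {r : Gal →* M2 (DualNumber (ResidueField 𝒪)) |
      IsDatum 𝒪 (resMatrixOf ρbar β) sl 𝒟 r}.Finite :=
    L6.finite_datum_dualNumber hfin β sl (fun r r' hs hs' hn hn' U hU =>
      DFunLike.coe_injective
        (L1.eq_of_conj_of_isNormal hE.isLocalHom hE.residue_surjective hsl hs hs' hn hn' U hU))
  -- the core construction
  obtain ⟨R, _, _, _, _, _, _, rR, hRres, hrR, hRstrict, hRnormal, hlev, huniv⟩ :=
    core_of_finite hcl hE hEfin (fun hA B hB => PS.exists_algHom_dualNumber_ne 𝒪 hA B hB)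
  exact L6.nonempty_deformationRingData_of_core habs h𝒟 β sl hS3e hS3u R hRres rR hrR hRstrict
    hRnormal hlev huniv

end Fermat.Agent.S53
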