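import Fermat.Statements.S54
import Fermat.Agent.S54_Frobenius

set_option autoImplicit false
open GaloisRep GaloisRep.DeformationRingData

namespace Fermat.Agent.S54

open Polynomial

theorem result {𝒪 : Type} [CommRing 𝒪] [IsDomain 𝒪] [IsDiscreteValuationRing 𝒪] [IsAdicComplete (IsLocalRing.maximalIdeal 𝒪) 𝒪] {ρbar : ResidualGaloisRep (IsLocalRing.ResidueField 𝒪)} {𝒟 : ∀ ⦃A : Type⦄ [CommRing A] [IsLocalRing A] [Algebra 𝒪 A], GaloisRepAdic A → Prop} (D : GaloisRep.DeformationRingData 𝒪 ρbar 𝒟) {N : ℕ} [NeZero N] {S : Set ℕ} {θ : CuspForm.heckeAlgebra N 2 S →+* IsLocalRing.ResidueField 𝒪} {T : Type} [CommRing T] [IsLocalRing T] [IsNoetherianRing T] [IsAdicComplete (IsLocalRing.maximalIdeal T) T] [Algebra 𝒪 T] [IsLocalHom (algebraMap 𝒪 T)] [Module.Finite 𝒪 T] [Module.Free 𝒪 T] (H : CuspForm.HeckeGaloisRepDatum N S 𝒪 θ T) (hS : ∀ q : ℕ, q.Prime → q ∣ N → q ∈ S) (h𝒟 : 𝒟 H.ρ) (hres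 : H.ρ.residual.IsEquiv (ρbar.baseChangeAlong (IsLocalRing.ResidueField.map (algebraMap 𝒪 T)))) : ∃ φ : D.R →ₐ[𝒪] T, Function.Surjective φ ∧ ∃ hφ : IsLocalHom (φ : D.R →+* T), (D.ρ.baseChangeAlong (φ : D.R →+* T) hφ).IsEquiv H.ρ := by
  obtain ⟨φ, ⟨hφ, ⟨e⟩⟩, -⟩ := D.universal T H.residue_surjective H.ρ h𝒟 hres
  refine ⟨φ, ?_, hφ, ⟨e⟩⟩
  -- Frobenius traces lie in the range of φ
  have hT : ∀ (ℓ : ℕ) (hℓ : ℓ.Prime) (hℓN : ¬ ℓ ∣ N) (hℓS : ℓ ∉ S),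
      H.π (CuspForm.heckeAlgebra.T hℓ hℓN hℓS) ∈ φ.range := by
    intro ℓ hℓ hℓN hℓS
    obtain ⟨A, σ, hA, hσ⟩ := exists_frobenius ℓ hℓ
    have h1 := H.charpoly_frob ℓ hℓ hℓN hℓS A hA σ hσ
    let _ : Algebra D.R T := (φ : D.R →+* T).toAlgebra
    have h3 : H.ρ.ρ σ = e.toLinearEquiv.conj ((D.ρ.baseChangeAlong (φ : D.R →+* T) hφ).ρ σ) := by
      apply LinearMap.ext
      intro x
      rw [LinearEquiv.conj_apply]
      simp only [LinearMap.comp_apply, LinearEquiv.coe_coe]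
      rw [e.map_apply, LinearEquiv.apply_symm_apply]
    have h2' : LinearMap.charpoly ((D.ρ.baseChangeAlong (φ : D.R →+* T) hφ).ρ σ) =
        (LinearMap.charpoly (D.ρ.ρ σ)).map (algebraMap D.R T) :=
      LinearMap.charpoly_baseChange (A := T) (D.ρ.ρ σ)
    have h4 : LinearMap.charpoly (H.ρ.ρ σ) = (LinearMap.charpoly (D.ρ.ρ σ)).map (algebraMap D.R T) := by
      rw [h3, LinearEquiv.charpoly_conj, h2']
    have h5 : (LinearMap.charpoly (H.ρ.ρ σ)).coeff 1 = - H.π (CuspForm.heckeAlgebra.T hℓ hℓN hℓS) := by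
      rw [h1]
      simp [coeff_C]
    rw [h4, coeff_map] at h5
    refine ⟨- (LinearMap.charpoly (D.ρ.ρ σ)).coeff 1, ?_⟩
    have h6 : φ (- (LinearMap.charpoly (D.ρ.ρ σ)).coeff 1) =
        - algebraMap D.R T ((LinearMap.charpoly (D.ρ.ρ σ)).coeff 1) := map_neg φ _
    change φ (- (LinearMap.charpoly (D.ρ.ρ σ)).coeff 1) = _
    rw [h6, h5, neg_neg]
  have hrange : ∀ t : CuspForm.heckeAlgebra N 2 S, H.π t ∈ φ.range := by
    rintro ⟨x, hx⟩
    induction hx using Algebra.adjoin_induction with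
    | mem x hx =>
      rcases hx with ⟨ℓ, hℓ, hℓN, hℓS, rfl⟩ | ⟨q, hqN, hq, hqS, rfl⟩
      · exact hT ℓ hℓ hℓN hℓS
      · exact absurd (hS q hq hqN) hqS
    | algebraMap r =>
      have : (⟨algebraMap ℤ _ r, Subalgebra.algebraMap_mem _ r⟩ : CuspForm.heckeAlgebra N 2 S) =
          algebraMap ℤ (CuspForm.heckeAlgebra N 2 S) r := rfl
      rw [this]
      simp only [eq_intCast, map_intCast]
      exact Subalgebra.intCast_mem _ r
    | add x y hx hy hx' hy' =>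
      have : (⟨x + y, add_mem hx hy⟩ : CuspForm.heckeAlgebra N 2 S) = ⟨x, hx⟩ + ⟨y, hy⟩ := rfl
      rw [this, map_add]
      exact add_mem hx' hy'
    | mul x y hx hy hx' hy' =>
      have : (⟨x * y, mul_mem hx hy⟩ : CuspForm.heckeAlgebra N 2 S) = ⟨x, hx⟩ * ⟨y, hy⟩ := rfl
      rw [this, map_mul]
      exact mul_mem hx' hy'
  rw [← AlgHom.range_eq_top]
  apply top_le_iff.mp
  rw [← H.adjoin_range_π]
  apply Algebra.adjoin_le
  rintro _ ⟨t, rfl⟩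
  exact hrange t

end Fermat.Agent.S54
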