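-- Statement S55 (row 49): Poitou–Tate, `Ш¹(S, M^*(1))` and `Ш²(S, M)` are in perfect duality.
-- Assembly of the team's class-field-theory / Poitou–Tate development:
--   * helper6 `Bridge.S55_of_global` (statement-side bridge + abstract Poitou–Tate engine consumer),
--   * helper8 `PT8.dsmForm` (global class formation on `𝔻 = J_S / 𝔬_S^×`),
--   * helper3 `PT4.nonempty_levelClassData_DSm` (finite-level global class data),
--   * helper2 `Sm.PTDatum.main'` (the abstract nine-term Poitou–Tate theorem).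
import Fermat.Statements.S55
import Fermat.Agent.CFT.Bridge.Final_helper6
import Fermat.Agent.CFT.PT8.Final_helper8
import Fermat.Agent.CFT.Global.PT4j_helper3_LCD
import Fermat.Agent.CFT.Sm.PTMain_helper2

set_option autoImplicit false
set_option autoImplicit false
open CategoryTheory Module groupCohomology ExtCitation
open groupCohomology

namespace Fermat.Agent.S55

theorem result
    {p : ℕ} [Fact p.Prime] (hp2 : p ≠ 2) (S : Finset Nat.Primes) (hpS : pPrime p ∈ S)
    (M : Rep (ZMod p) (AlgebraicClosure ℚ ≃ₐ[ℚ] AlgebraicClosure ℚ))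
    [FiniteDimensional (ZMod p) M]
    (hsm : ∀ m : M, ∃ F : IntermediateField ℚ (AlgebraicClosure ℚ), FiniteDimensional ℚ F ∧
      ∀ s ∈ F.fixingSubgroup, M.ρ s m = m)
    (hMur : ∀ q : Nat.Primes, q ∉ S → ∀ A : ValuationSubring (AlgebraicClosure ℚ),
      A.LiesOverPrime (q : ℕ) → ∀ g ∈ A.inertiaSubgroupIn ℚ, M.ρ g = 1) :
    ∃ B : sha₁ S (M.dualTwist (cycloChar p)) →ₗ[ZMod p] sha₂ S M →ₗ[ZMod p] ZMod p,
      (∀ y, (∀ x, B y x = 0) → y = 0) ∧ (∀ x, (∀ y, B y x = 0) → x = 0) :=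
  Fermat.Agent.CFT.Bridge.S55_of_global hp2 S hpS M hsm hMur
    (Fermat.Agent.CFT.PT8.dsmForm hp2 hpS) (Fermat.Agent.CFT.PT8.zetaSubgroup p)
    (Fermat.Agent.CFT.PT8.isOpen_zetaSubgroup hpS)
    (Fermat.Agent.CFT.PT8.dsmForm_isGlobalBelow hp2 hpS)
    (fun v F _ _ _ hF => Fermat.Agent.CFT.PT4.nonempty_levelClassData_DSm ⟨_, hpS⟩ v F hF)
    (fun D X _ hX => Fermat.Agent.CFT.Sm.PTDatum.main' D X hX)

end Fermat.Agent.S55
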