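import Fermat.Statements.S56
import Fermat.Agent.TW.Halves_helper9
import Fermat.Agent.TW.S56Bridge_helper9
import Fermat.Agent.TW.LocCondCard_helper9
import Fermat.Agent.TW.EC_helper3_Global
import Fermat.Agent.TW.FlatOrd8_helper8
import Fermat.Agent.TW.FlatIrr_helper7

set_option autoImplicit false
set_option autoImplicit false
open Polynomial IsLocalRing
open ResidualGaloisRep

namespace Fermat.Agent.S56

theorem result
    {𝒪 : Type} [CommRing 𝒪] [IsDomain 𝒪] [IsDiscreteValuationRing 𝒪]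
    [IsAdicComplete (maximalIdeal 𝒪) 𝒪] [Finite (ResidueField 𝒪)]
    (p : ℕ) [Fact p.Prime] (hp2 : p ≠ 2) (hp𝒪 : (p : 𝒪) ∈ maximalIdeal 𝒪)
    (ρbar : ResidualGaloisRep (ResidueField 𝒪))
    (habs : ρbar.IsAbsolutelyIrreducible)
    (hdet : (GaloisRepAdic.ofResidualGaloisRep ρbar).DetIsCyclotomic p)
    (hsplit : ∀ σ : AlgebraicClosure ℚ ≃ₐ[ℚ] AlgebraicClosure ℚ,
      ∃ α β : ResidueField 𝒪, LinearMap.charpoly (ρbar.ρ σ) = (X - C α) * (X - C β))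
    (hTW : ∀ (K : Type) [Field K] [Algebra (ResidueField 𝒪) K]
      (G : Subgroup (AlgebraicClosure ℚ ≃ₐ[ℚ] AlgebraicClosure ℚ)), G.index = 2 →
      ∀ V : Submodule K (ρbar.baseChange K).V,
        (∀ σ ∈ G, ∀ x ∈ V, (ρbar.baseChange K).ρ σ x ∈ V) → V = ⊥ ∨ V = ⊤)
    (S Smin : Finset ℕ) (hpSmin : p ∈ Smin) (hSmin : Smin ⊆ S) (hS : ∀ q ∈ S, q.Prime)
    (hmin : ∀ q : ℕ, q.Prime → q ≠ p → (q ∈ Smin ↔ ¬ ρbar.IsUnramifiedAt q)) :
    (∃ r : ℕ, ∀ n : ℕ, ∃ qv : Fin r → ℕ, Function.Injective qv ∧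
      (∀ i, (qv i).Prime ∧ qv i ∉ S ∧ p ^ (n + 1) ∣ qv i - 1) ∧
      (∀ i, ∀ P : ValuationSubring (AlgebraicClosure ℚ), P.LiesOverPrime (qv i) →
        ∀ φ : AlgebraicClosure ℚ ≃ₐ[ℚ] AlgebraicClosure ℚ, P.IsFrobeniusAt φ (qv i) →
          ∃ α β : ResidueField 𝒪, α ≠ β ∧ LinearMap.charpoly (ρbar.ρ φ) = (X - C α) * (X - C β)) ∧
      ∀ DQ : GaloisRep.DeformationRingData 𝒪 ρbar (fun _A _ _ _ ρ =>
          GaloisRep.strictOrdinaryCondition 𝒪 p (Smin ∪ Finset.univ.image qv) ρ ∧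
            ∀ q ∈ Smin, q.Prime → q ≠ p → ρ.IsUnipotentOnInertiaAt q),
        ∃ γ : MvPowerSeries (Fin r) 𝒪 →ₐ[𝒪] DQ.R, Function.Surjective γ) ∧
    (∃ r : ℕ, ∀ n : ℕ, ∃ qv : Fin r → ℕ, Function.Injective qv ∧
      (∀ i, (qv i).Prime ∧ qv i ∉ S ∧ p ^ (n + 1) ∣ qv i - 1) ∧
      (∀ i, ∀ P : ValuationSubring (AlgebraicClosure ℚ), P.LiesOverPrime (qv i) →
        ∀ φ : AlgebraicClosure ℚ ≃ₐ[ℚ] AlgebraicClosure ℚ, P.IsFrobeniusAt φ (qv i) →
          ∃ α β : ResidueField 𝒪, α ≠ β ∧ LinearMap.charpoly (ρbar.ρ φ) = (X - C α) * (X - C β)) ∧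
      ∀ DQ : GaloisRep.DeformationRingData 𝒪 ρbar (fun _A _ _ _ ρ =>
          GaloisRep.flatCondition 𝒪 p (Smin ∪ Finset.univ.image qv) ρ ∧
            ∀ q ∈ Smin, q.Prime → q ≠ p → ρ.IsUnipotentOnInertiaAt q),
        ∃ γ : MvPowerSeries (Fin r) 𝒪 →ₐ[𝒪] DQ.R, Function.Surjective γ) := by
  have hEC : Fermat.Agent.TW.ECGlobal p :=
    fun S hpS Z _ hZ => Fermat.Agent.TW.EC.ec_global hp2 S hpS Z hZ
  refine ⟨Fermat.Agent.TW.tw_half_strictOrdinary p hp2 hp𝒪 ρbar habs hdet hsplit hTW hEC S Smin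
    hpSmin hmin, ?_⟩
  -- the flat half
  have hchar : CharP (ResidueField 𝒪) p := Fermat.Agent.TW.charP_residueField_of_mem p hp𝒪
  have hpk : ((p : ℕ) : ResidueField 𝒪) = 0 := CharP.cast_eq_zero (ResidueField 𝒪) p
  obtain ⟨β⟩ : Nonempty (Module.Basis (Fin 2) (ResidueField 𝒪) ρbar.V) :=
    ⟨Module.finBasisOfFinrankEq (ResidueField 𝒪) ρbar.V ρbar.finrank_eq⟩
  have hdet' := Fermat.Agent.TW.det_resMatrixOf_of_detIsCyclotomic hpk ρbar β hdet
  have hsplit' := Fermat.Agent.TW.charpoly_resMatrixOf_split ρbar β hsplit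
  by_cases hline : ∃ e₁ : Fin 2 → ResidueField 𝒪, e₁ ≠ 0 ∧
      ∀ g ∈ (padicPlace p).decompositionSubgroup ℚ, ∃ t : ResidueField 𝒪,
        (Fermat.Agent.S53.resMatrixOf ρbar β g).mulVec e₁ = t • e₁
  · -- reducible on the decomposition group at `p`
    refine Fermat.Agent.TW.tw_half_flat p hp2 hp𝒪 ρbar habs hdet hsplit hTW hEC S Smin hpSmin hmin β
      (Fermat.Agent.TW.flatOrdCond p (Fermat.Agent.S53.resMatrixOf ρbar β)) ?_ ?_
    · intro b hb hs hdetb hflat htr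
      exact Fermat.Agent.TW.res_adCocycle_mem_flatOrdCond hp2 hpk hb _ hdetb hflat htr hline
    · intro hsm
      exact Fermat.Agent.TW.card_locCond_flatOrdCond_le p hp2
        (Fermat.Agent.S53.resMatrixOf ρbar β) hdet' hsm
  · -- irreducible on the decomposition group at `p`
    have hnl : ¬ ∃ e₁ : Fin 2 → ResidueField 𝒪, e₁ ≠ 0 ∧
        ∀ τ : ExtCitation.primeLocalGaloisGroup (ExtCitation.pPrime p), ∃ t : ResidueField 𝒪,
          (Fermat.Agent.S53.resMatrixOf ρbar β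
            (ExtCitation.primeLocalToGlobal (ExtCitation.pPrime p) τ)).mulVec e₁ = t • e₁ :=
      fun h => hline (Fermat.Agent.TW.exists_decomposition_line_of_exists_local_line _
        (Fermat.Agent.S53.resMatrixOf_factors ρbar β) h)
    refine Fermat.Agent.TW.tw_half_flat p hp2 hp𝒪 ρbar habs hdet hsplit hTW hEC S Smin hpSmin hmin β
      (Fermat.Agent.TW.flatIrrCond p (Fermat.Agent.S53.resMatrixOf ρbar β)) ?_ ?_
    · intro b hb hs _ hflat htr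
      exact Fermat.Agent.TW.res_adCocycle_mem_flatIrrCond hpk hb _ hflat htr
    · intro hsm
      exact Fermat.Agent.TW.card_locCond_YLoc_le_of_card_le
        (Fermat.Agent.S53.resMatrixOf ρbar β) _
        (Fermat.Agent.TW.card_flatIrrCond_le hp2 (Fermat.Agent.S53.resMatrixOf ρbar β)
          hdet' hsplit' hnl) hsm

end Fermat.Agent.S56
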