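-- Statement S57 (row 51): patching, descent step.
import Mathlib
import Fermat.Statements.S57

set_option autoImplicit false
set_option linter.style.haveILetI false
set_option linter.unusedSectionVars false
open Algebra Algebra.PatchingLevel

namespace Fermat.Agent.S57

open CategoryTheory IsLocalRing RingTheory.Sequence
open scoped Pointwise

universe u

/-! ### Projective dimension of finite length modules -/

/-- Over a local ring, a finite-length module has projective dimension at most that of the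
residue field (stated with `HasProjectiveDimensionLT`). -/
theorem hasProjectiveDimensionLT_of_isFiniteLength {A : Type u} [CommRing A] [IsLocalRing A]
    (n : ℕ) (hk : HasProjectiveDimensionLT (ModuleCat.of A (A ⧸ maximalIdeal A)) n)
    (L : Type u) [AddCommGroup L] [Module A L] (hL : IsFiniteLength A L) :
    HasProjectiveDimensionLT (ModuleCat.of A L) n := by
  induction hL with
  | @of_subsingleton M _ _ _ =>
    have hz : Limits.IsZero (ModuleCat.of A M) := ModuleCat.isZero_of_subsingleton _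
    have := hz.hasProjectiveDimensionLT_zero
    exact hasProjectiveDimensionLT_of_ge _ 0 n (Nat.zero_le n)
  | @of_simple_quotient M _ _ P hs _ ih =>
    obtain ⟨I, hI, ⟨e⟩⟩ := isSimpleModule_iff_quot_maximal.mp hs
    obtain rfl := eq_maximalIdeal hI
    let f : M →ₗ[A] (A ⧸ maximalIdeal A) := e.toLinearMap ∘ₗ P.mkQ
    have hf : Function.Surjective f := e.surjective.comp P.mkQ_surjective
    have hker : LinearMap.ker f = P := by
      simp [f, LinearMap.ker_comp]
    have hS := LinearMap.shortExact_shortComplexKer hf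
    have h1 : HasProjectiveDimensionLT f.shortComplexKer.X₁ n :=
      hasProjectiveDimensionLT_of_iso (LinearEquiv.ofEq _ _ hker.symm).toModuleIso n
    have h3 : HasProjectiveDimensionLT f.shortComplexKer.X₃ n := hk
    exact hS.hasProjectiveDimensionLT_X₂ n h1 h3

/-- A form of the Auslander–Buchsbaum argument: over a Noetherian local ring whose maximal
ideal is generated by a regular sequence `xs`, a finite module `N` that has a weakly regular
sequence `ys` in the maximal ideal, at least as long as `xs`, with `N / ys N` of finite length,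
is free. -/
theorem free_of_isWeaklyRegular {A : Type u} [CommRing A] [IsLocalRing A] [IsNoetherianRing A]
    (xs : List A) (hxs : IsWeaklyRegular A xs) (hm : Ideal.ofList xs = maximalIdeal A)
    {N : Type u} [AddCommGroup N] [Module A N] [Module.Finite A N]
    (ys : List A) (hys : IsWeaklyRegular N ys) (hmem : ∀ y ∈ ys, y ∈ maximalIdeal A)
    (hlen : xs.length ≤ ys.length)
    (hfl : IsFiniteLength A (N ⧸ Ideal.ofList ys • (⊤ : Submodule A N))) :
    Module.Free A N := by
  rcases subsingleton_or_nontrivial N with hN | hN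
  · exact Module.Free.of_subsingleton A N
  -- projective dimension of the residue field
  have hxmem : ∀ x ∈ xs, x ∈ maximalIdeal A := fun x hx => by
    rw [← hm]; exact Ideal.subset_span hx
  have hpdA : projectiveDimension (ModuleCat.of A A) = 0 :=
    ModuleCat.projectiveDimension_eq_zero_of_projective _
  have hk0 := ModuleCat.projectiveDimension_quotient_eq_add_length_of_isWeaklyRegular
    (ModuleCat.of A A) xs hxs hxmem
  rw [hpdA, zero_add] at hk0
  have hIeq : (Ideal.ofList xs • ⊤ : Submodule A A) = maximalIdeal A := by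
    rw [hm]; simp
  have hk1 : projectiveDimension (ModuleCat.of A (A ⧸ maximalIdeal A)) = xs.length := by
    rw [← hk0]
    exact (projectiveDimension_eq_of_iso (Submodule.quotEquivOfEq _ _ hIeq).toModuleIso).symm
  have hk : HasProjectiveDimensionLT (ModuleCat.of A (A ⧸ maximalIdeal A)) (xs.length + 1) := by
    have : projectiveDimension (ModuleCat.of A (A ⧸ maximalIdeal A)) ≤ xs.length := hk1.le
    rwa [projectiveDimension_le_iff] at this
  -- projective dimension of `N / ys N`
  have hL := hasProjectiveDimensionLT_of_isFiniteLength (xs.length + 1) hk _ hfl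
  have hL' : projectiveDimension (ModuleCat.of A (N ⧸ Ideal.ofList ys • (⊤ : Submodule A N))) ≤
      xs.length := (projectiveDimension_le_iff _ _).mpr hL
  have hN0 := ModuleCat.projectiveDimension_quotient_eq_add_length_of_isWeaklyRegular
    (ModuleCat.of A N) ys hys hmem
  rw [hN0] at hL'
  have hle : projectiveDimension (ModuleCat.of A N) + (ys.length : WithBot ℕ∞) ≤
      (0 : WithBot ℕ∞) + (ys.length : WithBot ℕ∞) := by
    rw [zero_add]
    refine hL'.trans ?_
    exact_mod_cast hlen
  rw [ENat.WithBot.add_le_add_natCast_right_iff] at hle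
  have hproj : Projective (ModuleCat.of A N) := by
    rw [projective_iff_hasProjectiveDimensionLE_zero, ← projectiveDimension_le_iff]
    exact_mod_cast hle
  have : Module.Projective A N := (IsProjective.iff_projective N).mpr hproj
  exact Module.free_of_flat_of_isLocalRing

/-! ### Power series in one variable -/

section OneVar

variable {B : Type u} [CommRing B]

/-- The constant coefficient as a `B`-linear map. -/
noncomputable def constCoeffLin : PowerSeries B →ₗ[B] B :=
  { toFun := fun p => PowerSeries.constantCoeff p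
    map_add' := fun p q => map_add _ p q
    map_smul' := fun b p => by simp [Algebra.smul_def] }

theorem constCoeffLin_apply (p : PowerSeries B) :
    constCoeffLin p = PowerSeries.constantCoeff p := rfl

theorem constCoeffLin_surjective : Function.Surjective (constCoeffLin (B := B)) :=
  fun b => ⟨PowerSeries.C b, by simp [constCoeffLin_apply]⟩

theorem restrictScalars_X_smul_top :
    ((PowerSeries.X : PowerSeries B) •
        (⊤ : Submodule (PowerSeries B) (PowerSeries B))).restrictScalars B
      = LinearMap.ker (constCoeffLin (B := B)) := by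
  ext p
  rw [Submodule.restrictScalars_mem, LinearMap.mem_ker, Submodule.mem_smul_pointwise_iff_exists,
    constCoeffLin_apply]
  constructor
  · rintro ⟨q, -, rfl⟩
    simp
  · intro hp
    obtain ⟨q, rfl⟩ := PowerSeries.X_dvd_iff.mpr hp
    exact ⟨q, trivial, rfl⟩

/-- `B⟦T⟧ / T ≃ B` as `B`-modules. -/
noncomputable def quotXEquiv :
    QuotSMulTop (PowerSeries.X : PowerSeries B) (PowerSeries B) ≃ₗ[B] B :=
  ((Submodule.Quotient.restrictScalarsEquiv B
      ((PowerSeries.X : PowerSeries B) •
        (⊤ : Submodule (PowerSeries B) (PowerSeries B)))).symm.trans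
    (Submodule.quotEquivOfEq _ _ restrictScalars_X_smul_top)).trans
    (LinearMap.quotKerEquivOfSurjective _ constCoeffLin_surjective)

theorem isSMulRegular_X : IsSMulRegular (PowerSeries B) (PowerSeries.X : PowerSeries B) := by
  intro p q h
  exact PowerSeries.X_mul_cancel h

theorem isWeaklyRegular_X_cons {rs : List B} (h : IsWeaklyRegular B rs) :
    IsWeaklyRegular (PowerSeries B) ((PowerSeries.X : PowerSeries B) :: rs.map PowerSeries.C) := by
  rw [isWeaklyRegular_cons_iff]
  refine ⟨isSMulRegular_X, ?_⟩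
  have h1 : IsWeaklyRegular (QuotSMulTop (PowerSeries.X : PowerSeries B) (PowerSeries B)) rs :=
    (quotXEquiv.isWeaklyRegular_congr rs).mpr h
  exact (isWeaklyRegular_map_algebraMap_iff (PowerSeries B)
    (QuotSMulTop (PowerSeries.X : PowerSeries B) (PowerSeries B)) rs).mpr h1

end OneVar

/-! ### Power series in several variables -/

section MvPS

variable (𝒪 : Type u) [CommRing 𝒪]

/-- The inclusion of power series in `r` variables into power series in `r + 1` variables,
sending `X i` to `X i.succ`. -/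
noncomputable def succHom (r : ℕ) : MvPowerSeries (Fin r) 𝒪 →+* MvPowerSeries (Fin (r + 1)) 𝒪 :=
  ((MvPowerSeries.finSuccEquiv 𝒪 r).symm : PowerSeries (MvPowerSeries (Fin r) 𝒪) →+* _).comp
    PowerSeries.C

variable {𝒪}

theorem finSuccEquiv_succHom (r : ℕ) (g : MvPowerSeries (Fin r) 𝒪) :
    MvPowerSeries.finSuccEquiv 𝒪 r (succHom 𝒪 r g) = PowerSeries.C g := by
  simp [succHom]

theorem succHom_C (r : ℕ) (a : 𝒪) : succHom 𝒪 r (MvPowerSeries.C a) = MvPowerSeries.C a := by
  apply (MvPowerSeries.finSuccEquiv 𝒪 r).injective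
  rw [finSuccEquiv_succHom, MvPowerSeries.finSuccEquiv_C]

theorem succHom_X (r : ℕ) (i : Fin r) :
    succHom 𝒪 r (MvPowerSeries.X i) = MvPowerSeries.X i.succ := by
  apply (MvPowerSeries.finSuccEquiv 𝒪 r).injective
  rw [finSuccEquiv_succHom, MvPowerSeries.finSuccEquiv_X_succ]

theorem constantCoeff_finSuccEquiv (r : ℕ) (f : MvPowerSeries (Fin (r + 1)) 𝒪) :
    MvPowerSeries.constantCoeff (PowerSeries.constantCoeff (MvPowerSeries.finSuccEquiv 𝒪 r f)) =
      MvPowerSeries.constantCoeff f := by
  rw [← MvPowerSeries.coeff_zero_eq_constantCoeff_apply,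
    ← PowerSeries.coeff_zero_eq_constantCoeff_apply,
    MvPowerSeries.coeff_coeff_finSuccEquiv, Finsupp.cons_zero_zero,
    MvPowerSeries.coeff_zero_eq_constantCoeff_apply]

theorem mem_span_range_X (r : ℕ) (f : MvPowerSeries (Fin r) 𝒪)
    (hf : MvPowerSeries.constantCoeff f = 0) :
    f ∈ Ideal.span (Set.range (MvPowerSeries.X : Fin r → MvPowerSeries (Fin r) 𝒪)) := by
  induction r with
  | zero =>
    have : f = 0 := by
      ext μ
      have hμ : μ = 0 := Subsingleton.elim _ _
      rw [hμ, MvPowerSeries.coeff_zero_eq_constantCoeff_apply, hf, map_zero]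
    rw [this]
    exact Submodule.zero_mem _
  | succ r ih =>
    set e := MvPowerSeries.finSuccEquiv 𝒪 r with he
    set F := e f with hF
    have h0 : MvPowerSeries.constantCoeff (PowerSeries.constantCoeff F) = 0 := by
      rw [hF, he, constantCoeff_finSuccEquiv, hf]
    have hF0 := ih _ h0
    have hdecomp := PowerSeries.eq_X_mul_shift_add_const F
    have hfe : f = MvPowerSeries.X 0 *
          e.symm (PowerSeries.mk fun p => PowerSeries.coeff (p + 1) F) +
        succHom 𝒪 r (PowerSeries.constantCoeff F) := by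
      apply e.injective
      rw [map_add, map_mul, he, MvPowerSeries.finSuccEquiv_X_zero, finSuccEquiv_succHom, ← he,
        AlgEquiv.apply_symm_apply]
      exact hdecomp
    rw [hfe]
    refine Ideal.add_mem _ (Ideal.mul_mem_right _ _ (Ideal.subset_span ⟨0, rfl⟩)) ?_
    have hmap : Ideal.map (succHom 𝒪 r)
        (Ideal.span (Set.range (MvPowerSeries.X : Fin r → MvPowerSeries (Fin r) 𝒪))) ≤
        Ideal.span (Set.range
          (MvPowerSeries.X : Fin (r + 1) → MvPowerSeries (Fin (r + 1)) 𝒪)) := by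
      rw [Ideal.map_span, Ideal.span_le]
      rintro _ ⟨_, ⟨i, rfl⟩, rfl⟩
      rw [succHom_X]
      exact Ideal.subset_span ⟨i.succ, rfl⟩
    exact hmap (Ideal.mem_map_of_mem _ hF0)

variable (ϖ : 𝒪)

/-- The regular system of parameters `X 0, …, X (r-1), ϖ`. -/
noncomputable def paramList : (r : ℕ) → List (MvPowerSeries (Fin r) 𝒪)
  | 0 => [MvPowerSeries.C ϖ]
  | r + 1 => MvPowerSeries.X 0 :: (paramList r).map (succHom 𝒪 r)

theorem length_paramList (r : ℕ) : (paramList ϖ r).length = r + 1 := by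
  induction r with
  | zero => rfl
  | succ r ih => simp [paramList, ih]

theorem mem_paramList (r : ℕ) (f : MvPowerSeries (Fin r) 𝒪) (hf : f ∈ paramList ϖ r) :
    f = MvPowerSeries.C ϖ ∨ ∃ i, f = MvPowerSeries.X i := by
  induction r with
  | zero =>
    left
    simpa [paramList] using hf
  | succ r ih =>
    simp only [paramList, List.mem_cons, List.mem_map] at hf
    rcases hf with rfl | ⟨g, hg, rfl⟩
    · exact Or.inr ⟨0, rfl⟩
    · rcases ih g hg with rfl | ⟨i, rfl⟩
      · exact Or.inl (succHom_C r ϖ)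
      · exact Or.inr ⟨i.succ, succHom_X r i⟩

theorem C_mem_paramList (r : ℕ) : MvPowerSeries.C ϖ ∈ paramList ϖ r := by
  induction r with
  | zero => simp [paramList]
  | succ r ih =>
    simp only [paramList, List.mem_cons, List.mem_map]
    exact Or.inr ⟨_, ih, succHom_C r ϖ⟩

theorem X_mem_paramList (r : ℕ) (i : Fin r) : MvPowerSeries.X i ∈ paramList ϖ r := by
  induction r with
  | zero => exact i.elim0
  | succ r ih =>
    simp only [paramList, List.mem_cons, List.mem_map]
    refine Fin.cases (Or.inl rfl) (fun j => Or.inr ⟨_, ih j, succHom_X r j⟩) i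

theorem isSMulRegular_C {r : ℕ} (hϖ : IsSMulRegular 𝒪 ϖ) :
    IsSMulRegular (MvPowerSeries (Fin r) 𝒪) (MvPowerSeries.C ϖ : MvPowerSeries (Fin r) 𝒪) := by
  intro f g h
  ext μ
  have := congrArg (MvPowerSeries.coeff μ) h
  simp only [smul_eq_mul, MvPowerSeries.coeff_C_mul] at this
  exact hϖ this

theorem isWeaklyRegular_paramList (hϖ : IsSMulRegular 𝒪 ϖ) (r : ℕ) :
    IsWeaklyRegular (MvPowerSeries (Fin r) 𝒪) (paramList ϖ r) := by
  induction r with
  | zero =>
    rw [paramList, isWeaklyRegular_singleton_iff]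
    exact isSMulRegular_C ϖ hϖ
  | succ r ih =>
    have h1 := isWeaklyRegular_X_cons ih
    refine (AddEquiv.isWeaklyRegular_congr
      (e := (MvPowerSeries.finSuccEquiv 𝒪 r).toAddEquiv) ?_).mpr h1
    rw [paramList]
    refine List.Forall₂.cons ?_ ?_
    · intro x
      simp
    · rw [List.forall₂_map_left_iff, List.forall₂_map_right_iff, List.forall₂_same]
      intro g _ x
      simp [finSuccEquiv_succHom]

theorem ofList_paramList [IsLocalRing 𝒪] (hϖ : maximalIdeal 𝒪 = Ideal.span {ϖ}) (r : ℕ) :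
    Ideal.ofList (paramList ϖ r) = maximalIdeal (MvPowerSeries (Fin r) 𝒪) := by
  apply le_antisymm
  · rw [Ideal.ofList, Ideal.span_le]
    intro f hf
    rw [SetLike.mem_coe, mem_maximalIdeal, mem_nonunits_iff,
      MvPowerSeries.isUnit_iff_constantCoeff]
    rcases mem_paramList ϖ r f hf with rfl | ⟨i, rfl⟩
    · rw [MvPowerSeries.constantCoeff_C, ← mem_nonunits_iff, ← mem_maximalIdeal, hϖ]
      exact Ideal.subset_span rfl
    · rw [MvPowerSeries.constantCoeff_X]
      exact not_isUnit_zero
  · intro f hf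
    rw [mem_maximalIdeal, mem_nonunits_iff, MvPowerSeries.isUnit_iff_constantCoeff,
      ← mem_nonunits_iff, ← mem_maximalIdeal, hϖ, Ideal.mem_span_singleton] at hf
    obtain ⟨a, ha⟩ := hf
    have h1 : f - MvPowerSeries.C (MvPowerSeries.constantCoeff f) ∈
        Ideal.ofList (paramList ϖ r) := by
      have := mem_span_range_X r (f - MvPowerSeries.C (MvPowerSeries.constantCoeff f)) (by simp)
      refine (Ideal.span_le.mpr ?_) this
      rintro _ ⟨i, rfl⟩
      exact Ideal.subset_span (X_mem_paramList ϖ r i)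
    have h2 : MvPowerSeries.C (MvPowerSeries.constantCoeff f) ∈ Ideal.ofList (paramList ϖ r) := by
      rw [ha, map_mul]
      exact Ideal.mul_mem_right _ _ (Ideal.subset_span (C_mem_paramList ϖ r))
    have := Ideal.add_mem _ h1 h2
    rwa [sub_add_cancel] at this

end MvPS

/-! ### The patching level -/

section Main

variable {𝒪 : Type} [CommRing 𝒪]
  {r : ℕ} {R : Type} [CommRing R] [Algebra 𝒪 R]
  {M : Type} [AddCommGroup M] [Module R M]
  (L : Algebra.PatchingLevel 𝒪 r R M ⊥)

/-- The additive map `c ↦ ∑ φ(cᵢ) • bᵢ`. -/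
noncomputable def coordHom : (Fin L.d → MvPowerSeries (Fin r) 𝒪) →+ L.N where
  toFun c := ∑ i, L.φ (c i) • L.b i
  map_zero' := by simp
  map_add' c c' := by simp [add_smul, Finset.sum_add_distrib]

theorem coordHom_apply (c : Fin L.d → MvPowerSeries (Fin r) 𝒪) :
    coordHom L c = ∑ i, L.φ (c i) • L.b i := rfl

theorem coordHom_bijective : Function.Bijective (coordHom L) := by
  constructor
  · rw [injective_iff_map_eq_zero]
    intro c hc
    have := (L.b_rel c).mp hc
    funext i
    simpa using this i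
  · intro x
    obtain ⟨c, hc⟩ := L.b_span x
    exact ⟨c, hc.symm⟩

/-- The additive equivalence `Λ^d ≃ N`. -/
noncomputable def coordEquiv : (Fin L.d → MvPowerSeries (Fin r) 𝒪) ≃+ L.N :=
  AddEquiv.ofBijective (coordHom L) (coordHom_bijective L)

theorem coordEquiv_smul (a : MvPowerSeries (Fin r) 𝒪) (c : Fin L.d → MvPowerSeries (Fin r) 𝒪) :
    coordEquiv L (a • c) = L.φ a • coordEquiv L c := by
  change coordHom L (a • c) = L.φ a • coordHom L c
  simp [coordHom_apply, Finset.smul_sum, mul_smul]

theorem phi_C (a : 𝒪) : L.φ (MvPowerSeries.C a) = MvPowerSeries.C a := by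
  have h := L.φ.commutes a
  rwa [MvPowerSeries.algebraMap_apply, Algebra.algebraMap_self, RingHom.id_apply] at h

theorem finite_N : Module.Finite (MvPowerSeries (Fin r) 𝒪) L.N := by
  classical
  refine ⟨⟨Finset.univ.image L.b, ?_⟩⟩
  rw [_root_.eq_top_iff]
  intro x _
  obtain ⟨c, rfl⟩ := L.b_span x
  refine Submodule.sum_mem _ fun i _ => Submodule.smul_mem _ _ (Submodule.subset_span ?_)
  simp

theorem isWeaklyRegular_N {ϖ : 𝒪} (hϖ : IsSMulRegular 𝒪 ϖ) :
    IsWeaklyRegular L.N ((paramList ϖ r).map L.φ) := by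
  have h0 := isWeaklyRegular_paramList ϖ hϖ r
  have h1 : IsWeaklyRegular (Fin L.d → MvPowerSeries (Fin r) 𝒪) (paramList ϖ r) := by
    have h2 := h0.isWeaklyRegular_lTensor (M₂ := Fin L.d → MvPowerSeries (Fin r) 𝒪)
    exact ((TensorProduct.rid (MvPowerSeries (Fin r) 𝒪)
      (Fin L.d → MvPowerSeries (Fin r) 𝒪)).isWeaklyRegular_congr _).mp h2
  refine (AddEquiv.isWeaklyRegular_congr (e := coordEquiv L) ?_).mp h1
  rw [List.forall₂_map_right_iff, List.forall₂_same]
  intro a _ c
  exact coordEquiv_smul L a c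

theorem phi_X_mem [IsLocalRing 𝒪] (i : Fin r) :
    L.φ (MvPowerSeries.X i) ∈ maximalIdeal (MvPowerSeries (Fin r) 𝒪) := by
  rw [mem_maximalIdeal, mem_nonunits_iff]
  intro hu
  set u := L.φ (MvPowerSeries.X i) with hudef
  have hc : IsUnit (MvPowerSeries.constantCoeff u) := MvPowerSeries.isUnit_iff_constantCoeff.mp hu
  set c := MvPowerSeries.constantCoeff u with hcdef
  have h1 : IsUnit (MvPowerSeries.X i - MvPowerSeries.C c : MvPowerSeries (Fin r) 𝒪) := by
    rw [MvPowerSeries.isUnit_iff_constantCoeff]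
    simpa using hc.neg
  have h2 : IsUnit (L.φ (MvPowerSeries.X i - MvPowerSeries.C c)) := h1.map L.φ
  rw [map_sub, phi_C, MvPowerSeries.isUnit_iff_constantCoeff] at h2
  simp [← hudef, ← hcdef] at h2

theorem phi_sub_C_mem (ϖ : 𝒪) (c : MvPowerSeries (Fin r) 𝒪) :
    L.φ c - MvPowerSeries.C (MvPowerSeries.constantCoeff c) ∈
      Ideal.ofList ((paramList ϖ r).map L.φ) := by
  have h1 := mem_span_range_X r (c - MvPowerSeries.C (MvPowerSeries.constantCoeff c)) (by simp)
  have h2 := Ideal.mem_map_of_mem (L.φ : MvPowerSeries (Fin r) 𝒪 →+* MvPowerSeries (Fin r) 𝒪) h1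
  rw [RingHom.coe_coe, map_sub, phi_C] at h2
  refine (?_ : Ideal.map (L.φ : MvPowerSeries (Fin r) 𝒪 →+* MvPowerSeries (Fin r) 𝒪) _ ≤ _) h2
  rw [Ideal.map_span, Ideal.span_le]
  rintro _ ⟨_, ⟨i, rfl⟩, rfl⟩
  exact Ideal.subset_span (List.mem_map.mpr ⟨_, X_mem_paramList ϖ r i, rfl⟩)

theorem C_mem_ofList (ϖ : 𝒪) :
    (MvPowerSeries.C ϖ : MvPowerSeries (Fin r) 𝒪) ∈ Ideal.ofList ((paramList ϖ r).map L.φ) :=
  Ideal.subset_span (List.mem_map.mpr ⟨_, C_mem_paramList ϖ r, phi_C L ϖ⟩)

theorem isFiniteLength_quot [IsLocalRing 𝒪] [IsNoetherianRing 𝒪] {ϖ : 𝒪}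
    (hϖ : maximalIdeal 𝒪 = Ideal.span {ϖ}) :
    IsFiniteLength (MvPowerSeries (Fin r) 𝒪)
      (L.N ⧸ Ideal.ofList ((paramList ϖ r).map L.φ) •
        (⊤ : Submodule (MvPowerSeries (Fin r) 𝒪) L.N)) := by
  haveI := finite_N L
  letI : Module 𝒪 L.N := Module.compHom L.N (algebraMap 𝒪 (MvPowerSeries (Fin r) 𝒪))
  haveI : IsScalarTower 𝒪 (MvPowerSeries (Fin r) 𝒪) L.N :=
    IsScalarTower.of_algebraMap_smul fun _ _ => rfl
  set J := Ideal.ofList ((paramList ϖ r).map L.φ) with hJ
  set P : Submodule (MvPowerSeries (Fin r) 𝒪) L.N := J • ⊤ with hP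
  have hsmul : ∀ (a : 𝒪) (x : L.N), a • x = (MvPowerSeries.C a : MvPowerSeries (Fin r) 𝒪) • x := by
    intro a x
    rw [← algebraMap_smul (MvPowerSeries (Fin r) 𝒪) a x, MvPowerSeries.algebraMap_apply,
      Algebra.algebraMap_self, RingHom.id_apply]
  -- torsion
  have htors : Module.IsTorsionBySet 𝒪 (L.N ⧸ P) (maximalIdeal 𝒪 : Set 𝒪) := by
    rintro q ⟨a, ha⟩
    induction q using Submodule.Quotient.induction_on with | _ x
    rw [SetLike.mem_coe, hϖ, Ideal.mem_span_singleton] at ha
    obtain ⟨a', rfl⟩ := ha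
    change (ϖ * a') • Submodule.Quotient.mk x = 0
    rw [← Submodule.Quotient.mk_smul, Submodule.Quotient.mk_eq_zero, hsmul, map_mul, mul_smul]
    exact Submodule.smul_mem_smul (C_mem_ofList L ϖ) Submodule.mem_top
  -- finiteness over 𝒪
  have hfin : Module.Finite 𝒪 (L.N ⧸ P) := by
    classical
    refine ⟨⟨Finset.univ.image fun i => (Submodule.Quotient.mk (L.b i) : L.N ⧸ P), ?_⟩⟩
    rw [_root_.eq_top_iff]
    intro q _
    induction q using Submodule.Quotient.induction_on with | _ x
    obtain ⟨c, rfl⟩ := L.b_span x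
    rw [← Submodule.mkQ_apply, map_sum]
    refine Submodule.sum_mem _ fun i _ => ?_
    rw [Submodule.mkQ_apply]
    have h1 : (Submodule.Quotient.mk (L.φ (c i) • L.b i) : L.N ⧸ P) =
        (MvPowerSeries.constantCoeff (c i)) • Submodule.Quotient.mk (L.b i) := by
      rw [← Submodule.Quotient.mk_smul, hsmul, Submodule.Quotient.eq, ← sub_smul]
      exact Submodule.smul_mem_smul (phi_sub_C_mem L ϖ (c i)) Submodule.mem_top
    rw [h1]
    refine Submodule.smul_mem _ _ (Submodule.subset_span ?_)
    simp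
  -- Artinian over the residue field, hence over 𝒪, hence over Λ
  letI := htors.module
  haveI : IsScalarTower 𝒪 (𝒪 ⧸ maximalIdeal 𝒪) (L.N ⧸ P) := htors.isScalarTower
  haveI : Module.Finite (𝒪 ⧸ maximalIdeal 𝒪) (L.N ⧸ P) :=
    Module.Finite.of_restrictScalars_finite 𝒪 _ _
  haveI : IsArtinianRing (𝒪 ⧸ maximalIdeal 𝒪) :=
    inferInstanceAs (IsArtinianRing (ResidueField 𝒪))
  haveI h1 : IsArtinian (𝒪 ⧸ maximalIdeal 𝒪) (L.N ⧸ P) := inferInstance
  have h2 : IsArtinian 𝒪 (L.N ⧸ P) :=
    isArtinian_of_surjective_algebraMap (R := 𝒪 ⧸ maximalIdeal 𝒪) Ideal.Quotient.mk_surjective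
  have h3 : IsArtinian (MvPowerSeries (Fin r) 𝒪) (L.N ⧸ P) := isArtinian_of_tower 𝒪 h2
  exact isFiniteLength_iff_isNoetherian_isArtinian.mpr ⟨inferInstance, h3⟩

end Main

theorem result
    {𝒪 : Type} [CommRing 𝒪] [IsDomain 𝒪] [IsDiscreteValuationRing 𝒪]
    {r : ℕ} {R : Type} [CommRing R] [Algebra 𝒪 R]
    {M : Type} [AddCommGroup M] [Module R M] [Nontrivial M]
    (L : Algebra.PatchingLevel 𝒪 r R M ⊥) :
    Module.Free R M ∧ Module.annihilator R M = ⊥ ∧
      RingHom.ker L.ψ = Ideal.span (Set.range fun i : Fin r => L.φ (MvPowerSeries.X i)) := by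
  classical
  obtain ⟨ϖ, hirr⟩ := IsDiscreteValuationRing.exists_irreducible 𝒪
  have hmax : maximalIdeal 𝒪 = Ideal.span {ϖ} := hirr.maximalIdeal_eq
  have hreg : IsSMulRegular 𝒪 ϖ := fun a b h => mul_left_cancel₀ hirr.ne_zero h
  haveI := finite_N L
  -- `N` is free over `Λ`
  have hfree : Module.Free (MvPowerSeries (Fin r) 𝒪) L.N := by
    refine free_of_isWeaklyRegular (paramList ϖ r) (isWeaklyRegular_paramList ϖ hreg r)
      (ofList_paramList ϖ hmax r) ((paramList ϖ r).map L.φ) (isWeaklyRegular_N L hreg) ?_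
      (by simp) (isFiniteLength_quot L hmax)
    intro y hy
    obtain ⟨x, hx, rfl⟩ := List.mem_map.mp hy
    rcases mem_paramList ϖ r x hx with rfl | ⟨i, rfl⟩
    · rw [phi_C, ← ofList_paramList ϖ hmax r]
      exact Ideal.subset_span (C_mem_paramList ϖ r)
    · exact phi_X_mem L i
  have hNnt : Nontrivial L.N := by
    obtain ⟨m, hm⟩ := exists_ne (0 : M)
    obtain ⟨x, rfl⟩ := L.π_surjective m
    exact ⟨⟨x, 0, fun h => hm (by rw [h, map_zero])⟩⟩
  let ν := Module.Free.chooseBasis (MvPowerSeries (Fin r) 𝒪) L.N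
  haveI : Nonempty (Module.Free.ChooseBasisIndex (MvPowerSeries (Fin r) 𝒪) L.N) :=
    ν.index_nonempty
  set I := Ideal.span (Set.range fun i : Fin r => L.φ (MvPowerSeries.X i)) with hI
  have hIker : I ≤ RingHom.ker L.ψ := by
    rw [Ideal.span_le]
    rintro _ ⟨i, rfl⟩
    exact L.ψ_φ_X i
  have hK : ∀ x : L.N, x ∈ I • (⊤ : Submodule (MvPowerSeries (Fin r) 𝒪) L.N) →
      ∀ j, ν.repr x j ∈ I := by
    intro x hx j
    rw [← ν.span_eq, Submodule.mem_ideal_smul_span_iff_exists_sum] at hx
    obtain ⟨a, ha, rfl⟩ := hx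
    have : ν.repr (a.sum fun i c => c • ν i) = a := by
      rw [← Finsupp.linearCombination_apply]
      exact ν.repr_linearCombination a
    rw [this]
    exact ha j
  have hπsum : ∀ c : Module.Free.ChooseBasisIndex (MvPowerSeries (Fin r) 𝒪) L.N →
      MvPowerSeries (Fin r) 𝒪, L.π (∑ j, c j • ν j) = ∑ j, L.ψ (c j) • L.π (ν j) := by
    intro c
    rw [map_sum]
    exact Finset.sum_congr rfl fun j _ => L.π_smul _ _
  have hkey : ∀ c : Module.Free.ChooseBasisIndex (MvPowerSeries (Fin r) 𝒪) L.N →
      MvPowerSeries (Fin r) 𝒪, (∑ j, L.ψ (c j) • L.π (ν j)) = 0 → ∀ j, c j ∈ I := by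
    intro c hc j
    rw [← hπsum, L.ker_π] at hc
    have := hK _ hc j
    rwa [ν.repr_sum_self] at this
  have hker : RingHom.ker L.ψ = I := by
    apply le_antisymm _ hIker
    intro f hf
    obtain ⟨j₀⟩ := ‹Nonempty (Module.Free.ChooseBasisIndex (MvPowerSeries (Fin r) 𝒪) L.N)›
    have h0 : (∑ j, L.ψ (if j = j₀ then f else 0) • L.π (ν j)) = 0 := by
      refine Finset.sum_eq_zero fun j _ => ?_
      split_ifs
      · rw [RingHom.mem_ker.mp hf, zero_smul]
      · rw [map_zero, zero_smul]
    simpa using hkey _ h0 j₀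
  have hli : LinearIndependent R fun j => L.π (ν j) := by
    rw [Fintype.linearIndependent_iff]
    intro g hg j
    choose c hc using fun j => L.ψ_surjective (g j)
    have h0 : (∑ j, L.ψ (c j) • L.π (ν j)) = 0 := by
      rw [← hg]
      exact Finset.sum_congr rfl fun j _ => by rw [hc]
    rw [← hc j]
    exact RingHom.mem_ker.mp (hIker (hkey c h0 j))
  have hsp : ⊤ ≤ Submodule.span R (Set.range fun j => L.π (ν j)) := by
    intro m _
    obtain ⟨x, rfl⟩ := L.π_surjective m
    rw [← ν.sum_repr x, hπsum]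
    exact Submodule.sum_mem _ fun j _ =>
      Submodule.smul_mem _ _ (Submodule.subset_span ⟨j, rfl⟩)
  have hfreeM : Module.Free R M := Module.Free.of_basis (Module.Basis.mk hli hsp)
  refine ⟨hfreeM, ?_, hker⟩
  rw [Module.annihilator_eq_bot]
  infer_instance

end Fermat.Agent.S57
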