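/-
S57, Part A (helper4): a maximal Cohen-Macaulay module over a regular local ring is free.

Formulated without any theory of regular local rings: `A` is a Noetherian local ring whose maximal
ideal is generated by an `A`-regular sequence `xs`, and `N` is a finitely generated `A`-module
carrying an `N`-regular sequence of the same length inside the maximal ideal.

Proof: induction on the length.  The crux is that the first parameter `x` is `N`-regular; this
follows from Rees' theorem (`Ext^i(k, N) = 0` for `i < depth N`) by a descending induction along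
`A/(x) , A/(x, x₂), …, A/(xs) = k` using the contravariant long exact `Ext` sequence and
Nakayama's lemma on the finitely generated modules `Ext^i(-, N)`.  Then `N/xN` again has the right
depth over `A/(x)` (covariant long exact sequence + Rees), so it is free by induction, and freeness
lifts along the regular element `x` (`Module.free_quotSMulTop_iff_free`).
-/
import Mathlib

set_option autoImplicit false
set_option linter.unusedSectionVars false

namespace Fermat.Agent.S57

namespace FreeOfRegular

universe u

open RingTheory.Sequence IsLocalRing CategoryTheory Abelian Pointwise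

variable {A : Type u} [CommRing A] [IsLocalRing A] [IsNoetherianRing A]


lemma mk₀_smul_id_comp (N Q : ModuleCat.{u} A) (x : A) (i : ℕ) (β : Ext Q N i) :
    (Ext.mk₀ (x • 𝟙 Q)).comp β (zero_add i) = x • β := by
  rw [Ext.mk₀_smul, Ext.smul_comp, Ext.mk₀_id_comp]

/-- Nakayama on `Ext`: if `x ∈ m` is `Q`-regular and `Ext^{i+1}(Q/xQ, N) = 0`
then `Ext^i(Q, N) = 0`. -/
lemma subsingleton_ext_of_quotSMulTop (N : ModuleCat.{u} A) [Module.Finite A N]
    (Q : ModuleCat.{u} A) [Module.Finite A Q] {x : A} (hx : x ∈ maximalIdeal A)
    (hreg : IsSMulRegular Q x) (i : ℕ)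
    (h : Subsingleton (Ext (ModuleCat.of A (QuotSMulTop x Q)) N (i + 1))) :
    Subsingleton (Ext Q N i) := by
  have hS := hreg.smulShortComplex_shortExact
  have hsurj : ∀ α : Ext Q N i, ∃ β : Ext Q N i, x • β = α := by
    intro α
    have : Subsingleton (Ext (Q.smulShortComplex x).X₃ N (i + 1)) := h
    obtain ⟨β, hβ⟩ := Ext.contravariant_sequence_exact₁ hS N α (add_comm 1 i)
      (Subsingleton.elim _ _)
    exact ⟨β, (mk₀_smul_id_comp N Q x i β).symm.trans hβ⟩
  have htop : (⊤ : Submodule A (Ext Q N i)) = ⊥ := by
    apply Submodule.eq_bot_of_le_smul_of_le_jacobson_bot (Ideal.span {x}) ⊤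
      Module.Finite.fg_top
    · intro α _
      obtain ⟨β, rfl⟩ := hsurj α
      exact Submodule.smul_mem_smul (Ideal.mem_span_singleton_self x) Submodule.mem_top
    · rw [Ideal.span_singleton_le_iff_mem]
      exact maximalIdeal_le_jacobson _ hx
  exact (Submodule.subsingleton_iff A).mp (subsingleton_of_bot_eq_top htop.symm)



lemma subsingleton_ext_of_isWeaklyRegular (N : ModuleCat.{u} A) [Module.Finite A N] (n : ℕ)
    (hN : ∀ (T : ModuleCat.{u} A) [Module.Finite A T],
      Module.support A T ⊆ PrimeSpectrum.zeroLocus (maximalIdeal A : Set A) →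
        ∀ i < n, Subsingleton (Ext T N i)) :
    ∀ (xs : List A) (Q : Type u) [AddCommGroup Q] [Module A Q] [Module.Finite A Q],
      (∀ x ∈ xs, x ∈ maximalIdeal A) → IsWeaklyRegular Q xs →
      Module.support A (Q ⧸ (Ideal.ofList xs • (⊤ : Submodule A Q))) ⊆
        PrimeSpectrum.zeroLocus (maximalIdeal A : Set A) →
      ∀ i, i + xs.length < n → Subsingleton (Ext (ModuleCat.of A Q) N i) := by
  intro xs
  induction xs with
  | nil =>
    intro Q _ _ _ _ _ hsupp i hi
    have e : (Q ⧸ (Ideal.ofList ([] : List A) • (⊤ : Submodule A Q))) ≃ₗ[A] Q :=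
      Submodule.quotEquivOfEqBot _ (by rw [Ideal.ofList_nil, Submodule.bot_smul])
    rw [e.support_eq] at hsupp
    exact hN (ModuleCat.of A Q) hsupp i (by simpa using hi)
  | cons x xs ih =>
    intro Q _ _ _ hmem hreg hsupp i hi
    obtain ⟨hx, hreg'⟩ := (isWeaklyRegular_cons_iff Q x xs).mp hreg
    have e := Submodule.quotOfListConsSMulTopEquivQuotSMulTopInner Q x xs
    rw [e.support_eq] at hsupp
    have h1 : Subsingleton (Ext (ModuleCat.of A (QuotSMulTop x Q)) N (i + 1)) :=
      ih (QuotSMulTop x Q) (fun y hy => hmem y (List.mem_cons_of_mem _ hy)) hreg' hsupp (i + 1)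
        (by simp only [List.length_cons] at hi; omega)
    exact subsingleton_ext_of_quotSMulTop N (ModuleCat.of A Q) (hmem x List.mem_cons_self) hx i h1



lemma support_quot_smul_top_subset (I : Ideal A) (Q : Type u) [AddCommGroup Q] [Module A Q]
    [Module.Finite A Q] :
    Module.support A (Q ⧸ (I • (⊤ : Submodule A Q))) ⊆ PrimeSpectrum.zeroLocus (I : Set A) := by
  intro p hp
  rw [Module.mem_support_iff_of_finite] at hp
  rw [PrimeSpectrum.mem_zeroLocus]
  intro a ha
  refine hp ?_
  rw [Module.mem_annihilator]
  intro q
  obtain ⟨q, rfl⟩ := Submodule.Quotient.mk_surjective _ q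
  rw [← Submodule.Quotient.mk_smul, Submodule.Quotient.mk_eq_zero]
  exact Submodule.smul_mem_smul ha Submodule.mem_top

lemma smul_top_lt_top (N : Type u) [AddCommGroup N] [Module A N] [Module.Finite A N]
    [Nontrivial N] : maximalIdeal A • (⊤ : Submodule A N) < ⊤ :=
  lt_top_iff_ne_top.mpr
    (Submodule.top_ne_ideal_smul_of_le_jacobson_annihilator (maximalIdeal_le_jacobson _)).symm

/-- Vanishing of `Ext^i(T, N)` for `i < depth N` and `T` of finite length. -/
lemma subsingleton_ext_of_isRegular (N : Type u) [AddCommGroup N] [Module A N] [Module.Finite A N]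
    (rs : List A) (hmem : ∀ r ∈ rs, r ∈ maximalIdeal A) (hrs : IsRegular N rs)
    (T : ModuleCat.{u} A) [Module.Finite A T]
    (hT : Module.support A T ⊆ PrimeSpectrum.zeroLocus (maximalIdeal A : Set A)) :
    ∀ i < rs.length, Subsingleton (Ext T (ModuleCat.of A N) i) :=
  have := hrs.nontrivial
  ModuleCat.subsingleton_ext_of_exists_isRegular (maximalIdeal A) T hT (ModuleCat.of A N)
    (smul_top_lt_top N) rs hmem hrs



/-- The crux: the first element of a regular system of parameters is a nonzerodivisor on a
maximal Cohen-Macaulay module. -/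
lemma isSMulRegular_head (x : A) (xs : List A) (hxs : IsRegular A (x :: xs))
    (hspan : Ideal.ofList (x :: xs) = maximalIdeal A)
    (N : Type u) [AddCommGroup N] [Module A N] [Module.Finite A N]
    (rs : List A) (hlen : rs.length = xs.length + 1) (hmem : ∀ r ∈ rs, r ∈ maximalIdeal A)
    (hrs : IsRegular N rs) : IsSMulRegular N x := by
  obtain ⟨hx, hxs'⟩ := (isRegular_cons_iff A x xs).mp hxs
  have hmemxs : ∀ y ∈ x :: xs, y ∈ maximalIdeal A := fun y hy =>
    hspan ▸ Ideal.subset_span hy
  have hsupp : Module.support A (QuotSMulTop x A ⧸ (Ideal.ofList xs • (⊤ : Submodule A (QuotSMulTop x A)))) ⊆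
      PrimeSpectrum.zeroLocus (maximalIdeal A : Set A) := by
    rw [← (Submodule.quotOfListConsSMulTopEquivQuotSMulTopInner A x xs).support_eq, ← hspan]
    exact support_quot_smul_top_subset _ _
  have h0 : Subsingleton (Ext (ModuleCat.of A (QuotSMulTop x A)) (ModuleCat.of A N) 0) :=
    subsingleton_ext_of_isWeaklyRegular (ModuleCat.of A N) rs.length
      (fun T _ hT => subsingleton_ext_of_isRegular N rs hmem hrs T hT)
      xs (QuotSMulTop x A) (fun y hy => hmemxs y (List.mem_cons_of_mem _ hy))
      hxs'.toIsWeaklyRegular hsupp 0 (by omega)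
  have h1 : Subsingleton (ModuleCat.of A (QuotSMulTop x A) ⟶ ModuleCat.of A N) :=
    Ext.addEquiv₀.subsingleton_congr.mp h0
  have h2 : Subsingleton (QuotSMulTop x A →ₗ[A] N) :=
    (ModuleCat.homAddEquiv (M := ModuleCat.of A (QuotSMulTop x A))
      (N := ModuleCat.of A N)).symm.subsingleton
  -- now the elementary part
  intro z z' hzz'
  have hw : x • (z - z') = 0 := by
    rw [smul_sub]; exact sub_eq_zero.mpr hzz'
  let f : A →ₗ[A] N := LinearMap.toSpanSingleton A N (z - z')
  have hf : x • (⊤ : Submodule A A) ≤ LinearMap.ker f := by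
    intro a ha
    obtain ⟨b, -, rfl⟩ := (Submodule.mem_smul_pointwise_iff_exists _ _ _).mp ha
    rw [LinearMap.mem_ker, LinearMap.toSpanSingleton_apply, smul_assoc, smul_comm, hw, smul_zero]
  have h3 : (Submodule.liftQ _ f hf) (Submodule.Quotient.mk 1) = z - z' := by
    rw [Submodule.liftQ_apply, LinearMap.toSpanSingleton_apply, one_smul]
  have h4 : Submodule.liftQ _ f hf = 0 := Subsingleton.elim _ _
  rw [h4, LinearMap.zero_apply] at h3
  exact sub_eq_zero.mp h3.symm



/-- Depth drops by (at most) one modulo a regular element. -/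
lemma exists_isRegular_quotSMulTop (N : Type u) [AddCommGroup N] [Module A N] [Module.Finite A N]
    (rs : List A) (n : ℕ) (hlen : rs.length = n + 1)
    (hmem : ∀ r ∈ rs, r ∈ maximalIdeal A) (hrs : IsRegular N rs)
    (x : A) (hxm : x ∈ maximalIdeal A) (hxN : IsSMulRegular N x) :
    ∃ rs' : List A, rs'.length = n ∧ (∀ r ∈ rs', r ∈ maximalIdeal A) ∧
      IsRegular (QuotSMulTop x N) rs' := by
  have := hrs.nontrivial
  have := nontrivial_quotSMulTop_of_mem_maximalIdeal N hxm
  let k := ModuleCat.of A (A ⧸ maximalIdeal A)
  have hsuppk : Module.support A k = PrimeSpectrum.zeroLocus (maximalIdeal A : Set A) := by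
    rw [Module.support_eq_zeroLocus, Ideal.annihilator_quotient]
  have hext : ∀ i < n + 1, Subsingleton (Ext k (ModuleCat.of A N) i) := fun i hi =>
    subsingleton_ext_of_isRegular N rs hmem hrs k hsuppk.subset i (hlen ▸ hi)
  have hext' : ∀ i < n, Subsingleton (Ext k (ModuleCat.of A (QuotSMulTop x N)) i) := by
    intro i hi
    have zero1 := AddCommGrpCat.isZero_of_iff_subsingleton.mpr (hext i (by omega))
    have zero2 := AddCommGrpCat.isZero_of_iff_subsingleton.mpr (hext (i + 1) (by omega))
    exact AddCommGrpCat.subsingleton_of_isZero <| ShortComplex.Exact.isZero_of_both_zeros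
      ((Ext.covariant_sequence_exact₃' k
        (IsSMulRegular.smulShortComplex_shortExact (M := ModuleCat.of A N) hxN)) i (i + 1) rfl)
      (zero1.eq_zero_of_src _) (zero2.eq_zero_of_tgt _)
  exact ModuleCat.exists_isRegular_of_exists_subsingleton_ext (maximalIdeal A) n
    (ModuleCat.of A (QuotSMulTop x N)) (smul_top_lt_top (QuotSMulTop x N)) k hsuppk hext'



theorem free_of_isRegular_aux : ∀ (n : ℕ) {A : Type u} [CommRing A] [IsLocalRing A]
    [IsNoetherianRing A] (xs : List A), xs.length = n → IsRegular A xs →
    Ideal.ofList xs = maximalIdeal A →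
    ∀ {N : Type u} [AddCommGroup N] [Module A N] [Module.Finite A N] (rs : List A),
      rs.length = n → (∀ r ∈ rs, r ∈ maximalIdeal A) → IsRegular N rs → Module.Free A N := by
  intro n
  induction n with
  | zero =>
    intro A _ _ _ xs hlen _ hspan N _ _ _ rs _ _ _
    rw [List.length_eq_zero_iff] at hlen
    subst hlen
    rw [Ideal.ofList_nil] at hspan
    have hfield : IsField A := isField_iff_maximalIdeal_eq.mpr hspan.symm
    let := hfield.toField
    exact Module.Free.of_divisionRing A N
  | succ n ih =>
    intro A _ _ _ xs hlen hxs hspan N _ _ _ rs hrlen hmem hrs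
    match xs, hlen with
    | x :: xs, hlen =>
      simp only [List.length_cons, Nat.add_left_inj] at hlen
      have hxm : x ∈ maximalIdeal A := hspan ▸ Ideal.subset_span List.mem_cons_self
      have hxN : IsSMulRegular N x :=
        isSMulRegular_head x xs hxs hspan N rs (by omega) hmem hrs
      obtain ⟨hxA, hxs'⟩ := (isRegular_cons_iff A x xs).mp hxs
      obtain ⟨rs', hrs'len, hrs'mem, hrs'⟩ :=
        exists_isRegular_quotSMulTop N rs n hrlen hmem hrs x hxm hxN
      -- the quotient ring
      have hne : Ideal.span {x} ≠ (⊤ : Ideal A) := fun h =>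
        (maximalIdeal.isMaximal A).ne_top
          (top_le_iff.mp (h ▸ (Ideal.span_singleton_le_iff_mem _).mpr hxm))
      have : Nontrivial (A ⧸ Ideal.span {x}) := Ideal.Quotient.nontrivial_iff.mpr hne
      have : IsLocalRing (A ⧸ Ideal.span {x}) :=
        IsLocalRing.of_surjective' (Ideal.Quotient.mk _) Ideal.Quotient.mk_surjective
      have : Module.Finite (A ⧸ Ideal.span {x}) (QuotSMulTop x N) :=
        Module.Finite.of_restrictScalars_finite A _ _
      have hmax : maximalIdeal (A ⧸ Ideal.span {x}) =
          (maximalIdeal A).map (Ideal.Quotient.mk (Ideal.span {x})) :=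
        (map_maximalIdeal_of_surjective _ Ideal.Quotient.mk_surjective).symm
      -- the regular system of parameters of the quotient ring
      have hxs'' : IsRegular (A ⧸ Ideal.span {x})
          (xs.map (Ideal.Quotient.mk (Ideal.span {x}))) := by
        let e : QuotSMulTop x A ≃ₗ[A] (A ⧸ Ideal.span {x}) :=
          Submodule.quotEquivOfEq _ _ (by
            rw [← Submodule.ideal_span_singleton_smul]; simp)
        refine (e.toAddEquiv.isRegular_congr ?_).mp hxs'
        refine List.forall₂_map_right_iff.mpr (List.forall₂_same.mpr fun r _ q => ?_)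
        change e (r • q) = _
        rw [map_smul, Algebra.smul_def]; rfl
      have hspan'' : Ideal.ofList (xs.map (Ideal.Quotient.mk (Ideal.span {x}))) =
          maximalIdeal (A ⧸ Ideal.span {x}) := by
        rw [hmax, ← hspan, Ideal.ofList_cons, Ideal.map_sup, ← Ideal.map_ofList,
          Ideal.map_quotient_self, bot_sup_eq]
      -- the regular sequence on the quotient module
      have hrs'' : IsRegular (QuotSMulTop x N)
          (rs'.map (Ideal.Quotient.mk (Ideal.span {x}))) := by
        refine ((AddEquiv.refl (QuotSMulTop x N)).isRegular_congr ?_).mp hrs'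
        refine List.forall₂_map_right_iff.mpr (List.forall₂_same.mpr fun r _ q => ?_)
        exact (algebraMap_smul (A ⧸ Ideal.span {x}) r q).symm
      have hfree : Module.Free (A ⧸ Ideal.span {x}) (QuotSMulTop x N) :=
        ih (xs.map (Ideal.Quotient.mk (Ideal.span {x}))) (by simpa using hlen) hxs'' hspan''
          (rs'.map (Ideal.Quotient.mk (Ideal.span {x}))) (by simpa using hrs'len)
          (by
            intro r hr
            obtain ⟨r0, hr0, rfl⟩ := List.mem_map.mp hr
            rw [hmax]
            exact Ideal.mem_map_of_mem _ (hrs'mem r0 hr0))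
          hrs''
      have := Module.finitePresentation_of_finite A N
      exact (Module.free_quotSMulTop_iff_free A N (maximalIdeal_le_jacobson _ hxm) hxN).mp hfree


end FreeOfRegular

universe u

open RingTheory.Sequence IsLocalRing

/-- INTERFACE (helper4 -> helper9).  A finitely generated module `N` over a Noetherian local ring
`A` whose maximal ideal is generated by an `A`-regular sequence `xs` (i.e. `A` is regular local of
dimension `xs.length`) is free as soon as it carries an `N`-regular sequence `rs` inside the maximal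
ideal of the same length (i.e. `N` is maximal Cohen-Macaulay). -/
theorem free_of_isRegular
    {A : Type u} [CommRing A] [IsLocalRing A] [IsNoetherianRing A]
    (xs : List A) (hxs : IsRegular A xs)
    (hspan : Ideal.ofList xs = maximalIdeal A)
    {N : Type u} [AddCommGroup N] [Module A N] [Module.Finite A N]
    (rs : List A) (hlen : rs.length = xs.length)
    (hmem : ∀ r ∈ rs, r ∈ maximalIdeal A)
    (hrs : IsRegular N rs) :
    Module.Free A N :=
  FreeOfRegular.free_of_isRegular_aux xs.length xs rfl hxs hspan rs hlen hmem hrs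

end Fermat.Agent.S57
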